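import Mathlib
import Fermat.Prelude.Def_GaloisRep_Adic
import Fermat.Prelude.Def_GaloisRep_DeformationCondition

/-!
# Two-dimensional Galois representations as matrix-valued homomorphisms

The coefficients are local rings in which `p` is not a unit, so the first section records that the
integers prime to `p` are units there, and that units of matrices over the residue field lift.
-/

set_option autoImplicit false

noncomputable section

namespace Fermat.GR

local notation "Γℚ" => (AlgebraicClosure ℚ ≃ₐ[ℚ] AlgebraicClosure ℚ)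
local notation "M2" R => Matrix (Fin 2) (Fin 2) R

section Units

/-! ## Units of the coefficient rings -/

variable {T : Type*} [CommRing T] [IsLocalRing T] {p : ℕ}

/-- A natural number prime to `p` is a unit where `p` is not. -/
theorem isUnit_natCast_of_not_dvd {u : ℕ} (hp : p.Prime)
    (hpT : (p : T) ∈ IsLocalRing.maximalIdeal T) (hu : ¬ p ∣ u) : IsUnit (u : T) := by
  obtain ⟨a, c, hac⟩ := (Nat.Coprime.isCoprime (hp.coprime_iff_not_dvd.mpr hu)).symm
  by_contra hnu
  apply (IsLocalRing.maximalIdeal.isMaximal T).ne_top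
  rw [Ideal.eq_top_iff_one]
  have h1 : (a : T) * (u : T) + (c : T) * (p : T) = 1 := by
    exact_mod_cast congrArg (Int.cast : ℤ → T) hac
  rw [← h1]
  exact add_mem (Ideal.mul_mem_left _ _ hnu) (Ideal.mul_mem_left _ _ hpT)

/-- A prime other than `p` is a unit where `p` is not. -/
theorem isUnit_natCast_of_prime_ne [hp : Fact p.Prime]
    (hpT : (p : T) ∈ IsLocalRing.maximalIdeal T) {q : ℕ} (hq : q.Prime) (hqp : q ≠ p) :
    IsUnit (q : T) :=
  isUnit_natCast_of_not_dvd hp.out hpT fun h =>
    hqp ((Nat.prime_dvd_prime_iff_eq hp.out hq).mp h).symm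

/-- `2` is a unit where an odd prime is not. -/
theorem isUnit_two_of_mem [hp : Fact p.Prime] (hp2 : p ≠ 2)
    (hpT : (p : T) ∈ IsLocalRing.maximalIdeal T) : IsUnit (2 : T) := by
  exact_mod_cast isUnit_natCast_of_prime_ne hpT Nat.prime_two hp2.symm

/-- Units of matrices over the residue field lift. -/
theorem exists_unit_lift {B : Type} [CommRing B] [IsLocalRing B]
    (Q : (M2 (IsLocalRing.ResidueField B))ˣ) :
    ∃ P : (M2 B)ˣ,
      (IsLocalRing.residue B).mapMatrix (P : M2 B) = (Q : M2 (IsLocalRing.ResidueField B)) := by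
  choose M₀ hM₀ using fun i j =>
    IsLocalRing.residue_surjective ((Q : M2 (IsLocalRing.ResidueField B)) i j)
  have hM : (IsLocalRing.residue B).mapMatrix (Matrix.of M₀) =
      (Q : M2 (IsLocalRing.ResidueField B)) := Matrix.ext fun i j => hM₀ i j
  have hu : IsUnit (Matrix.of M₀) := by
    rw [Matrix.isUnit_iff_isUnit_det]
    by_contra hd
    have h0 := (IsLocalRing.residue_eq_zero_iff _).mpr hd
    rw [RingHom.map_det, hM] at h0
    exact ((Matrix.isUnit_iff_isUnit_det _).mp Q.isUnit).ne_zero h0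
  exact ⟨hu.unit, hM⟩

end Units

/-! ## Matrices of representations -/

section Linear

variable {R V W : Type} [CommRing R] [AddCommGroup V] [Module R V] [AddCommGroup W] [Module R W]
  (b : Module.Basis (Fin 2) R V) (c : Module.Basis (Fin 2) R W)

/-- The matrix of an isomorphism, as a unit. -/
def equivUnit (e : V ≃ₗ[R] W) : (M2 R)ˣ where
  val := LinearMap.toMatrix b c e.toLinearMap
  inv := LinearMap.toMatrix c b e.symm.toLinearMap
  val_inv := by
    rw [← LinearMap.toMatrix_comp c b c, ← LinearMap.toMatrix_id c]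
    congr 1
    ext x; simp
  inv_val := by
    rw [← LinearMap.toMatrix_comp b c b, ← LinearMap.toMatrix_id b]
    congr 1
    ext x; simp

/-- The isomorphism attached to an invertible matrix. -/
def unitEquiv (P : (M2 R)ˣ) : V ≃ₗ[R] W :=
  LinearEquiv.ofLinearMap (Matrix.toLin b c P) (Matrix.toLin c b ↑P⁻¹)
    (by rw [← Matrix.toLin_mul, P.mul_inv, Matrix.toLin_one])
    (by rw [← Matrix.toLin_mul, P.inv_mul, Matrix.toLin_one])

/-- The matrix of an intertwining isomorphism intertwines the matrices. -/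
theorem equivUnit_intertwine (e : V ≃ₗ[R] W) (f : Module.End R V) (g : Module.End R W)
    (h : ∀ x, e (f x) = g (e x)) :
    (equivUnit b c e : M2 R) * LinearMap.toMatrix b b f =
      LinearMap.toMatrix c c g * (equivUnit b c e : M2 R) := by
  change LinearMap.toMatrix b c e.toLinearMap * _ = _ * LinearMap.toMatrix b c e.toLinearMap
  rw [← LinearMap.toMatrix_comp b b c, ← LinearMap.toMatrix_comp b c c]
  congr 1
  ext x; exact h x

/-- An intertwining matrix gives an intertwining isomorphism. -/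
theorem unitEquiv_intertwine (P : (M2 R)ˣ) (f : Module.End R V) (g : Module.End R W)
    (h : (P : M2 R) * LinearMap.toMatrix b b f = LinearMap.toMatrix c c g * (P : M2 R)) (x : V) :
    unitEquiv b c P (f x) = g (unitEquiv b c P x) := by
  have h' := congrArg (Matrix.toLin b c) h
  rw [Matrix.toLin_mul b b c, Matrix.toLin_mul b c c, Matrix.toLin_toMatrix, Matrix.toLin_toMatrix]
    at h'
  exact LinearMap.congr_fun h' x

end Linear

variable {A : Type} [CommRing A] [IsLocalRing A]

/-- Continuity of a matrix-valued homomorphism for the maximal-ideal adic topology. -/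
def MatCont (r : Γℚ →* M2 A) : Prop :=
  ∀ n : ℕ, ∃ L : IntermediateField ℚ (AlgebraicClosure ℚ), FiniteDimensional ℚ L ∧
    ∀ σ : Γℚ, (∀ x ∈ L, σ x = x) → ∀ i j, (r σ - 1) i j ∈ IsLocalRing.maximalIdeal A ^ n

/-- The representation on `A²` attached to a matrix-valued homomorphism. -/
def repOf (r : Γℚ →* M2 A) (hr : MatCont r) : GaloisRepAdic A where
  V := Fin 2 → A
  finrank_eq := Module.finrank_fin_fun A
  ρ := (Matrix.toLinAlgEquiv' : (M2 A) ≃ₐ[A] Module.End A (Fin 2 → A)).toMonoidHom.comp r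
  isAdicContinuous := by
    intro n
    obtain ⟨L, hL, h⟩ := hr n
    refine ⟨L, hL, fun σ hσ v => ?_⟩
    change Matrix.toLinAlgEquiv' (r σ) v - v ∈ _
    have : Matrix.toLinAlgEquiv' (r σ) v - v =
        ∑ i, ∑ j, ((r σ - 1) i j) • (v j • (Pi.single i 1 : Fin 2 → A)) := by
      ext i
      fin_cases i <;> simp [Matrix.toLinAlgEquiv'_apply,
        Fin.sum_univ_two, Pi.single_apply] <;> ring
    rw [this]
    exact Submodule.sum_mem _ fun i _ => Submodule.sum_mem _ fun j _ =>
      Submodule.smul_mem_smul (h σ hσ i j) Submodule.mem_top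

/-- The matrices of `repOf r` in the standard basis are those of `r`. -/
theorem toMatrix_repOf (r : Γℚ →* M2 A) (hr : MatCont r) (σ : Γℚ) :
    LinearMap.toMatrix (Pi.basisFun A (Fin 2)) (Pi.basisFun A (Fin 2))
      ((repOf r hr).ρ σ) = r σ := by
  rw [LinearMap.toMatrix_eq_toMatrix']
  exact (LinearMap.toMatrixAlgEquiv' (R := A) (n := Fin 2)).apply_symm_apply (r σ)

/-- The matrices of a representation in a basis. -/
def matOf (ρ : GaloisRepAdic A) (b : Module.Basis (Fin 2) A ρ.V) : Γℚ →* M2 A :=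
  (LinearMap.toMatrixAlgEquiv b : Module.End A ρ.V ≃ₐ[A] M2 A).toMonoidHom.comp ρ.ρ

/-- The matrix at an element of the group. -/
theorem matOf_apply (ρ : GaloisRepAdic A) (b : Module.Basis (Fin 2) A ρ.V) (σ : Γℚ) :
    matOf ρ b σ = LinearMap.toMatrix b b (ρ.ρ σ) := rfl

/-- The matrix representation in a basis is continuous. -/
theorem matCont_matOf (ρ : GaloisRepAdic A) (b : Module.Basis (Fin 2) A ρ.V) :
    MatCont (matOf ρ b) := by
  intro n
  obtain ⟨L, hL, h⟩ := ρ.isAdicContinuous n
  refine ⟨L, hL, fun σ hσ i j => ?_⟩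
  have he : (matOf ρ b σ - 1) i j = b.repr (ρ.ρ σ (b j) - b j) i := by
    rw [matOf_apply, Matrix.sub_apply, LinearMap.toMatrix_apply, map_sub, Finsupp.sub_apply,
      Module.Basis.repr_self, Matrix.one_apply, Finsupp.single_apply]
    simp [eq_comm]
  rw [he]
  refine Submodule.smul_induction_on (p := fun x => b.repr x i ∈ IsLocalRing.maximalIdeal A ^ n)
    (h σ hσ (b j)) ?_ ?_
  · intro a ha v _
    simpa using Ideal.mul_mem_right (b.repr v i) _ ha
  · intro x y hx hy
    simpa using Ideal.add_mem _ hx hy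

/-- A basis of the space of a representation. -/
def someBasis (ρ : GaloisRepAdic A) : Module.Basis (Fin 2) A ρ.V :=
  (Module.Free.chooseBasis A ρ.V).reindex
    (Fintype.equivFinOfCardEq (by rw [← Module.finrank_eq_card_chooseBasisIndex, ρ.finrank_eq]))

/-- A representation is equivalent to that of its matrices. -/
theorem equiv_repOf_matOf (ρ : GaloisRepAdic A) (b : Module.Basis (Fin 2) A ρ.V) :
    ρ.IsEquiv (repOf (matOf ρ b) (matCont_matOf ρ b)) :=
  ⟨{ toLinearEquiv := unitEquiv b (Pi.basisFun A (Fin 2)) 1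
     map_apply := fun σ x => unitEquiv_intertwine b (Pi.basisFun A (Fin 2)) 1 (ρ.ρ σ)
       ((repOf (matOf ρ b) (matCont_matOf ρ b)).ρ σ) (by
        rw [toMatrix_repOf, matOf_apply, Units.val_one, one_mul, mul_one]) x }⟩

/-- Equivalence of matrix representations is conjugacy. -/
theorem isEquiv_repOf_iff (r r' : Γℚ →* M2 A) (hr : MatCont r) (hr' : MatCont r') :
    (repOf r hr).IsEquiv (repOf r' hr') ↔
      ∃ P : (M2 A)ˣ, ∀ σ, (P : M2 A) * r σ = r' σ * (P : M2 A) := by
  constructor
  · rintro ⟨e⟩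
    refine ⟨equivUnit (Pi.basisFun A (Fin 2)) (Pi.basisFun A (Fin 2)) e.toLinearEquiv, fun σ => ?_⟩
    have := equivUnit_intertwine (Pi.basisFun A (Fin 2)) (Pi.basisFun A (Fin 2)) e.toLinearEquiv
      ((repOf r hr).ρ σ) ((repOf r' hr').ρ σ) (e.map_apply σ)
    rwa [toMatrix_repOf, toMatrix_repOf] at this
  · rintro ⟨P, hP⟩
    exact ⟨{ toLinearEquiv := unitEquiv (Pi.basisFun A (Fin 2)) (Pi.basisFun A (Fin 2)) P
             map_apply := fun σ x => unitEquiv_intertwine (Pi.basisFun A (Fin 2))
               (Pi.basisFun A (Fin 2)) P ((repOf r hr).ρ σ) ((repOf r' hr').ρ σ)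
               (by rw [toMatrix_repOf, toMatrix_repOf]; exact hP σ) x }⟩

/-- Conjugation of a matrix-valued homomorphism. -/
def conjHom (P : (M2 A)ˣ) (r : Γℚ →* M2 A) : Γℚ →* M2 A where
  toFun σ := (P : M2 A) * r σ * (↑P⁻¹ : M2 A)
  map_one' := by rw [map_one, mul_one, P.mul_inv]
  map_mul' σ τ := by simp [map_mul, mul_assoc]

/-- Conjugation keeps continuity. -/
theorem matCont_conjHom {r : Γℚ →* M2 A} (hr : MatCont r) (P : (M2 A)ˣ) :
    MatCont (conjHom P r) := by
  intro n
  obtain ⟨L, hL, h⟩ := hr n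
  refine ⟨L, hL, fun σ hσ i j => ?_⟩
  have : conjHom P r σ - 1 = (P : M2 A) * (r σ - 1) * (↑P⁻¹ : M2 A) := by
    rw [mul_sub, sub_mul, mul_one, P.mul_inv]; rfl
  rw [this, Matrix.mul_apply]
  refine Ideal.sum_mem _ fun k _ => ?_
  rw [Matrix.mul_apply]
  exact Ideal.mul_mem_right _ _ (Ideal.sum_mem _ fun l _ => Ideal.mul_mem_left _ _ (h σ hσ l k))

/-- A conjugate is equivalent. -/
theorem isEquiv_conjHom {r : Γℚ →* M2 A} (hr : MatCont r) (P : (M2 A)ˣ) :
    (repOf r hr).IsEquiv (repOf (conjHom P r) (matCont_conjHom hr P)) :=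
  (isEquiv_repOf_iff _ _ _ _).mpr ⟨P, fun σ => by
    change _ = (P : M2 A) * r σ * (↑P⁻¹ : M2 A) * (P : M2 A)
    rw [mul_assoc ((P : M2 A) * r σ), P.inv_mul, mul_one]⟩

variable {B : Type} [CommRing B] [IsLocalRing B]

/-- Push a matrix-valued homomorphism along a ring homomorphism. -/
def mapHom (φ : A →+* B) (r : Γℚ →* M2 A) : Γℚ →* M2 B :=
  (φ.mapMatrix (m := Fin 2)).toMonoidHom.comp r

omit [IsLocalRing A] [IsLocalRing B] in
/-- The entries of the pushed homomorphism. -/
theorem mapHom_apply (φ : A →+* B) (r : Γℚ →* M2 A) (σ : Γℚ) (i j : Fin 2) :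
    mapHom φ r σ i j = φ (r σ i j) := rfl

/-- Pushing along a local homomorphism keeps continuity. -/
theorem matCont_mapHom {r : Γℚ →* M2 A} (hr : MatCont r) (φ : A →+* B) (hφ : IsLocalHom φ) :
    MatCont (mapHom φ r) := by
  intro n
  obtain ⟨L, hL, h⟩ := hr n
  refine ⟨L, hL, fun σ hσ i j => ?_⟩
  have hmap : (IsLocalRing.maximalIdeal A ^ n).map φ ≤ IsLocalRing.maximalIdeal B ^ n := by
    rw [Ideal.map_pow]
    exact Ideal.pow_right_mono (Ideal.map_le_iff_le_comap.mpr fun a ha =>
      Ideal.mem_comap.mpr (haveI := hφ; map_nonunit φ a ha)) n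
  have : (mapHom φ r σ - 1) i j = φ ((r σ - 1) i j) := by
    by_cases hij : i = j <;> simp [mapHom_apply, hij]
  rw [this]
  exact hmap (Ideal.mem_map_of_mem φ (h σ hσ i j))

/-- Base change of a matrix representation is pushing the matrices. -/
theorem isEquiv_baseChange {r : Γℚ →* M2 A} (hr : MatCont r) (φ : A →+* B) (hφ : IsLocalHom φ) :
    ((repOf r hr).baseChangeAlong φ hφ).IsEquiv (repOf (mapHom φ r) (matCont_mapHom hr φ hφ)) := by
  let : Algebra A B := φ.toAlgebra
  refine ⟨{ toLinearEquiv := unitEquiv (Algebra.TensorProduct.basis B (Pi.basisFun A (Fin 2)))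
              (Pi.basisFun B (Fin 2)) 1
            map_apply := fun σ x => unitEquiv_intertwine
              (Algebra.TensorProduct.basis B (Pi.basisFun A (Fin 2))) (Pi.basisFun B (Fin 2)) 1
              (((repOf r hr).ρ σ).baseChange B) _ ?_ x }⟩
  rw [toMatrix_repOf, Units.val_one, one_mul, mul_one]
  refine (LinearMap.toMatrix_baseChange _ _ (Pi.basisFun A (Fin 2))
    (Pi.basisFun A (Fin 2))).trans ?_
  rw [toMatrix_repOf]
  rfl

/-! ### Residual representations -/

section Residual

variable {k : Type} [Field k] (ρbar : ResidualGaloisRep k)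

/-- The matrices of a residual representation in a basis. -/
def resMat (b : Module.Basis (Fin 2) k ρbar.V) : Γℚ →* M2 k :=
  (LinearMap.toMatrixAlgEquiv b : Module.End k ρbar.V ≃ₐ[k] M2 k).toMonoidHom.comp ρbar.ρ

/-- Residual equivalence of a matrix representation is conjugacy of the reduced matrices. -/
theorem residual_isEquiv_iff {r : Γℚ →* M2 A} (hr : MatCont r) (b : Module.Basis (Fin 2) k ρbar.V)
    (ψ : k →+* IsLocalRing.ResidueField A) :
    (repOf r hr).residual.IsEquiv (ρbar.baseChangeAlong ψ) ↔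
      ∃ P : (M2 (IsLocalRing.ResidueField A))ˣ, ∀ σ,
        (P : M2 (IsLocalRing.ResidueField A)) * (r σ).map (IsLocalRing.residue A) =
          (resMat ρbar b σ).map ψ * (P : M2 (IsLocalRing.ResidueField A)) := by
  let : Algebra k (IsLocalRing.ResidueField A) := ψ.toAlgebra
  set b₁ := Algebra.TensorProduct.basis (IsLocalRing.ResidueField A) (Pi.basisFun A (Fin 2))
  set b₂ := Algebra.TensorProduct.basis (IsLocalRing.ResidueField A) b
  have h₁ : ∀ σ, LinearMap.toMatrix b₁ b₁
      (((repOf r hr).ρ σ).baseChange (IsLocalRing.ResidueField A)) =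
        (r σ).map (IsLocalRing.residue A) := fun σ => by
    refine (LinearMap.toMatrix_baseChange _ _ (Pi.basisFun A (Fin 2))
      (Pi.basisFun A (Fin 2))).trans ?_
    rw [toMatrix_repOf]; rfl
  have h₂ : ∀ σ, LinearMap.toMatrix b₂ b₂ ((ρbar.ρ σ).baseChange (IsLocalRing.ResidueField A)) =
      (resMat ρbar b σ).map ψ := fun σ =>
    (LinearMap.toMatrix_baseChange _ _ b b).trans rfl
  constructor
  · rintro ⟨e⟩
    refine ⟨equivUnit b₁ b₂ e.toLinearEquiv, fun σ => ?_⟩
    have := equivUnit_intertwine b₁ b₂ e.toLinearEquiv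
      (((repOf r hr).ρ σ).baseChange (IsLocalRing.ResidueField A))
      ((ρbar.ρ σ).baseChange (IsLocalRing.ResidueField A)) (e.map_apply σ)
    rwa [h₁, h₂] at this
  · rintro ⟨P, hP⟩
    exact ⟨{ toLinearEquiv := unitEquiv b₁ b₂ P
             map_apply := fun σ x => unitEquiv_intertwine b₁ b₂ P
               (((repOf r hr).ρ σ).baseChange (IsLocalRing.ResidueField A))
               ((ρbar.ρ σ).baseChange (IsLocalRing.ResidueField A))
               (by rw [h₁, h₂]; exact hP σ) x }⟩

/-- The residual representation only depends on the equivalence class. -/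
theorem residual_isEquiv_congr {ρ ρ' : GaloisRepAdic A} (h : ρ.IsEquiv ρ')
    {σ : ResidualGaloisRep (IsLocalRing.ResidueField A)} (h' : ρ.residual.IsEquiv σ) :
    ρ'.residual.IsEquiv σ := by
  obtain ⟨e⟩ := h
  obtain ⟨e'⟩ := h'
  exact ⟨e.symm.residual.trans e'⟩

/-- Over a field a residual representation, viewed as an adic one, has matrices `resMat`. -/
theorem isEquiv_ofResidual (b : Module.Basis (Fin 2) k ρbar.V) (hc : MatCont (resMat ρbar b)) :
    (GaloisRepAdic.ofResidualGaloisRep ρbar).IsEquiv (repOf (resMat ρbar b) hc) :=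
  equiv_repOf_matOf (GaloisRepAdic.ofResidualGaloisRep ρbar) b

/-- The residual matrices are continuous. -/
theorem matCont_resMat (b : Module.Basis (Fin 2) k ρbar.V) : MatCont (resMat ρbar b) :=
  matCont_matOf (GaloisRepAdic.ofResidualGaloisRep ρbar) b

end Residual

end Fermat.GR
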