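import Mathlib
import Fermat.Agent.GR.Deform.MatrixRep

/-!
# Normalised representatives of deformations

With fixed Galois elements we rigidify deformations of an absolutely irreducible two-dimensional
residual representation: a chosen element of the group algebra acts diagonally and a chosen
lower-left entry is `1`.
-/

set_option autoImplicit false

noncomputable section

namespace Fermat.GR

local notation "Γℚ" => (AlgebraicClosure ℚ ≃ₐ[ℚ] AlgebraicClosure ℚ)
local notation "M2" R => Matrix (Fin 2) (Fin 2) R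

open IsLocalRing

/-- The data used to normalise deformations. -/
structure NormData (𝒪 : Type) [CommRing 𝒪] [IsLocalRing 𝒪] : Type where
  /-- The number of terms of the distinguished element. -/
  len : ℕ
  /-- The Galois elements of the distinguished element. -/
  g : Fin len → Γℚ
  /-- The coefficients of the distinguished element. -/
  c : Fin len → 𝒪
  /-- The element whose lower left entry is normalised to `1`. -/
  g₀ : Γℚ
  /-- Fixed matrices lifting the residual representation; only their residues matter. -/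
  bar : Γℚ → M2 𝒪
  /-- The distinguished element is residually `diag (0, 1)`. -/
  diag_cond : ∀ i j, (∑ l, c l • bar (g l)) i j - (if i = 1 ∧ j = 1 then 1 else 0) ∈ maximalIdeal 𝒪
  /-- The lower left entry at `g₀` is residually `1`. -/
  g₀_cond : bar g₀ 1 0 - 1 ∈ maximalIdeal 𝒪

namespace NormData

variable {𝒪 : Type} [CommRing 𝒪] [IsLocalRing 𝒪] (D : NormData 𝒪)
variable {A : Type} [CommRing A] [IsLocalRing A] [Algebra 𝒪 A]

/-- The distinguished element, evaluated at a representation. -/
def elt (r : Γℚ →* M2 A) : M2 A := ∑ l, D.c l • r (D.g l)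

omit [IsLocalRing A] in
/-- The entries of the distinguished element. -/
theorem elt_apply (r : Γℚ →* M2 A) (i j : Fin 2) :
    D.elt r i j = ∑ l, algebraMap 𝒪 A (D.c l) * r (D.g l) i j := by
  rw [elt, Matrix.sum_apply]
  exact Finset.sum_congr rfl fun l _ => by rw [Matrix.smul_apply, Algebra.smul_def]

/-- `r` reduces to the fixed residual matrices. -/
def IsRed (r : Γℚ →* M2 A) : Prop :=
  ∀ σ i j, r σ i j - algebraMap 𝒪 A (D.bar σ i j) ∈ maximalIdeal A

/-- `r` is normalised. -/
structure IsNormal (r : Γℚ →* M2 A) : Prop where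
  /-- `r` reduces to the fixed residual matrices. -/
  red : D.IsRed r
  /-- The distinguished element has upper right entry `0`. -/
  elt_01 : D.elt r 0 1 = 0
  /-- The distinguished element has lower left entry `0`. -/
  elt_10 : D.elt r 1 0 = 0
  /-- The lower left entry at `g₀` is `1`. -/
  g₀_10 : r D.g₀ 1 0 = 1

/-- The distinguished element reduces to `diag (0, 1)`. -/
theorem elt_red [IsLocalHom (algebraMap 𝒪 A)] {r : Γℚ →* M2 A} (hr : D.IsRed r) (i j : Fin 2) :
    D.elt r i j - (if i = 1 ∧ j = 1 then 1 else 0) ∈ maximalIdeal A := by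
  have h1 : D.elt r i j - algebraMap 𝒪 A ((∑ l, D.c l • D.bar (D.g l)) i j) ∈ maximalIdeal A := by
    rw [elt_apply, Matrix.sum_apply, map_sum, ← Finset.sum_sub_distrib]
    refine Ideal.sum_mem _ fun l _ => ?_
    rw [Matrix.smul_apply, smul_eq_mul, map_mul, ← mul_sub]
    exact Ideal.mul_mem_left _ _ (hr _ i j)
  have h2 : algebraMap 𝒪 A ((∑ l, D.c l • D.bar (D.g l)) i j -
      (if i = 1 ∧ j = 1 then 1 else 0)) ∈ maximalIdeal A :=
    map_nonunit (algebraMap 𝒪 A) _ (D.diag_cond i j)
  have := add_mem h1 h2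
  rw [map_sub, sub_add_sub_cancel] at this
  split_ifs at this ⊢ <;> simpa using this

omit [IsLocalRing A] in
/-- The distinguished element of a conjugate is the conjugate. -/
theorem elt_conjHom (r : Γℚ →* M2 A) (P : (M2 A)ˣ) :
    D.elt (conjHom P r) = (P : M2 A) * D.elt r * (↑P⁻¹ : M2 A) := by
  simp only [elt, Matrix.mul_sum, Matrix.sum_mul]
  exact Finset.sum_congr rfl fun l _ => by
    rw [Matrix.mul_smul, Matrix.smul_mul]; rfl

/-- The diagonal entries of distinguished elements differ by units. -/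
theorem isUnit_elt_sub [IsLocalHom (algebraMap 𝒪 A)] {r r' : Γℚ →* M2 A} (hr : D.IsRed r)
    (hr' : D.IsRed r') : IsUnit (D.elt r 1 1 - D.elt r' 0 0) := by
  have h1 := D.elt_red hr 1 1
  have h2 := D.elt_red hr' 0 0
  simp at h1 h2
  by_contra h
  have h3 : D.elt r 1 1 - D.elt r' 0 0 ∈ maximalIdeal A := h
  exact (maximalIdeal.isMaximal A).ne_top ((Ideal.eq_top_iff_one _).mpr (by
    simpa using sub_mem (add_mem h3 h2) h1))

/-- Rigidity: equivalent normalised representatives are equal. -/
theorem IsNormal.eq_of_conj [IsLocalHom (algebraMap 𝒪 A)] {r r' : Γℚ →* M2 A} (h : D.IsNormal r)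
    (h' : D.IsNormal r') (P : (M2 A)ˣ) (hP : ∀ σ, (P : M2 A) * r σ = r' σ * (P : M2 A)) :
    r = r' := by
  have hx : (P : M2 A) * D.elt r = D.elt r' * (P : M2 A) := by
    simp only [elt, Matrix.mul_sum, Matrix.sum_mul]
    exact Finset.sum_congr rfl fun l _ => by rw [Matrix.mul_smul, Matrix.smul_mul, hP]
  have e01 := congrFun (congrFun hx 0) 1
  have e10 := congrFun (congrFun hx 1) 0
  simp only [Matrix.mul_apply, Fin.sum_univ_two, h.elt_01, h.elt_10, h'.elt_01, h'.elt_10,
    mul_zero, zero_mul, zero_add, add_zero] at e01 e10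
  -- `P` commutes with a diagonal element with distinct residual entries, so it is diagonal
  have p01 : (P : M2 A) 0 1 = 0 :=
    (D.isUnit_elt_sub h.red h'.red).mul_right_eq_zero.mp (by linear_combination e01)
  have p10 : (P : M2 A) 1 0 = 0 :=
    (D.isUnit_elt_sub h'.red h.red).mul_right_eq_zero.mp (by linear_combination -e10)
  have hdet : IsUnit ((P : M2 A) 0 0 * (P : M2 A) 1 1) := by
    have := (Matrix.isUnit_iff_isUnit_det _).mp P.isUnit
    simpa [Matrix.det_fin_two, p01, p10] using this
  obtain ⟨hp, hq⟩ := IsUnit.mul_iff.mp hdet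
  have hg := congrFun (congrFun (hP D.g₀) 1) 0
  simp only [Matrix.mul_apply, Fin.sum_univ_two, h.g₀_10, h'.g₀_10, p10, mul_zero, zero_mul,
    zero_add, add_zero, mul_one, one_mul] at hg
  -- and the `g₀` entry makes it scalar
  have hPs : (P : M2 A) = Matrix.scalar (Fin 2) ((P : M2 A) 0 0) := by
    ext i j
    fin_cases i <;> fin_cases j <;> simp [p01, p10, hg]
  refine MonoidHom.ext fun σ => ?_
  have := hP σ
  rw [hPs, Matrix.scalar_apply, ← Matrix.smul_one_eq_diagonal, Matrix.smul_mul, Matrix.one_mul,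
    Matrix.mul_smul, Matrix.mul_one] at this
  exact hp.smul_left_cancel.mp this

/-- Equivalent normalised representatives are equal. -/
theorem IsNormal.eq_of_isEquiv [IsLocalHom (algebraMap 𝒪 A)] {r r' : Γℚ →* M2 A}
    {hr : MatCont r} {hr' : MatCont r'} (h : D.IsNormal r) (h' : D.IsNormal r')
    (he : (repOf r hr).IsEquiv (repOf r' hr')) : r = r' := by
  obtain ⟨P, hP⟩ := (isEquiv_repOf_iff _ _ _ _).mp he
  exact IsNormal.eq_of_conj D h h' P hP

/-- A change of basis, residually `diag (1, -1)`, making the distinguished element diagonal. -/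
private theorem exists_eigenBasis [IsLocalHom (algebraMap 𝒪 A)] [IsAdicComplete (maximalIdeal A) A]
    {r : Γℚ →* M2 A} (hred : D.IsRed r) :
    ∃ (U : (M2 A)ˣ) (lam mu : A),
      (U : M2 A).map (residue A) = !![1, 0; 0, -1] ∧
      (↑U⁻¹ : M2 A).map (residue A) = !![1, 0; 0, -1] ∧
      D.elt (conjHom U⁻¹ r) = Matrix.diagonal ![lam, mu] := by
  set M := D.elt r with hM
  have hM00 : M 0 0 ∈ maximalIdeal A := by simpa using D.elt_red hred 0 0
  have hM01 : M 0 1 ∈ maximalIdeal A := by simpa using D.elt_red hred 0 1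
  have hM10 : M 1 0 ∈ maximalIdeal A := by simpa using D.elt_red hred 1 0
  have hM11 : M 1 1 - 1 ∈ maximalIdeal A := by simpa using D.elt_red hred 1 1
  -- the root of the characteristic polynomial lifting `0`
  let f : Polynomial A := Polynomial.X ^ 2 -
    Polynomial.C (M 0 0 + M 1 1) * Polynomial.X + Polynomial.C (M 0 0 * M 1 1 - M 0 1 * M 1 0)
  have hf : f.Monic := by simp only [f]; monicity!
  have hf0 : f.eval 0 ∈ maximalIdeal A := by
    simp only [f, Polynomial.eval_add, Polynomial.eval_sub, Polynomial.eval_pow, Polynomial.eval_X,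
      Polynomial.eval_mul, Polynomial.eval_C]
    simp only [ne_eq, OfNat.ofNat_ne_zero, not_false_eq_true, zero_pow, mul_zero,
      sub_zero, zero_add]
    exact sub_mem (Ideal.mul_mem_right _ _ hM00) (Ideal.mul_mem_left _ _ hM10)
  have hf' : IsUnit (Ideal.Quotient.mk (maximalIdeal A) (f.derivative.eval 0)) := by
    have : f.derivative.eval 0 = -(M 0 0 + M 1 1) := by simp [f, Polynomial.derivative_pow]
    rw [this, map_neg, IsUnit.neg_iff, map_add, Ideal.Quotient.eq_zero_iff_mem.mpr hM00, zero_add,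
      Ideal.Quotient.eq.mpr hM11, map_one]
    exact isUnit_one
  obtain ⟨lam, hroot, hlam⟩ := HenselianRing.is_henselian f hf 0 hf0 hf'
  rw [sub_zero] at hlam
  simp only [Polynomial.IsRoot, f, Polynomial.eval_add, Polynomial.eval_sub, Polynomial.eval_pow,
    Polynomial.eval_X, Polynomial.eval_mul, Polynomial.eval_C] at hroot
  set mu := M 0 0 + M 1 1 - lam with hmu
  have r00 : residue A (M 0 0) = 0 := (residue_eq_zero_iff _).mpr hM00
  have r01 : residue A (M 0 1) = 0 := (residue_eq_zero_iff _).mpr hM01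
  have r10 : residue A (M 1 0) = 0 := (residue_eq_zero_iff _).mpr hM10
  have r11 : residue A (M 1 1) = 1 := by
    rw [← map_one (residue A), ← sub_eq_zero, ← map_sub, residue_eq_zero_iff]; exact hM11
  have rl : residue A lam = 0 := (residue_eq_zero_iff _).mpr hlam
  -- columns: eigenvectors for `lam` and `mu`
  let V : M2 A := !![M 1 1 - lam, -M 0 1; -M 1 0, M 0 0 - mu]
  let J : M2 (ResidueField A) := !![1, 0; 0, -1]
  have hJ : J * J = 1 := by
    ext i j; fin_cases i <;> fin_cases j <;> simp [J, Matrix.mul_apply, Fin.sum_univ_two]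
  have hVr : V.map (residue A) = J := by
    ext i j
    fin_cases i <;> fin_cases j <;> simp [V, J, hmu, r00, r01, r10, r11, rl]
  have hV : IsUnit V := by
    rw [Matrix.isUnit_iff_isUnit_det]
    by_contra h
    have h0 : residue A V.det = 0 := (residue_eq_zero_iff _).mpr h
    rw [RingHom.map_det, RingHom.mapMatrix_apply, hVr] at h0
    simp [J, Matrix.det_fin_two] at h0
  obtain ⟨U, hU⟩ := hV
  have hMV : M * V = V * Matrix.diagonal ![lam, mu] := by
    ext i j
    fin_cases i <;> fin_cases j <;>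
      simp [V, Matrix.mul_apply, Fin.sum_univ_two, Matrix.diagonal, hmu] <;>
      first | ring1 | linear_combination hroot
  have hUr : (↑U⁻¹ : M2 A).map (residue A) = J := by
    have h2 : ((↑U⁻¹ : M2 A) * (U : M2 A)).map (residue A) = (1 : M2 A).map (residue A) := by
      rw [U.inv_mul]
    rw [Matrix.map_mul, hU, hVr, Matrix.map_one _ (map_zero _) (map_one _)] at h2
    calc (↑U⁻¹ : M2 A).map (residue A) = (↑U⁻¹ : M2 A).map (residue A) * J * J := by
          rw [mul_assoc, hJ, mul_one]
      _ = J := by rw [h2, one_mul]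
  refine ⟨U, lam, mu, by rw [hU, hVr], hUr, ?_⟩
  rw [D.elt_conjHom]
  change (↑U⁻¹ : M2 A) * M * (↑(U⁻¹)⁻¹ : M2 A) = _
  rw [inv_inv, mul_assoc, hU, hMV, ← mul_assoc, ← hU, U.inv_mul, one_mul]

/-- Existence of normalised representatives. -/
theorem exists_isNormal [IsLocalHom (algebraMap 𝒪 A)] [IsAdicComplete (maximalIdeal A) A]
    {r : Γℚ →* M2 A} (hr : MatCont r) (hred : D.IsRed r) :
    ∃ (r' : Γℚ →* M2 A) (hr' : MatCont r'),
      D.IsNormal r' ∧ (repOf r hr).IsEquiv (repOf r' hr') := by
  obtain ⟨U, lam, mu, hVr, hUr, hP₁⟩ := D.exists_eigenBasis hred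
  let J : M2 (ResidueField A) := !![1, 0; 0, -1]
  -- scale so that the `g₀`-entry becomes `1`
  let P₁ : (M2 A)ˣ := U⁻¹
  set s := conjHom P₁ r D.g₀ 1 0 with hs
  have hbar : residue A s = -1 := by
    have h1 : (conjHom P₁ r D.g₀).map (residue A) = J * (r D.g₀).map (residue A) * J := by
      change ((↑U⁻¹ : M2 A) * r D.g₀ * (↑(U⁻¹)⁻¹ : M2 A)).map (residue A) = _
      rw [inv_inv, Matrix.map_mul, Matrix.map_mul, hUr, hVr]
    have rg : residue A (r D.g₀ 1 0) = 1 := by
      have h3 : algebraMap 𝒪 A (D.bar D.g₀ 1 0 - 1) ∈ maximalIdeal A :=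
        map_nonunit (algebraMap 𝒪 A) _ D.g₀_cond
      have := add_mem (hred D.g₀ 1 0) h3
      rw [map_sub, map_one, sub_add_sub_cancel] at this
      rw [← map_one (residue A), ← sub_eq_zero, ← map_sub, residue_eq_zero_iff]; exact this
    have h2 := congrFun (congrFun h1 1) 0
    rw [Matrix.map_apply, ← hs] at h2
    rw [h2]
    simp only [Matrix.mul_apply, Fin.sum_univ_two, Matrix.map_apply, rg]
    simp [J]
  have hsu : IsUnit s := by
    by_contra h
    rw [(residue_eq_zero_iff _).mpr h] at hbar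
    exact zero_ne_one (α := ResidueField A) (by linear_combination -hbar)
  let P₂ : (M2 A)ˣ :=
    { val := Matrix.diagonal ![s, 1]
      inv := Matrix.diagonal ![(↑hsu.unit⁻¹ : A), 1]
      val_inv := by
        rw [Matrix.diagonal_mul_diagonal, ← Matrix.diagonal_one]
        congr 1; funext i; fin_cases i <;> simp
      inv_val := by
        rw [Matrix.diagonal_mul_diagonal, ← Matrix.diagonal_one]
        congr 1; funext i; fin_cases i <;> simp }
  refine ⟨conjHom (P₂ * P₁) r, matCont_conjHom hr _, ?_, isEquiv_conjHom hr _⟩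
  have hcomp : conjHom (P₂ * P₁) r = conjHom P₂ (conjHom P₁ r) := by
    refine MonoidHom.ext fun σ => ?_
    simp [conjHom, mul_assoc]
  have helt : D.elt (conjHom (P₂ * P₁) r) = Matrix.diagonal ![lam, mu] := by
    rw [hcomp, D.elt_conjHom, hP₁]
    change Matrix.diagonal ![s, 1] * _ * Matrix.diagonal ![(↑hsu.unit⁻¹ : A), 1] = _
    rw [Matrix.diagonal_mul_diagonal, Matrix.diagonal_mul_diagonal]
    congr 1; funext i; fin_cases i
    · simp [mul_comm s lam, mul_assoc]
    · simp
  refine ⟨?_, by rw [helt]; simp, by rw [helt]; simp, ?_⟩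
  · intro σ i j
    have hPV : ((↑(P₂ * P₁) : M2 A)).map (residue A) = -1 := by
      rw [Units.val_mul, Matrix.map_mul, hUr]
      ext i j
      fin_cases i <;> fin_cases j <;>
        simp [P₂, Matrix.mul_apply, Fin.sum_univ_two, Matrix.diagonal, hbar]
    rw [← residue_eq_zero_iff, map_sub, sub_eq_zero]
    have hinv : ((↑(P₂ * P₁)⁻¹ : M2 A)).map (residue A) = -1 := by
      have h2 : ((↑(P₂ * P₁) : M2 A) * (↑(P₂ * P₁)⁻¹ : M2 A)).map (residue A) =
          (1 : M2 A).map (residue A) := by rw [(P₂ * P₁).mul_inv]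
      rw [Matrix.map_mul, hPV, Matrix.map_one _ (map_zero _) (map_one _), neg_mul, one_mul] at h2
      rw [← h2, neg_neg]
    have h1 : (conjHom (P₂ * P₁) r σ).map (residue A) = (r σ).map (residue A) := by
      change ((↑(P₂ * P₁) : M2 A) * r σ * (↑(P₂ * P₁)⁻¹ : M2 A)).map (residue A) = _
      rw [Matrix.map_mul, Matrix.map_mul, hPV, hinv, neg_mul, one_mul, neg_mul_neg, mul_one]
    have h2 := congrFun (congrFun h1 i) j
    rw [Matrix.map_apply, Matrix.map_apply] at h2
    rw [h2, ← sub_eq_zero, ← map_sub, residue_eq_zero_iff]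
    exact hred σ i j
  · rw [hcomp]
    change (Matrix.diagonal ![s, 1] * conjHom P₁ r D.g₀ *
      Matrix.diagonal ![(↑hsu.unit⁻¹ : A), 1]) 1 0 = 1
    simp [Matrix.mul_apply, Matrix.diagonal, ← hs]

variable {B : Type} [CommRing B] [IsLocalRing B] [Algebra 𝒪 B]

omit [IsLocalRing A] [IsLocalRing B] in
/-- The distinguished element commutes with algebra maps. -/
theorem elt_mapHom (φ : A →ₐ[𝒪] B) (r : Γℚ →* M2 A) (i j : Fin 2) :
    D.elt (mapHom (φ : A →+* B) r) i j = φ (D.elt r i j) := by
  simp only [elt_apply, mapHom_apply, map_sum, map_mul, AlgHom.commutes, RingHom.coe_coe]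

/-- Local algebra maps keep normalised representatives. -/
theorem IsNormal.map {r : Γℚ →* M2 A} (h : D.IsNormal r) (φ : A →ₐ[𝒪] B)
    (hφ : IsLocalHom (φ : A →+* B)) : D.IsNormal (mapHom (φ : A →+* B) r) where
  red σ i j := by
    have h1 : (φ : A →+* B) (r σ i j - algebraMap 𝒪 A (D.bar σ i j)) ∈ maximalIdeal B :=
      fun hu => h.red σ i j (hφ.map_nonunit _ hu)
    rw [map_sub] at h1
    simpa [mapHom_apply] using h1
  elt_01 := by rw [D.elt_mapHom, h.elt_01, map_zero]
  elt_10 := by rw [D.elt_mapHom, h.elt_10, map_zero]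
  g₀_10 := by rw [mapHom_apply, h.g₀_10, map_one]

/-- Normalisation descends along injective algebra maps. -/
theorem IsNormal.of_map {r : Γℚ →* M2 A} (φ : A →ₐ[𝒪] B) (hφ : Function.Injective φ)
    (h : D.IsNormal (mapHom (φ : A →+* B) r)) : D.IsNormal r where
  red σ i j := by
    intro hu
    refine h.red σ i j ?_
    have := hu.map (φ : A →+* B)
    rw [map_sub] at this
    simpa [mapHom_apply] using this
  elt_01 := hφ (by rw [← D.elt_mapHom, h.elt_01, map_zero])
  elt_10 := hφ (by rw [← D.elt_mapHom, h.elt_10, map_zero])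
  g₀_10 := hφ (by have := h.g₀_10; rwa [mapHom_apply, ← map_one (φ : A →+* B)] at this)

end NormData

end Fermat.GR
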