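import Mathlib

/-!
# Completeness of power series rings over complete local rings, evaluation, and finite quotients

Completeness (`isAdicComplete_mvPowerSeries`), evaluation at elements of the maximal ideal
(`exists_evalHom`) and uniqueness of maps given on the variables (`algHom_ext_X`).
-/

set_option autoImplicit false

noncomputable section

namespace Fermat.GR

open IsLocalRing

/-- In a noetherian local ring with finite residue field all quotients by powers of the maximal
ideal are finite. -/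
theorem finite_quotient_maximalIdeal_pow (R : Type) [CommRing R] [IsLocalRing R]
    [IsNoetherianRing R] [Finite (ResidueField R)] (n : ℕ) :
    Finite (R ⧸ maximalIdeal R ^ n) := by
  induction n with
  | zero =>
    have : Subsingleton (R ⧸ maximalIdeal R ^ 0) :=
      Ideal.Quotient.subsingleton_iff.mpr (by simp)
    exact Finite.of_subsingleton
  | succ n ih =>
    -- `𝔪 ^ n` is finitely generated, so one more step adds finitely many classes
    obtain ⟨s, hs⟩ := (maximalIdeal R ^ n).fg_of_isNoetherianRing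
    have : Finite (R ⧸ maximalIdeal R) := ‹Finite (ResidueField R)›
    let F : (R ⧸ maximalIdeal R ^ n) × (s → R ⧸ maximalIdeal R) → R ⧸ maximalIdeal R ^ (n + 1) :=
      fun p => Ideal.Quotient.mk _ (Quotient.out p.1 + ∑ i : s, Quotient.out (p.2 i) * (i : R))
    refine Finite.of_surjective F fun z => ?_
    obtain ⟨x, rfl⟩ := Ideal.Quotient.mk_surjective z
    have hx : x - Quotient.out (Ideal.Quotient.mk (maximalIdeal R ^ n) x) ∈
        Ideal.span (s : Set R) := by
      rw [hs, ← Ideal.Quotient.eq, Ideal.Quotient.mk_out]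
    obtain ⟨c, -, hc⟩ := Submodule.mem_span_finset.mp hx
    refine ⟨(Ideal.Quotient.mk _ x, fun i => Ideal.Quotient.mk _ (c i)), ?_⟩
    simp only [F]
    rw [Ideal.Quotient.eq]
    -- the error lies in `𝔪 * 𝔪 ^ n`
    have key : Quotient.out (Ideal.Quotient.mk (maximalIdeal R ^ n) x) +
        ∑ i : s, Quotient.out (Ideal.Quotient.mk (maximalIdeal R) (c i)) * (i : R) - x =
        ∑ i : s, (Quotient.out (Ideal.Quotient.mk (maximalIdeal R) (c i)) - c i) * (i : R) := by
      have hc' : ∑ i : s, c i * (i : R) =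
          x - Quotient.out (Ideal.Quotient.mk (maximalIdeal R ^ n) x) := by
        rw [← hc, ← Finset.sum_coe_sort s]
        exact Finset.sum_congr rfl fun i _ => (smul_eq_mul ..).symm
      simp only [sub_mul, Finset.sum_sub_distrib, hc']
      ring
    rw [key]
    refine Ideal.sum_mem _ fun i _ => ?_
    rw [pow_succ']
    exact Ideal.mul_mem_mul (by rw [← Ideal.Quotient.eq, Ideal.Quotient.mk_out])
      (hs ▸ Submodule.subset_span i.2)

section PowerSeries

variable {σ : Type} {𝒪 : Type} [CommRing 𝒪]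

local notation "Λ" => MvPowerSeries σ 𝒪

/-- A series without terms of degree below `n` lies in the `n`-th power of the ideal of the
variables. -/
theorem mem_spanX_pow_of_coeff [Finite σ] : ∀ (n : ℕ) (f : Λ),
    (∀ e : σ →₀ ℕ, e.degree < n → MvPowerSeries.coeff e f = 0) →
      f ∈ Ideal.span (Set.range (MvPowerSeries.X : σ → Λ)) ^ n := by
  classical
  intro n
  induction n with
  | zero => intro f _; simp
  | succ n ih =>
    intro f hf
    cases nonempty_fintype σ
    -- induct on the set of variables that may occur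
    suffices key : ∀ (s : Finset σ) (f : Λ),
        (∀ e : σ →₀ ℕ, e.degree < n + 1 → MvPowerSeries.coeff e f = 0) →
        (∀ e : σ →₀ ℕ, (∀ j ∈ s, e j = 0) → MvPowerSeries.coeff e f = 0) →
        f ∈ Ideal.span (Set.range (MvPowerSeries.X : σ → Λ)) ^ (n + 1) by
      refine key Finset.univ f hf fun e he => ?_
      have : e = 0 := Finsupp.ext fun j => he j (Finset.mem_univ j)
      exact hf e (by simp [this])
    intro s
    induction s using Finset.induction with
    | empty =>
      intro f _ h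
      have : f = 0 := MvPowerSeries.ext fun e => by simp [h e (by simp)]
      simp [this]
    | insert a s ha ihs =>
      intro f h1 h2
      let z : Λ := fun e => if e a = 0 then MvPowerSeries.coeff e f else 0
      have hz : ∀ e, MvPowerSeries.coeff e z = if e a = 0 then MvPowerSeries.coeff e f else 0 :=
        fun e => rfl
      have hzmem : z ∈ Ideal.span (Set.range (MvPowerSeries.X : σ → Λ)) ^ (n + 1) := by
        refine ihs z (fun e he => ?_) (fun e he => ?_)
        · rw [hz]; split_ifs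
          · exact h1 e he
          · rfl
        · rw [hz]; split_ifs with hea
          · refine h2 e fun j hj => ?_
            rcases Finset.mem_insert.mp hj with rfl | hj
            · exact hea
            · exact he j hj
          · rfl
      -- split off the multiples of `X a`
      obtain ⟨g, hg⟩ : (MvPowerSeries.X a : Λ) ∣ f - z :=
        MvPowerSeries.X_dvd_iff.mpr fun e he => by rw [map_sub, hz, if_pos he, sub_self]
      have hgmem : g ∈ Ideal.span (Set.range (MvPowerSeries.X : σ → Λ)) ^ n := by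
        refine ih g fun e he => ?_
        have h := congrArg (MvPowerSeries.coeff (e + Finsupp.single a 1)) hg
        rw [MvPowerSeries.X_def, add_comm e, MvPowerSeries.coeff_add_monomial_mul, one_mul,
          map_sub, hz] at h
        rw [← h, if_neg (by simp), sub_zero]
        exact h1 _ (by rw [map_add, Finsupp.degree_single]; omega)
      have : f = MvPowerSeries.X a * g + z := by rw [← hg, sub_add_cancel]
      rw [this]
      refine add_mem ?_ hzmem
      rw [pow_succ']
      exact Ideal.mul_mem_mul (Ideal.subset_span ⟨a, rfl⟩) hgmem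

/-- A series without constant term lies in the ideal of the variables. -/
theorem mem_spanX_of_constantCoeff_eq_zero [Finite σ] {f : Λ}
    (hf : MvPowerSeries.constantCoeff f = 0) :
    f ∈ Ideal.span (Set.range (MvPowerSeries.X : σ → Λ)) :=
  pow_one (Ideal.span (Set.range (MvPowerSeries.X : σ → Λ))) ▸
    mem_spanX_pow_of_coeff 1 f fun e he => by
      rw [(Finsupp.degree_eq_zero_iff e).mp (by omega), MvPowerSeries.coeff_zero_eq_constantCoeff,
        hf]

/-- A series is congruent to its truncation modulo the power of the variables. -/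
theorem sub_truncTotal_mem [Finite σ] (n : ℕ) (f : Λ) :
    f - ((MvPowerSeries.truncTotal n f : MvPolynomial σ 𝒪) : Λ) ∈
      Ideal.span (Set.range (MvPowerSeries.X : σ → Λ)) ^ n :=
  mem_spanX_pow_of_coeff n _ fun e he => by
    rw [map_sub, MvPolynomial.coeff_coe, MvPowerSeries.coeff_truncTotal _ he, sub_self]

variable [IsLocalRing 𝒪]

/-- The variables lie in the maximal ideal. -/
theorem X_mem_maximalIdeal (j : σ) : (MvPowerSeries.X j : Λ) ∈ maximalIdeal Λ := by
  intro hu
  rw [MvPowerSeries.isUnit_iff_constantCoeff, MvPowerSeries.constantCoeff_X] at hu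
  exact not_isUnit_zero hu

/-- Constants of the maximal ideal lie in the maximal ideal. -/
theorem C_mem_maximalIdeal {c : 𝒪} (hc : c ∈ maximalIdeal 𝒪) :
    (MvPowerSeries.C c : Λ) ∈ maximalIdeal Λ := by
  intro hu
  rw [MvPowerSeries.isUnit_iff_constantCoeff, MvPowerSeries.constantCoeff_C] at hu
  exact hc hu

/-- The filtration by `coeff e ∈ m^(n - |e|)`. -/
def coeffFiltration (σ 𝒪 : Type) [CommRing 𝒪] [IsLocalRing 𝒪] (n : ℕ) :
    Ideal (MvPowerSeries σ 𝒪) where
  carrier := {f | ∀ e : σ →₀ ℕ, MvPowerSeries.coeff e f ∈ maximalIdeal 𝒪 ^ (n - e.degree)}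
  add_mem' := fun {a b} ha hb e => by rw [map_add]; exact add_mem (ha e) (hb e)
  zero_mem' := fun e => by rw [map_zero]; exact zero_mem _
  smul_mem' := fun c f hf e => by
    classical
    rw [smul_eq_mul, MvPowerSeries.coeff_mul]
    refine Ideal.sum_mem _ fun p hp => Ideal.mul_mem_left _ _ ?_
    refine Ideal.pow_le_pow_right ?_ (hf p.2)
    rw [Finset.HasAntidiagonal.mem_antidiagonal] at hp
    rw [← hp, map_add]
    omega

/-- The powers of the maximal ideal lie in the coefficient filtration. -/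
theorem maximalIdeal_pow_le_coeffFiltration (n : ℕ) :
    maximalIdeal Λ ^ n ≤ coeffFiltration σ 𝒪 n := by
  classical
  induction n with
  | zero => intro f _ e; simp
  | succ n ih =>
    rw [pow_succ, Ideal.mul_le]
    intro a ha b hb e
    rw [MvPowerSeries.coeff_mul]
    refine Ideal.sum_mem _ fun p hp => ?_
    rw [Finset.HasAntidiagonal.mem_antidiagonal] at hp
    have hdeg : e.degree = p.1.degree + p.2.degree := by rw [← hp, map_add]
    rcases Nat.eq_zero_or_pos p.2.degree with h0 | h0
    · have hp2 : p.2 = 0 := (Finsupp.degree_eq_zero_iff _).mp h0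
      have hb0 : MvPowerSeries.coeff p.2 b ∈ maximalIdeal 𝒪 := by
        intro hu
        refine hb (MvPowerSeries.isUnit_iff_constantCoeff.mpr ?_)
        rwa [hp2, MvPowerSeries.coeff_zero_eq_constantCoeff] at hu
      refine Ideal.pow_le_pow_right (show n + 1 - e.degree ≤ n - p.1.degree + 1 by omega) ?_
      rw [pow_succ]
      exact Ideal.mul_mem_mul (ih ha p.1) hb0
    · exact Ideal.mul_mem_right _ _ (Ideal.pow_le_pow_right (by omega) (ih ha p.1))

/-- The coefficient filtration lies in the powers of the maximal ideal. -/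
theorem coeffFiltration_le_maximalIdeal_pow [Finite σ] (n : ℕ) :
    coeffFiltration σ 𝒪 n ≤ maximalIdeal Λ ^ n := by
  classical
  intro f hf
  have hX : Ideal.span (Set.range (MvPowerSeries.X : σ → Λ)) ≤ maximalIdeal Λ :=
    Ideal.span_le.mpr (by rintro _ ⟨j, rfl⟩; exact X_mem_maximalIdeal j)
  rw [← sub_add_cancel f ((MvPowerSeries.truncTotal n f : MvPolynomial σ 𝒪) : Λ)]
  refine add_mem (Ideal.pow_right_mono hX n (sub_truncTotal_mem n f)) ?_
  rw [MvPolynomial.as_sum (MvPowerSeries.truncTotal n f),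
    show ∀ p : MvPolynomial σ 𝒪, (p : Λ) =
      MvPolynomial.coeToMvPowerSeries.ringHom p from fun _ => rfl,
    map_sum]
  refine Ideal.sum_mem _ fun e he => ?_
  have hdeg : e.degree < n := by
    by_contra h
    exact (MvPolynomial.mem_support_iff.mp he)
      (MvPowerSeries.coeff_truncTotal_eq_zero _ (not_lt.mp h))
  rw [MvPowerSeries.coeff_truncTotal _ hdeg, MvPolynomial.coeToMvPowerSeries.ringHom_apply,
    MvPolynomial.coe_monomial]
  have hm : (MvPowerSeries.monomial e (MvPowerSeries.coeff e f) : Λ) =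
      MvPowerSeries.C (MvPowerSeries.coeff e f) * MvPowerSeries.monomial e 1 := by
    ext d
    simp [MvPowerSeries.coeff_C_mul, MvPowerSeries.coeff_monomial]
  rw [hm, show n = (n - e.degree) + e.degree by omega, pow_add]
  refine Ideal.mul_mem_mul ?_ (Ideal.pow_right_mono hX _
    (mem_spanX_pow_of_coeff _ _ fun d hd => ?_))
  · have h1 : (maximalIdeal 𝒪).map (MvPowerSeries.C : 𝒪 →+* Λ) ≤ maximalIdeal Λ :=
      Ideal.map_le_iff_le_comap.mpr fun c hc => C_mem_maximalIdeal hc
    exact Ideal.pow_right_mono h1 _ (Ideal.map_pow (MvPowerSeries.C : 𝒪 →+* Λ) _ _ ▸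
      Ideal.mem_map_of_mem _ (hf e))
  · rw [MvPowerSeries.coeff_monomial, if_neg (fun h => by subst h; omega)]

variable [IsNoetherianRing 𝒪] [IsAdicComplete (maximalIdeal 𝒪) 𝒪] [Finite σ]

/-- A power series ring over a complete noetherian local ring is complete. -/
instance isAdicComplete_mvPowerSeries : IsAdicComplete (maximalIdeal Λ) Λ := by
  refine { toIsHausdorff := inferInstance, toIsPrecomplete := ⟨fun f hf => ?_⟩ }
  have hcau : ∀ {a b : ℕ}, a ≤ b → f a - f b ∈ coeffFiltration σ 𝒪 a := fun {a b} hab => by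
    refine maximalIdeal_pow_le_coeffFiltration a ?_
    have := hf hab
    rwa [SModEq.sub_mem, smul_eq_mul, Ideal.mul_top] at this
  choose L hL using fun e : σ →₀ ℕ =>
    IsPrecomplete.prec (I := maximalIdeal 𝒪) inferInstance
      (f := fun k => MvPowerSeries.coeff e (f (k + e.degree))) (fun {a b} hab => by
        rw [SModEq.sub_mem, smul_eq_mul, Ideal.mul_top, ← map_sub]
        have := hcau (show a + e.degree ≤ b + e.degree by omega) e
        simpa using this)
  let g : Λ := fun e => L e
  refine ⟨g, fun n => ?_⟩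
  rw [SModEq.sub_mem, smul_eq_mul, Ideal.mul_top]
  refine coeffFiltration_le_maximalIdeal_pow n fun e => ?_
  rcases le_or_gt n e.degree with h | h
  · simp [Nat.sub_eq_zero_of_le h]
  · have := hL e (n - e.degree)
    rw [SModEq.sub_mem, smul_eq_mul, Ideal.mul_top, Nat.sub_add_cancel h.le] at this
    rw [map_sub]
    exact this

omit [IsNoetherianRing 𝒪] [IsAdicComplete (maximalIdeal 𝒪) 𝒪] [Finite σ] in
/-- Every element is congruent to a constant modulo the maximal ideal. -/
theorem residue_comp_algebraMap_surjective :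
    Function.Surjective (residue Λ ∘ algebraMap 𝒪 Λ) := by
  intro z
  obtain ⟨f, rfl⟩ := residue_surjective z
  refine ⟨MvPowerSeries.constantCoeff f, ?_⟩
  simp only [Function.comp_apply, MvPowerSeries.algebraMap_apply, Algebra.algebraMap_self,
    RingHom.id_apply]
  rw [← sub_eq_zero, ← map_sub, residue_eq_zero_iff]
  intro hu
  rw [MvPowerSeries.isUnit_iff_constantCoeff] at hu
  simp at hu

end PowerSeries

section Eval

variable {d : ℕ} {𝒪 A : Type} [CommRing 𝒪] [CommRing A] [Algebra 𝒪 A] [IsLocalRing A]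

/-- Evaluation of power series at elements of the maximal ideal of a complete local algebra. -/
theorem exists_evalHom [IsAdicComplete (maximalIdeal A) A] (a : Fin d → A)
    (ha : ∀ j, a j ∈ maximalIdeal A) :
    ∃ φ : MvPowerSeries (Fin d) 𝒪 →ₐ[𝒪] A, ∀ j, φ (MvPowerSeries.X j) = a j := by
  have hle : ∀ n, ∀ p ∈ MvPolynomial.idealOfVars (Fin d) 𝒪 ^ n,
      MvPolynomial.aeval (R := 𝒪) a p ∈ maximalIdeal A ^ n := by
    intro n p hp
    -- evaluation sends the variable ideal into `𝔪`
    have h1 : (MvPolynomial.idealOfVars (Fin d) 𝒪).map (MvPolynomial.aeval (R := 𝒪) a).toRingHom ≤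
        maximalIdeal A := by
      rw [MvPolynomial.idealOfVars, Ideal.map_span, Ideal.span_le]
      rintro _ ⟨_, ⟨j, rfl⟩, rfl⟩
      change MvPolynomial.aeval (R := 𝒪) a (MvPolynomial.X j) ∈ maximalIdeal A
      rw [MvPolynomial.aeval_X]; exact ha j
    exact Ideal.pow_right_mono h1 n (Ideal.map_pow (MvPolynomial.aeval (R := 𝒪) a).toRingHom _ n ▸
      Ideal.mem_map_of_mem _ hp)
  -- so truncated evaluations form a compatible system
  let e : ∀ n, MvPowerSeries (Fin d) 𝒪 →ₐ[𝒪] A ⧸ maximalIdeal A ^ n := fun n =>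
    (Ideal.Quotient.liftₐ (MvPolynomial.idealOfVars (Fin d) 𝒪 ^ n)
      ((Ideal.Quotient.mkₐ 𝒪 (maximalIdeal A ^ n)).comp (MvPolynomial.aeval (R := 𝒪) a))
      (fun p hp => Ideal.Quotient.eq_zero_iff_mem.mpr (hle n p hp))).comp
      ((MvPowerSeries.truncTotalAlgHom (Fin d) 𝒪 n).restrictScalars 𝒪)
  have he : ∀ n f, e n f = Ideal.Quotient.mk _
      (MvPolynomial.aeval (R := 𝒪) a (MvPowerSeries.truncTotal n f)) :=
    fun n f => rfl
  refine ⟨IsAdicComplete.liftAlgHom (maximalIdeal A) e fun {m n} hmn => ?_, fun j => ?_⟩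
  · refine AlgHom.ext fun f => ?_
    change Ideal.Quotient.factor (Ideal.pow_le_pow_right hmn) (e n f) = e m f
    rw [he, he, Ideal.Quotient.factor_mk, Ideal.Quotient.eq, ← map_sub]
    exact hle m _ (MvPowerSeries.truncTotal_sub_truncTotal_mem_pow_idealOfVars hmn le_rfl f)
  -- the limit sends `X j` to `a j`
  · refine IsHausdorff.eq_iff_smodEq (I := maximalIdeal A).mpr fun n => ?_
    rw [SModEq.sub_mem, smul_eq_mul, Ideal.mul_top, ← Ideal.Quotient.eq,
      IsAdicComplete.mk_liftAlgHom, he, Ideal.Quotient.eq]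
    have : MvPowerSeries.truncTotal n (MvPowerSeries.X j : MvPowerSeries (Fin d) 𝒪) -
        MvPolynomial.X j ∈ MvPolynomial.idealOfVars (Fin d) 𝒪 ^ n := by
      rw [MvPolynomial.mem_pow_idealOfVars_iff']
      intro x hx
      rw [MvPolynomial.coeff_sub, MvPowerSeries.coeff_truncTotal _ hx, ← MvPolynomial.coeff_coe,
        MvPolynomial.coe_X, sub_self]
    have := hle n _ this
    rwa [map_sub, MvPolynomial.aeval_X] at this

/-- Algebra maps out of a power series ring are determined by the variables. -/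
theorem algHom_ext_X [IsHausdorff (maximalIdeal A) A]
    {φ ψ : MvPowerSeries (Fin d) 𝒪 →ₐ[𝒪] A} (h : ∀ j, φ (MvPowerSeries.X j) = ψ (MvPowerSeries.X j))
    (hm : ∀ j, φ (MvPowerSeries.X j) ∈ maximalIdeal A) : φ = ψ := by
  refine AlgHom.ext fun f => IsHausdorff.eq_iff_smodEq (I := maximalIdeal A).mpr fun n => ?_
  rw [SModEq.sub_mem, smul_eq_mul, Ideal.mul_top]
  set p := MvPowerSeries.truncTotal n f
  have hp : φ (p : MvPowerSeries (Fin d) 𝒪) = ψ (p : MvPowerSeries (Fin d) 𝒪) := by
    have hcomp : φ.comp (MvPolynomial.coeToMvPowerSeries.algHom 𝒪) =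
        ψ.comp (MvPolynomial.coeToMvPowerSeries.algHom 𝒪) :=
      MvPolynomial.algHom_ext fun j => by simp [MvPolynomial.coeToMvPowerSeries.algHom_apply, h]
    have := DFunLike.congr_fun hcomp p
    simpa [MvPolynomial.coeToMvPowerSeries.algHom_apply] using this
  have hmem : ∀ χ : MvPowerSeries (Fin d) 𝒪 →ₐ[𝒪] A,
      (∀ j, χ (MvPowerSeries.X j) ∈ maximalIdeal A) →
      χ f - χ (p : MvPowerSeries (Fin d) 𝒪) ∈ maximalIdeal A ^ n := by
    intro χ hχ
    rw [← map_sub]
    have h1 : (Ideal.span (Set.range (MvPowerSeries.X : Fin d → MvPowerSeries (Fin d) 𝒪))).map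
        χ.toRingHom ≤ maximalIdeal A := by
      rw [Ideal.map_span, Ideal.span_le]
      rintro _ ⟨_, ⟨j, rfl⟩, rfl⟩
      exact hχ j
    exact Ideal.pow_right_mono h1 n
      (Ideal.map_pow χ.toRingHom _ n ▸ Ideal.mem_map_of_mem _ (sub_truncTotal_mem n f))
  have h1 := hmem φ hm
  have h2 := hmem ψ (fun j => h j ▸ hm j)
  have := sub_mem h1 h2
  rwa [hp, sub_sub_sub_cancel_right] at this

/-- A map out of a power series ring with small images of the variables sends small series to the
maximal ideal. -/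
theorem map_mem_maximalIdeal {σ : Type} [Finite σ] [IsLocalRing 𝒪] [IsLocalHom (algebraMap 𝒪 A)]
    (φ : MvPowerSeries σ 𝒪 →ₐ[𝒪] A) (hm : ∀ j, φ (MvPowerSeries.X j) ∈ maximalIdeal A)
    {f : MvPowerSeries σ 𝒪} (hf : MvPowerSeries.constantCoeff f ∈ maximalIdeal 𝒪) :
    φ f ∈ maximalIdeal A := by
  have h1 : f - algebraMap 𝒪 _ (MvPowerSeries.constantCoeff f) ∈
      Ideal.span (Set.range (MvPowerSeries.X : σ → MvPowerSeries σ 𝒪)) :=
    mem_spanX_of_constantCoeff_eq_zero (by simp [MvPowerSeries.algebraMap_apply])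
  have h2 : φ f - algebraMap 𝒪 A (MvPowerSeries.constantCoeff f) ∈ maximalIdeal A := by
    rw [← φ.commutes, ← map_sub]
    refine (Ideal.span_le (I := (maximalIdeal A).comap φ)).mpr ?_ h1
    rintro _ ⟨j, rfl⟩
    exact hm j
  simpa using add_mem h2 (map_nonunit (algebraMap 𝒪 A) _ hf)

end Eval

section Lifting

variable {R : Type} [CommRing R] [IsLocalRing R] [IsNoetherianRing R] [Finite (ResidueField R)]
  [IsAdicComplete (maximalIdeal R) R]

/-- A compatible family of congruences for a downward directed family of open ideals has a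
solution, which may be prescribed modulo a power of the maximal ideal when it is consistent
there. -/
theorem exists_compatible_lift (S : Set (Ideal R)) (hne : S.Nonempty)
    (hdir : ∀ K ∈ S, ∀ K' ∈ S, ∃ K'' ∈ S, K'' ≤ K ∧ K'' ≤ K')
    (hopen : ∀ K ∈ S, ∃ n, maximalIdeal R ^ n ≤ K) (a : Ideal R → R)
    (ha : ∀ K ∈ S, ∀ K' ∈ S, K' ≤ K → a K' - a K ∈ K) (n₀ : ℕ) :
    ∃ K₀ ∈ S, ∀ x₀, x₀ - a K₀ ∈ K₀ →
      ∃ x, x - x₀ ∈ maximalIdeal R ^ n₀ ∧ ∀ K ∈ S, x - a K ∈ K := by
  classical
  have hmin : ∀ n, ∃ K ∈ S, ∀ K' ∈ S, K ⊔ maximalIdeal R ^ n ≤ K' ⊔ maximalIdeal R ^ n := by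
    intro n
    have := finite_quotient_maximalIdeal_pow R n
    have : Finite (Ideal (R ⧸ maximalIdeal R ^ n)) :=
      Finite.of_injective (fun I => (I : Set (R ⧸ maximalIdeal R ^ n))) SetLike.coe_injective
    let T := (fun K => Ideal.map (Ideal.Quotient.mk (maximalIdeal R ^ n)) K) '' S
    obtain ⟨J, hJ⟩ := T.toFinite.exists_minimal (hne.image _)
    obtain ⟨K, hK, rfl⟩ := hJ.1
    refine ⟨K, hK, fun K' hK' => ?_⟩
    obtain ⟨K'', hK'', h1, h2⟩ := hdir K hK K' hK'
    have h3 : Ideal.map (Ideal.Quotient.mk (maximalIdeal R ^ n)) K ≤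
        Ideal.map (Ideal.Quotient.mk (maximalIdeal R ^ n)) K'' :=
      hJ.2 ⟨K'', hK'', rfl⟩ (Ideal.map_mono h1)
    have h4 := Ideal.comap_mono (f := Ideal.Quotient.mk (maximalIdeal R ^ n))
      (h3.trans (Ideal.map_mono h2))
    rwa [Ideal.comap_map_of_surjective _ Ideal.Quotient.mk_surjective,
      Ideal.comap_map_of_surjective _ Ideal.Quotient.mk_surjective, ← RingHom.ker_eq_comap_bot,
      Ideal.mk_ker] at h4
  -- a decreasing sequence of such ideals
  choose K₁ hK₁S hK₁ using hmin
  let step : ℕ → {K // K ∈ S} := fun n => Nat.rec ⟨K₁ 0, hK₁S 0⟩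
    (fun m K => ⟨(hdir K.1 K.2 (K₁ (m + 1)) (hK₁S _)).choose,
      (hdir K.1 K.2 (K₁ (m + 1)) (hK₁S _)).choose_spec.1⟩) n
  set Kn : ℕ → Ideal R := fun n => (step n).1 with hKn
  have hKnS : ∀ n, Kn n ∈ S := fun n => (step n).2
  have hanti : ∀ n, Kn (n + 1) ≤ Kn n := fun n =>
    (hdir (step n).1 (step n).2 (K₁ (n + 1)) (hK₁S _)).choose_spec.2.1
  have hle1 : ∀ n, Kn n ≤ K₁ n := fun n => by
    cases n with
    | zero => exact le_rfl
    | succ n => exact (hdir (step n).1 (step n).2 (K₁ (n + 1)) (hK₁S _)).choose_spec.2.2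
  have hmin' : ∀ n, ∀ K' ∈ S, Kn n ⊔ maximalIdeal R ^ n ≤ K' ⊔ maximalIdeal R ^ n :=
    fun n K' hK' => (sup_le_sup_right (hle1 n) _).trans (hK₁ n K' hK')
  refine ⟨Kn n₀, hKnS n₀, fun x₀ hx₀ => ?_⟩
  -- successive approximations
  have hnext : ∀ m x, x - a (Kn m) ∈ Kn m →
      ∃ y, y - a (Kn (m + 1)) ∈ Kn (m + 1) ∧ y - x ∈ maximalIdeal R ^ m := by
    intro m x hx
    have h1 : x - a (Kn (m + 1)) ∈ Kn m := by
      have := ha (Kn m) (hKnS m) (Kn (m + 1)) (hKnS (m + 1)) (hanti m)
      have := sub_mem hx this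
      rwa [sub_sub_sub_cancel_right] at this
    obtain ⟨u, hu, v, hv, huv⟩ := Submodule.mem_sup.mp
      (hmin' m _ (hKnS (m + 1)) (Submodule.mem_sup_left h1))
    refine ⟨x - v, ?_, ?_⟩
    · rw [show x - v - a (Kn (m + 1)) = u by linear_combination -huv]; exact hu
    · rw [show x - v - x = -v by ring]; exact neg_mem hv
  let seq : ∀ m, {x // x - a (Kn (n₀ + m)) ∈ Kn (n₀ + m)} := fun m => Nat.rec ⟨x₀, hx₀⟩
    (fun j x => ⟨(hnext (n₀ + j) x.1 x.2).choose, (hnext (n₀ + j) x.1 x.2).choose_spec.1⟩) m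
  have hseq : ∀ m, (seq (m + 1)).1 - (seq m).1 ∈ maximalIdeal R ^ (n₀ + m) := fun m =>
    (hnext (n₀ + m) (seq m).1 (seq m).2).choose_spec.2
  have hcau : ∀ {i j}, i ≤ j → (seq i).1 - (seq j).1 ∈ maximalIdeal R ^ (n₀ + i) := by
    intro i j hij
    induction j, hij using Nat.le_induction with
    | base => simp
    | succ j hij ih =>
      have := sub_mem ih (Ideal.pow_le_pow_right (by omega) (hseq j))
      rwa [sub_sub_sub_cancel_right] at this
  obtain ⟨x, hx⟩ := IsPrecomplete.prec (I := maximalIdeal R) inferInstance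
    (f := fun m => (seq m).1) (fun {i j} hij => by
      rw [SModEq.sub_mem, smul_eq_mul, Ideal.mul_top]
      exact Ideal.pow_le_pow_right (by omega) (hcau hij))
  have hx' : ∀ m, x - (seq m).1 ∈ maximalIdeal R ^ (n₀ + m) := fun m => by
    have h1 := (SModEq.sub_mem.mp (hx (n₀ + m)))
    rw [smul_eq_mul, Ideal.mul_top] at h1
    have := sub_mem (hcau (show m ≤ n₀ + m by omega)) h1
    rw [show (seq m).1 - (seq (n₀ + m)).1 - ((seq (n₀ + m)).1 - x) =
      (seq m).1 - (seq (n₀ + m)).1 + (x - (seq (n₀ + m)).1) by ring] at this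
    have h2 := sub_mem (neg_mem h1) (hcau (show m ≤ n₀ + m by omega))
    rwa [show -((seq (n₀ + m)).1 - x) - ((seq m).1 - (seq (n₀ + m)).1) =
      x - (seq m).1 by ring] at h2
  refine ⟨x, ?_, fun K hK => ?_⟩
  · exact Ideal.pow_le_pow_right (Nat.le_add_right n₀ 0) (hx' 0)
  · obtain ⟨m, hm⟩ := hopen K hK
    obtain ⟨K', hK', h1, h2⟩ := hdir K hK (Kn (n₀ + m)) (hKnS _)
    have e1 : (seq m).1 - a K' ∈ K' ⊔ maximalIdeal R ^ (n₀ + m) := by
      refine hmin' (n₀ + m) K' hK' (Submodule.mem_sup_left ?_)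
      have := sub_mem (seq m).2 (ha (Kn (n₀ + m)) (hKnS _) K' hK' h2)
      rwa [sub_sub_sub_cancel_right] at this
    have e2 : K' ⊔ maximalIdeal R ^ (n₀ + m) ≤ K :=
      sup_le h1 ((Ideal.pow_le_pow_right (Nat.le_add_left m n₀)).trans hm)
    have h5 := add_mem (add_mem (e2 (Submodule.mem_sup_right (hx' m))) (e2 e1)) (ha K hK K' hK' h1)
    rwa [show x - (seq m).1 + ((seq m).1 - a K') + (a K' - a K) = x - a K by ring] at h5

end Lifting

end Fermat.GR
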