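import Mathlib
import Fermat.Prelude.Def_GaloisRep_Residual

/-!
# Absolutely irreducible two-dimensional representations span the matrix algebra

Burnside's theorem (`span_range_eq_top_of_irreducible`) and its consequence for residual
representations, `span_range_toMatrix_eq_top`.
-/

set_option autoImplicit false

noncomputable section

namespace Fermat.GR

/-- Burnside: a monoid of endomorphisms without invariant subspaces over an algebraically closed
field spans the whole endomorphism algebra. -/
theorem span_range_eq_top_of_irreducible {K V G : Type} [Field K] [IsAlgClosed K] [AddCommGroup V]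
    [Module K V] [FiniteDimensional K V] [Nontrivial V] [Monoid G] (ρ : G →* Module.End K V)
    (hirr : ∀ W : Submodule K V, (∀ g, ∀ x ∈ W, ρ g x ∈ W) → W = ⊥ ∨ W = ⊤) :
    Submodule.span K (Set.range ρ) = ⊤ := by
  let B : Subalgebra K (Module.End K V) := Algebra.adjoin K (Set.range ρ)
  have hB : Subalgebra.toSubmodule B = Submodule.span K (Set.range ρ) := by
    refine (Algebra.adjoin_eq_span_of_subset (R := K) (Set.Subset.trans ?_ Submodule.subset_span))
    intro x hx
    have : Submonoid.closure (Set.range ρ) ≤ MonoidHom.mrange ρ :=
      Submonoid.closure_le.mpr fun y hy => hy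
    exact this hx
  -- `V` is simple over the spanned algebra, whose commutant is then the scalars
  have : IsSimpleModule B V := by
    refine { toIsSimpleOrder := ?_ }
    refine ⟨fun W => ?_⟩
    rcases hirr (W.restrictScalars K)
      (fun g x hx => W.smul_mem ⟨ρ g, Algebra.subset_adjoin ⟨g, rfl⟩⟩ hx)
      with h | h
    · left
      exact Submodule.restrictScalars_injective K B V
        (h.trans (Submodule.restrictScalars_bot K B V).symm)
    · right
      exact Submodule.restrictScalars_injective K B V
        (h.trans (Submodule.restrictScalars_top K B V).symm)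
  have hscal := IsSimpleModule.algebraMap_end_bijective_of_isAlgClosed (A := B) (V := V) K
  have : IsScalarTower K (Module.End B V) V := inferInstance
  have : Module.Finite (Module.End B V) V := Module.Finite.of_restrictScalars_finite K _ _
  have hsurj := Module.Finite.toModuleEnd_moduleEnd_surjective (R := B) (M := V)
  rw [eq_top_iff, ← hB]
  intro f _
  let f' : Module.End (Module.End B V) V :=
    { toFun := f
      map_add' := f.map_add
      map_smul' := fun e x => by
        obtain ⟨c, rfl⟩ := hscal.2 e
        change f (c • x) = c • f x
        exact f.map_smul c x }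
  obtain ⟨b, hb⟩ := hsurj f'
  have : (b : Module.End K V) = f := LinearMap.ext fun x => LinearMap.congr_fun hb x
  exact this ▸ b.2

/-- The matrices of an absolutely irreducible residual representation span `M₂(k)`. -/
theorem span_range_toMatrix_eq_top {k : Type} [Field k] (ρ : ResidualGaloisRep k)
    (habs : ρ.IsAbsolutelyIrreducible) (b : Module.Basis (Fin 2) k ρ.V) :
    Submodule.span k (Set.range fun g => LinearMap.toMatrix b b (ρ.ρ g)) = ⊤ := by
  set K := AlgebraicClosure k
  have : Nontrivial (ρ.baseChange K).V :=
    Module.nontrivial_of_finrank_eq_succ (n := 1) (ρ.baseChange K).finrank_eq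
  have htop := span_range_eq_top_of_irreducible (ρ.baseChange K).ρ habs
  set bK := Algebra.TensorProduct.basis K b
  by_contra hne
  obtain ⟨φ, hφ0, hφ⟩ := Submodule.exists_le_ker_of_lt_top _ (lt_top_iff_ne_top.mpr hne)
  -- extend the functional to `K`
  let φK : Matrix (Fin 2) (Fin 2) K →ₗ[K] K :=
    { toFun := fun M => ∑ i, ∑ j, algebraMap k K (φ (Matrix.single i j 1)) * M i j
      map_add' := fun M M' => by simp [mul_add, Finset.sum_add_distrib]
      map_smul' := fun c M => by simp [Fin.sum_univ_two, mul_left_comm]; ring }
  have hval : ∀ M : Matrix (Fin 2) (Fin 2) k, φK (M.map (algebraMap k K)) =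
      algebraMap k K (φ M) := by
    intro M
    conv_rhs => rw [Matrix.matrix_eq_sum_single M]
    simp only [map_sum]
    change ∑ i, ∑ j, algebraMap k K (φ (Matrix.single i j 1)) * algebraMap k K (M i j) = _
    refine Finset.sum_congr rfl fun i _ => Finset.sum_congr rfl fun j _ => ?_
    rw [show Matrix.single i j (M i j) = M i j • Matrix.single i j (1 : k) by simp, map_smul,
      smul_eq_mul, map_mul, mul_comm]
  have hkill : ∀ M : Matrix (Fin 2) (Fin 2) K, φK M = 0 := by
    intro M
    obtain ⟨f, rfl⟩ := (LinearMap.toMatrix bK bK).surjective M
    have hf : f ∈ Submodule.span K (Set.range (ρ.baseChange K).ρ) := htop ▸ Submodule.mem_top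
    refine Submodule.span_induction ?_ (by simp) (fun x y _ _ hx hy => by simp [hx, hy])
      (fun c x _ hx => by simp [hx]) hf
    rintro _ ⟨g, rfl⟩
    change φK (LinearMap.toMatrix bK bK ((ρ.ρ g).baseChange K)) = 0
    rw [LinearMap.toMatrix_baseChange, hval,
      LinearMap.mem_ker.mp (hφ (Submodule.subset_span ⟨g, rfl⟩)), map_zero]
  apply hφ0
  refine LinearMap.ext fun M => ?_
  exact (algebraMap k K).injective (by rw [← hval, hkill]; simp)

end Fermat.GR
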