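import Mathlib
import Fermat.Agent.GR.Deform.Normal
import Fermat.Agent.GR.Deform.PowerSeriesComplete

/-!
# Artinian deformations as ideals of the ring of matrix coordinates
-/

set_option autoImplicit false

noncomputable section

namespace Fermat.GR

local notation "Γℚ" => (AlgebraicClosure ℚ ≃ₐ[ℚ] AlgebraicClosure ℚ)
local notation "M2" R => Matrix (Fin 2) (Fin 2) R

open IsLocalRing GaloisRep

/-- Matrix coordinates. -/
abbrev Coord (𝒪 : Type) [CommRing 𝒪] : Type :=
  MvPolynomial ((AlgebraicClosure ℚ ≃ₐ[ℚ] AlgebraicClosure ℚ) × Fin 2 × Fin 2) 𝒪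

section

variable {𝒪 A : Type} [CommRing 𝒪] [CommRing A] [Algebra 𝒪 A]

/-- Evaluation of matrix coordinates at a representation. -/
def evalOf (r : Γℚ →* M2 A) : Coord 𝒪 →ₐ[𝒪] A :=
  MvPolynomial.aeval fun x => r x.1 x.2.1 x.2.2

/-- The values of the coordinates at a representation. -/
theorem evalOf_X (r : Γℚ →* M2 A) (σ : Γℚ) (i j : Fin 2) :
    evalOf (𝒪 := 𝒪) r (MvPolynomial.X (σ, i, j)) = r σ i j := MvPolynomial.aeval_X _ _

/-- A local algebra with residue field that of the base has finite residue field if the base has. -/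
theorem finite_residueField_of_residue_surjective [IsLocalRing 𝒪] [Finite (ResidueField 𝒪)]
    [IsLocalRing A] [IsLocalHom (algebraMap 𝒪 A)]
    (hA : Function.Surjective (residue A ∘ algebraMap 𝒪 A)) : Finite (ResidueField A) :=
  Finite.of_surjective (ResidueField.map (algebraMap 𝒪 A)) fun z => by
    obtain ⟨o, ho⟩ := hA z
    exact ⟨residue 𝒪 o, by rw [ResidueField.map_residue]; exact ho⟩

/-- An Artinian test algebra is finite, when the residue field of the base is. -/
theorem finite_of_isArtinianTestAlgebra [IsLocalRing 𝒪] [Finite (ResidueField 𝒪)] [IsLocalRing A]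
    (h : IsArtinianTestAlgebra 𝒪 A) : Finite A := by
  have := h.isArtinian
  have := h.isLocalHom
  have := finite_residueField_of_residue_surjective h.residue_surjective
  obtain ⟨n, hn⟩ := (isArtinianRing_iff_isNilpotent_maximalIdeal A).mp h.isArtinian
  have := finite_quotient_maximalIdeal_pow A n
  exact Finite.of_injective (Ideal.Quotient.mk (maximalIdeal A ^ n))
    ((RingHom.injective_iff_ker_eq_bot _).mpr (by rw [Ideal.mk_ker, hn]; rfl))

/-- Equal matrix homomorphisms give equivalent representations. -/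
theorem isEquiv_of_eq [IsLocalRing A] {r r' : Γℚ →* M2 A} (hr : MatCont r) (hr' : MatCont r')
    (h : r = r') : (repOf r hr).IsEquiv (repOf r' hr') := by
  subst h
  exact ⟨GaloisRepAdic.Equiv.refl _⟩

/-- Continuity is detected by two jointly injective maps to finite local rings. -/
theorem matCont_of_jointly_injective_finite {R A B : Type} [CommRing R] [IsLocalRing R] [CommRing A]
    [IsLocalRing A] [Finite A] [CommRing B] [IsLocalRing B] [Finite B] (pA : R →+* A)
    (pB : R →+* B) (hinj : Function.Injective fun x => (pA x, pB x)) (g : Γℚ →* M2 R)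
    (hA : MatCont (mapHom pA g)) (hB : MatCont (mapHom pB g)) : MatCont g := by
  intro n
  obtain ⟨NA, hNA⟩ := (isArtinianRing_iff_isNilpotent_maximalIdeal A).mp inferInstance
  obtain ⟨NB, hNB⟩ := (isArtinianRing_iff_isNilpotent_maximalIdeal B).mp inferInstance
  obtain ⟨L, hL, hl⟩ := hA NA
  obtain ⟨L', hL', hl'⟩ := hB NB
  have := hL
  have := hL'
  refine ⟨L ⊔ L', inferInstance, fun σ hσ i j => ?_⟩
  have h1 := hl σ (fun x hx => hσ x ((le_sup_left : L ≤ L ⊔ L') hx)) i j
  have h2 := hl' σ (fun x hx => hσ x ((le_sup_right : L' ≤ L ⊔ L') hx)) i j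
  rw [hNA] at h1
  rw [hNB] at h2
  have h0 : (g σ - 1) i j = 0 := by
    apply hinj
    simp only [Prod.mk.injEq, map_zero]
    constructor
    · rw [← (Submodule.mem_bot _).mp h1]
      by_cases hij : i = j <;> simp [hij, mapHom_apply]
    · rw [← (Submodule.mem_bot _).mp h2]
      by_cases hij : i = j <;> simp [hij, mapHom_apply]
  rw [h0]
  exact zero_mem _

end

/-- A residual representation with a chosen basis and matching normalisation data. -/
structure DefSetup (𝒪 : Type) [CommRing 𝒪] [IsLocalRing 𝒪]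
    (ρbar : ResidualGaloisRep (ResidueField 𝒪)) : Type where
  /-- The chosen basis of the residual space. -/
  b : Module.Basis (Fin 2) (ResidueField 𝒪) ρbar.V
  /-- The normalisation data. -/
  N : NormData 𝒪
  /-- The fixed matrices `N.bar` reduce to those of `ρbar` in the basis `b`. -/
  bar_eq : ∀ σ i j, residue 𝒪 (N.bar σ i j) = resMat ρbar b σ i j

namespace DefSetup

variable {𝒪 : Type} [CommRing 𝒪] [IsLocalRing 𝒪] {ρbar : ResidualGaloisRep (ResidueField 𝒪)}

/-- When the residual image spans all matrices, the data of the matrix coordinates exist. -/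
theorem nonempty
    (hspan : ∀ b : Module.Basis (Fin 2) (ResidueField 𝒪) ρbar.V,
      Submodule.span (ResidueField 𝒪) (Set.range (resMat ρbar b)) = ⊤) :
    Nonempty (DefSetup 𝒪 ρbar) := by
  classical
  let b₀ : Module.Basis (Fin 2) (ResidueField 𝒪) ρbar.V :=
    Module.finBasisOfFinrankEq _ _ ρbar.finrank_eq
  obtain ⟨g₀, hg₀⟩ : ∃ g, resMat ρbar b₀ g 1 0 ≠ 0 := by
    by_contra h
    push Not at h
    have hle : Submodule.span (ResidueField 𝒪) (Set.range (resMat ρbar b₀)) ≤
        LinearMap.ker (Matrix.entryLinearMap (ResidueField 𝒪) (ResidueField 𝒪) (1 : Fin 2)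
          (0 : Fin 2)) :=
      Submodule.span_le.mpr (by rintro _ ⟨g, rfl⟩; exact h g)
    rw [hspan b₀] at hle
    exact one_ne_zero (α := ResidueField 𝒪)
      (by simpa using hle (Submodule.mem_top (x := Matrix.single (1 : Fin 2) (0 : Fin 2)
            (1 : ResidueField 𝒪))))
  -- rescale so that the corner of `g₀` is one
  let b := b₀.unitsSMul ![1, Units.mk0 _ hg₀]
  have hb : resMat ρbar b g₀ 1 0 = 1 := by
    change LinearMap.toMatrix b b (ρbar.ρ g₀) 1 0 = 1
    rw [LinearMap.toMatrix_apply, Module.Basis.repr_unitsSMul, Module.Basis.unitsSMul_apply]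
    simp only [Matrix.cons_val_zero, Matrix.cons_val_one, Matrix.cons_val_fin_one, one_smul]
    rw [Units.smul_def, Units.val_inv_eq_inv_val, Units.val_mk0, smul_eq_mul]
    rw [show (b₀.repr (ρbar.ρ g₀ (b₀ 0))) 1 = resMat ρbar b₀ g₀ 1 0 from
      (LinearMap.toMatrix_apply b₀ b₀ _ 1 0).symm]
    exact inv_mul_cancel₀ hg₀
  have he : Matrix.single (1 : Fin 2) (1 : Fin 2) (1 : ResidueField 𝒪) ∈
      Submodule.span (ResidueField 𝒪) (Set.range (resMat ρbar b)) := hspan b ▸ Submodule.mem_top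
  -- write the corner idempotent in the image and lift everything to `𝒪`
  obtain ⟨c, hc⟩ := Finsupp.mem_span_range_iff_exists_finsupp.mp he
  let e := c.support.equivFin.symm
  let lift := Function.surjInv (residue_surjective (R := 𝒪))
  have hlift : ∀ z, residue 𝒪 (lift z) = z := Function.surjInv_eq _
  refine ⟨⟨b, {
    len := c.support.card
    g := fun l => (e l).1
    c := fun l => lift (c (e l).1)
    g₀ := g₀
    bar := fun σ => Matrix.of fun i j => lift (resMat ρbar b σ i j)
    diag_cond := ?_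
    g₀_cond := ?_ }, fun σ i j => hlift _⟩⟩
  · intro i j
    rw [← residue_eq_zero_iff, map_sub, Matrix.sum_apply, map_sum, sub_eq_zero]
    have h1 : ∀ l, residue 𝒪 ((lift (c (e l).1) • Matrix.of fun i j =>
        lift (resMat ρbar b (e l).1 i j)) i j) = (c (e l).1 • resMat ρbar b (e l).1) i j := by
      intro l
      rw [Matrix.smul_apply, smul_eq_mul, map_mul, Matrix.of_apply, hlift, hlift]
      rfl
    rw [Finset.sum_congr rfl fun l _ => h1 l,
      Equiv.sum_comp e (fun x => (c x.1 • resMat ρbar b x.1) i j), ← Matrix.sum_apply,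
      Finset.sum_coe_sort c.support (fun x => c x • resMat ρbar b x)]
    rw [Finsupp.sum] at hc
    rw [hc]
    fin_cases i <;> fin_cases j <;> simp
  · rw [← residue_eq_zero_iff, map_sub, map_one, Matrix.of_apply, hlift, hb, sub_self]

variable (D : DefSetup 𝒪 ρbar) {A : Type} [CommRing A] [IsLocalRing A] [Algebra 𝒪 A]
  [IsLocalHom (algebraMap 𝒪 A)]

/-- The residual matrices over the residue field of an algebra. -/
theorem map_resMat (σ : Γℚ) :
    (resMat ρbar D.b σ).map (ResidueField.map (algebraMap 𝒪 A)) =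
      (D.N.bar σ).map fun o => residue A (algebraMap 𝒪 A o) := by
  ext i j
  rw [Matrix.map_apply, Matrix.map_apply, ← D.bar_eq, ResidueField.map_residue]

/-- Reducing to the residual matrices, as an equation of matrices. -/
theorem isRed_iff (r : Γℚ →* M2 A) :
    D.N.IsRed r ↔ ∀ σ, (r σ).map (residue A) =
      (resMat ρbar D.b σ).map (ResidueField.map (algebraMap 𝒪 A)) := by
  simp only [D.map_resMat, ← Matrix.ext_iff, Matrix.map_apply]
  exact forall_congr' fun σ => forall_congr' fun i => forall_congr' fun j => by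
    rw [← residue_eq_zero_iff, map_sub, sub_eq_zero]

/-- A matrix representation reducing to the residual matrices lifts the residual representation. -/
theorem residual_isEquiv_of_isRed {r : Γℚ →* M2 A} (hr : MatCont r) (h : D.N.IsRed r) :
    (repOf r hr).residual.IsEquiv
      (ρbar.baseChangeAlong (ResidueField.map (algebraMap 𝒪 A))) :=
  (residual_isEquiv_iff ρbar hr D.b _).mpr ⟨1, fun σ => by
    rw [Units.val_one, one_mul, mul_one]; exact (D.isRed_iff r).mp h σ⟩

/-- A lifting of the residual representation is equivalent to a normalised matrix representation. -/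
theorem exists_normal_of_residual [IsAdicComplete (maximalIdeal A) A] (ρ : GaloisRepAdic A)
    (h : ρ.residual.IsEquiv (ρbar.baseChangeAlong (ResidueField.map (algebraMap 𝒪 A)))) :
    ∃ (r : Γℚ →* M2 A) (hr : MatCont r), D.N.IsNormal r ∧ ρ.IsEquiv (repOf r hr) := by
  let b := someBasis ρ
  have h1 := equiv_repOf_matOf ρ b
  obtain ⟨P, hP⟩ := (residual_isEquiv_iff ρbar (matCont_matOf ρ b) D.b _).mp
    (residual_isEquiv_congr h1 h)
  obtain ⟨U, hU⟩ := exists_unit_lift P
  rw [RingHom.mapMatrix_apply] at hU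
  have hred : D.N.IsRed (conjHom U (matOf ρ b)) := (D.isRed_iff _).mpr fun σ => by
    change ((U : M2 A) * matOf ρ b σ * (↑U⁻¹ : M2 A)).map (residue A) = _
    have hinv : (P : M2 (ResidueField A)) * (↑U⁻¹ : M2 A).map (residue A) = 1 := by
      rw [← hU, ← Matrix.map_mul, U.mul_inv, Matrix.map_one _ (map_zero _) (map_one _)]
    rw [Matrix.map_mul, Matrix.map_mul, hU, hP σ, mul_assoc, hinv, mul_one]
  obtain ⟨r, hr, hn, he⟩ := D.N.exists_isNormal (matCont_conjHom (matCont_matOf ρ b) U) hred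
  obtain ⟨e1⟩ := h1
  obtain ⟨e2⟩ := isEquiv_conjHom (matCont_matOf ρ b) U
  obtain ⟨e3⟩ := he
  exact ⟨r, hr, hn, ⟨(e1.trans e2).trans e3⟩⟩

/-! ### The coordinate ring -/

/-- Evaluation at the residual representation. -/
def evalBar : Coord 𝒪 →ₐ[𝒪] ResidueField 𝒪 :=
  evalOf (resMat ρbar D.b)

/-- The maximal ideal of the residual point. -/
def M₀ : Ideal (Coord 𝒪) := RingHom.ker D.evalBar

/-- The members of `M₀`. -/
theorem mem_M₀ {p : Coord 𝒪} : p ∈ D.M₀ ↔ D.evalBar p = 0 := Iff.rfl

/-- Evaluation at the residual point is surjective. -/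
theorem evalBar_surjective : Function.Surjective D.evalBar := fun z => by
  obtain ⟨o, rfl⟩ := residue_surjective z
  exact ⟨algebraMap 𝒪 _ o, by rw [AlgHom.commutes]; rfl⟩

/-- `M₀` is maximal. -/
instance isMaximal_M₀ : D.M₀.IsMaximal :=
  RingHom.ker_isMaximal_of_surjective D.evalBar.toRingHom D.evalBar_surjective

/-- Evaluations at a lifting reduce to those at the residual point. -/
theorem residue_evalOf {r : Γℚ →* M2 A} (hr : D.N.IsRed r) (p : Coord 𝒪) :
    residue A (evalOf r p) = ResidueField.map (algebraMap 𝒪 A) (D.evalBar p) := by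
  induction p using MvPolynomial.induction_on with
  | C o =>
    rw [← MvPolynomial.algebraMap_eq, AlgHom.commutes, AlgHom.commutes]
    exact (ResidueField.map_residue _ o).symm
  | add p q hp hq => simp [hp, hq]
  | mul_X p x hp =>
    obtain ⟨σ, i, j⟩ := x
    rw [map_mul, map_mul, map_mul, map_mul, hp, evalBar, evalOf_X, evalOf_X]
    congr 1
    have := congrFun (congrFun ((D.isRed_iff r).mp hr σ) i) j
    rwa [Matrix.map_apply, Matrix.map_apply] at this

/-- A lifting evaluates `M₀` into the maximal ideal. -/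
theorem evalOf_mem_maximalIdeal {r : Γℚ →* M2 A} (hr : D.N.IsRed r) {p : Coord 𝒪} (hp : p ∈ D.M₀) :
    evalOf r p ∈ maximalIdeal A := by
  rw [← residue_eq_zero_iff, D.residue_evalOf hr, D.mem_M₀.mp hp, map_zero]

/-- An open ideal of the residual point, with finite quotient. -/
structure Good (K : Ideal (Coord 𝒪)) : Prop where
  /-- `K` lies in the maximal ideal of the residual point. -/
  le : K ≤ D.M₀
  /-- `K` contains a power of that maximal ideal. -/
  pow_le : ∃ n, D.M₀ ^ n ≤ K
  /-- The quotient by `K` is finite. -/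
  finite : Finite (Coord 𝒪 ⧸ K)

variable {D}

/-- Good ideals of coordinates are stable under intersection. -/
theorem Good.inf {K K' : Ideal (Coord 𝒪)} (h : D.Good K) (h' : D.Good K') : D.Good (K ⊓ K') where
  le := inf_le_left.trans h.le
  pow_le := by
    obtain ⟨n, hn⟩ := h.pow_le
    obtain ⟨n', hn'⟩ := h'.pow_le
    exact ⟨max n n', le_inf ((Ideal.pow_le_pow_right (le_max_left n n')).trans hn)
      ((Ideal.pow_le_pow_right (le_max_right n n')).trans hn')⟩
  finite := by
    have := h.finite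
    have := h'.finite
    refine Finite.of_injective (fun z => (Ideal.Quotient.factor inf_le_left z,
      Ideal.Quotient.factor inf_le_right z) :
      Coord 𝒪 ⧸ K ⊓ K' → (Coord 𝒪 ⧸ K) × (Coord 𝒪 ⧸ K')) fun x y hxy => ?_
    obtain ⟨x, rfl⟩ := Ideal.Quotient.mk_surjective x
    obtain ⟨y, rfl⟩ := Ideal.Quotient.mk_surjective y
    simp only [Ideal.Quotient.factor_mk, Prod.mk.injEq] at hxy
    rw [Ideal.Quotient.eq] at hxy ⊢
    exact ⟨hxy.1, (Ideal.Quotient.eq.mp hxy.2)⟩

/-- Ideals between a good ideal and `M₀` are good. -/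
theorem Good.mono {K K' : Ideal (Coord 𝒪)} (h : D.Good K) (hle : K ≤ K') (hle' : K' ≤ D.M₀) :
    D.Good K' where
  le := hle'
  pow_le := h.pow_le.imp fun _ hn => hn.trans hle
  finite := by
    have := h.finite
    exact Finite.of_surjective (Ideal.Quotient.factor hle) (Ideal.Quotient.factor_surjective hle)

/-- In the quotient by a good ideal the units are the elements outside `M₀`. -/
theorem Good.isUnit_iff {K : Ideal (Coord 𝒪)} (h : D.Good K) (p : Coord 𝒪) :
    IsUnit (Ideal.Quotient.mk K p) ↔ p ∉ D.M₀ := by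
  constructor
  · intro hu hp
    have := hu.map (Ideal.Quotient.factor h.le)
    rw [Ideal.Quotient.factor_mk, Ideal.Quotient.eq_zero_iff_mem.mpr hp] at this
    exact not_isUnit_zero this
  · intro hp
    obtain ⟨n, hn⟩ := h.pow_le
    obtain ⟨q, m, hm, hqm⟩ := D.isMaximal_M₀.exists_inv hp
    have : IsNilpotent (Ideal.Quotient.mk K m) :=
      ⟨n, by rw [← map_pow, Ideal.Quotient.eq_zero_iff_mem]; exact hn (Ideal.pow_mem_pow hm n)⟩
    have hu := this.isUnit_one_sub
    rw [← map_one (Ideal.Quotient.mk K), ← map_sub, show (1 : Coord 𝒪) - m = q * p by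
      linear_combination -hqm, map_mul] at hu
    exact isUnit_of_mul_isUnit_right hu

/-- The quotient by a good ideal is local. -/
theorem Good.isLocalRing {K : Ideal (Coord 𝒪)} (h : D.Good K) : IsLocalRing (Coord 𝒪 ⧸ K) := by
  have : Nontrivial (Coord 𝒪 ⧸ K) :=
    Ideal.Quotient.nontrivial_iff.mpr fun htop =>
      D.isMaximal_M₀.ne_top (top_le_iff.mp (htop ▸ h.le))
  refine IsLocalRing.of_nonunits_add fun a b ha hb => ?_
  obtain ⟨x, rfl⟩ := Ideal.Quotient.mk_surjective a
  obtain ⟨y, rfl⟩ := Ideal.Quotient.mk_surjective b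
  rw [mem_nonunits_iff, h.isUnit_iff, not_not] at ha hb
  rw [← map_add, mem_nonunits_iff, h.isUnit_iff, not_not]
  exact add_mem ha hb

/-- The maximal ideal of the quotient by a good ideal comes from `M₀`. -/
theorem Good.mem_maximalIdeal_iff {K : Ideal (Coord 𝒪)} (h : D.Good K) (p : Coord 𝒪) :
    haveI := h.isLocalRing
    Ideal.Quotient.mk K p ∈ maximalIdeal (Coord 𝒪 ⧸ K) ↔ p ∈ D.M₀ := by
  have := h.isLocalRing
  rw [IsLocalRing.mem_maximalIdeal, mem_nonunits_iff, h.isUnit_iff, not_not]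

/-- The quotient by a good ideal is an Artinian test algebra. -/
theorem Good.test {K : Ideal (Coord 𝒪)} (h : D.Good K) :
    haveI := h.isLocalRing
    IsArtinianTestAlgebra 𝒪 (Coord 𝒪 ⧸ K) := by
  have := h.isLocalRing
  have := h.finite
  refine ⟨⟨fun o ho => ?_⟩, fun z => ?_, inferInstance⟩
  · have := (h.isUnit_iff (algebraMap 𝒪 (Coord 𝒪) o)).mp ho
    rw [D.mem_M₀, AlgHom.commutes] at this
    by_contra hu
    exact this ((residue_eq_zero_iff o).mpr hu)
  · obtain ⟨a, rfl⟩ := residue_surjective z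
    obtain ⟨p, rfl⟩ := Ideal.Quotient.mk_surjective a
    obtain ⟨o, ho⟩ := residue_surjective (D.evalBar p)
    refine ⟨o, ?_⟩
    change residue _ (Ideal.Quotient.mk K (algebraMap 𝒪 (Coord 𝒪) o)) = _
    rw [← sub_eq_zero, ← map_sub, ← map_sub, residue_eq_zero_iff, h.mem_maximalIdeal_iff,
      D.mem_M₀, map_sub, AlgHom.commutes, ← ho]
    exact sub_self _

/-- The generic representation modulo `K` exists and is a deformation of the given type. -/
structure IsDefIdeal (D : DefSetup 𝒪 ρbar)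
    (𝒟 : ∀ ⦃A : Type⦄ [CommRing A] [IsLocalRing A] [Algebra 𝒪 A], GaloisRepAdic A → Prop)
    (K : Ideal (Coord 𝒪)) : Prop where
  /-- `K` is open at the residual point with finite quotient. -/
  good : D.Good K
  /-- The generic matrices modulo `K` form a continuous normalised representation of the given
  type. -/
  exists_rep : haveI := good.isLocalRing
    ∃ (r : Γℚ →* M2 (Coord 𝒪 ⧸ K)) (hc : MatCont r),
      (∀ σ i j, r σ i j = Ideal.Quotient.mk K (MvPolynomial.X (σ, i, j))) ∧
        D.N.IsNormal r ∧ 𝒟 (repOf r hc)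

variable {𝒟 : ∀ ⦃A : Type⦄ [CommRing A] [IsLocalRing A] [Algebra 𝒪 A], GaloisRepAdic A → Prop}

variable [Finite (ResidueField 𝒪)] (h𝒟 : IsDeformationCondition 𝒪 𝒟)
include h𝒟

/-- The kernel of the evaluation at any artinian deformation is a deformation ideal. -/
theorem isDefIdeal_ker {B : Type} [CommRing B] [IsLocalRing B] [Algebra 𝒪 B]
    (hB : IsArtinianTestAlgebra 𝒪 B) {r : Γℚ →* M2 B} {hc : MatCont r}
    (hn : D.N.IsNormal r) (hD : 𝒟 (repOf r hc)) :
    IsDefIdeal D 𝒟 (RingHom.ker (evalOf (𝒪 := 𝒪) r)) := by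
  have := hB.isLocalHom
  have := hB.isArtinian
  have := finite_of_isArtinianTestAlgebra hB
  set K : Ideal (Coord 𝒪) := RingHom.ker (evalOf (𝒪 := 𝒪) r)
  obtain ⟨N, hN⟩ := (isArtinianRing_iff_isNilpotent_maximalIdeal B).mp hB.isArtinian
  -- the quotient is a test algebra inside `B`
  let f : (Coord 𝒪 ⧸ K) →ₐ[𝒪] B := Ideal.Quotient.liftₐ K (evalOf r) fun p hp => hp
  have hf : Function.Injective f := RingHom.lift_injective_of_ker_le_ideal K (fun p hp => hp) le_rfl
  have hgood : D.Good K := by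
    refine ⟨fun p hp => ?_, ⟨N, ?_⟩, Finite.of_injective f hf⟩
    · have := D.residue_evalOf hn.red p
      rw [RingHom.mem_ker.mp hp, map_zero] at this
      exact D.mem_M₀.mpr ((ResidueField.map (algebraMap 𝒪 B)).injective
        (this.symm.trans (map_zero _).symm))
    · intro p hp
      have hle : D.M₀.map (evalOf (𝒪 := 𝒪) r).toRingHom ≤ maximalIdeal B :=
        Ideal.map_le_iff_le_comap.mpr fun q hq => D.evalOf_mem_maximalIdeal hn.red hq
      have := Ideal.pow_right_mono hle N
        (Ideal.map_pow (evalOf (𝒪 := 𝒪) r).toRingHom D.M₀ N ▸ Ideal.mem_map_of_mem _ hp)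
      rw [hN] at this
      exact this
  have := hgood.isLocalRing
  have hfloc : IsLocalHom (f : (Coord 𝒪 ⧸ K) →+* B) := ⟨fun z hz => by
    obtain ⟨p, rfl⟩ := Ideal.Quotient.mk_surjective z
    rw [hgood.isUnit_iff]
    intro hp
    exact D.evalOf_mem_maximalIdeal hn.red hp hz⟩
  -- the representation descends to it
  let g : Γℚ →* M2 (Coord 𝒪 ⧸ K) :=
    { toFun := fun σ => Matrix.of fun i j => Ideal.Quotient.mk K (MvPolynomial.X (σ, i, j))
      map_one' := by
        ext i j
        apply hf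
        change evalOf r (MvPolynomial.X ((1 : Γℚ), i, j)) = f ((1 : M2 (Coord 𝒪 ⧸ K)) i j)
        rw [evalOf_X, map_one, Matrix.one_apply, Matrix.one_apply]
        split_ifs <;> simp
      map_mul' := fun σ τ => by
        ext i j
        apply hf
        change evalOf r (MvPolynomial.X (σ * τ, i, j)) = f (((Matrix.of fun i j =>
          Ideal.Quotient.mk K (MvPolynomial.X (σ, i, j))) *
          (Matrix.of fun i j => Ideal.Quotient.mk K (MvPolynomial.X (τ, i, j))) :
            M2 (Coord 𝒪 ⧸ K)) i j)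
        rw [evalOf_X, map_mul, Matrix.mul_apply, Matrix.mul_apply, map_sum]
        refine Finset.sum_congr rfl fun l _ => ?_
        rw [map_mul, Matrix.of_apply, Matrix.of_apply]
        change _ = evalOf r _ * evalOf r _
        rw [evalOf_X, evalOf_X] }
  have hmap : mapHom (f : (Coord 𝒪 ⧸ K) →+* B) g = r :=
    MonoidHom.ext fun σ => Matrix.ext fun i j => evalOf_X r σ i j
  have hcg : MatCont g := by
    intro n
    obtain ⟨L, hL, h⟩ := hc N
    refine ⟨L, hL, fun σ hσ i j => ?_⟩
    have h0 : (r σ - 1) i j = 0 := by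
      have := h σ hσ i j
      rw [hN] at this
      exact this
    have h1 : f ((g σ - 1) i j) = 0 := by
      rw [← h0, Matrix.sub_apply, Matrix.sub_apply, map_sub]
      congr 1
      · exact evalOf_X r σ i j
      · rw [Matrix.one_apply, Matrix.one_apply]; split_ifs <;> simp
    rw [hf (h1.trans (map_zero f).symm)]
    exact zero_mem _
  -- and is a deformation of the type by descent along an injection
  refine ⟨hgood, g, hcg, fun σ i j => rfl,
    NormData.IsNormal.of_map D.N f hf (hmap.symm ▸ hn), ?_⟩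
  refine h𝒟.of_baseChangeAlong_injective hgood.test hB f hfloc hf ?_
  obtain ⟨e⟩ := isEquiv_baseChange hcg (f : (Coord 𝒪 ⧸ K) →+* B) hfloc
  refine h𝒟.of_isEquiv hB ?_ hD
  obtain ⟨e'⟩ := isEquiv_of_eq hc (matCont_mapHom hcg (f : (Coord 𝒪 ⧸ K) →+* B) hfloc) hmap.symm
  exact ⟨e'.trans e.symm⟩

omit [Finite (ResidueField 𝒪)] in
/-- Ideals between a deformation ideal and `M₀` are deformation ideals. -/
theorem IsDefIdeal.mono {K K' : Ideal (Coord 𝒪)} (h : IsDefIdeal D 𝒟 K) (hle : K ≤ K')
    (hle' : K' ≤ D.M₀) : IsDefIdeal D 𝒟 K' := by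
  have hg' := h.good.mono hle hle'
  have := h.good.isLocalRing
  have := hg'.isLocalRing
  obtain ⟨r, hc, hX, hn, hD⟩ := h.exists_rep
  let f : (Coord 𝒪 ⧸ K) →ₐ[𝒪] (Coord 𝒪 ⧸ K') := Ideal.Quotient.factorₐ 𝒪 hle
  have hfloc : IsLocalHom (f : (Coord 𝒪 ⧸ K) →+* (Coord 𝒪 ⧸ K')) :=
    IsLocalHom.of_surjective _ (Ideal.Quotient.factor_surjective hle)
  refine ⟨hg', mapHom (f : (Coord 𝒪 ⧸ K) →+* _) r, matCont_mapHom hc _ hfloc,
    fun σ i j => by rw [mapHom_apply, hX]; rfl, hn.map D.N f hfloc, ?_⟩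
  exact h𝒟.of_isEquiv hg'.test (isEquiv_baseChange hc _ hfloc)
    (h𝒟.baseChangeAlong h.good.test hg'.test f hfloc hD)

omit [Finite (ResidueField 𝒪)] in
/-- Deformation ideals are stable under intersection. -/
theorem IsDefIdeal.inf {K K' : Ideal (Coord 𝒪)} (h : IsDefIdeal D 𝒟 K) (h' : IsDefIdeal D 𝒟 K') :
    IsDefIdeal D 𝒟 (K ⊓ K') := by
  have hg := h.good.inf h'.good
  have hgs := h.good.mono le_sup_left (sup_le h.good.le h'.good.le : K ⊔ K' ≤ D.M₀)
  have := h.good.isLocalRing
  have := h'.good.isLocalRing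
  have := hg.isLocalRing
  have := hgs.isLocalRing
  obtain ⟨r, hc, hX, hn, hD⟩ := h.exists_rep
  obtain ⟨r', hc', hX', hn', hD'⟩ := h'.exists_rep
  -- the quotient by the intersection is a fibre product
  let pA : (Coord 𝒪 ⧸ K ⊓ K') →ₐ[𝒪] (Coord 𝒪 ⧸ K) := Ideal.Quotient.factorₐ 𝒪 inf_le_left
  let pB : (Coord 𝒪 ⧸ K ⊓ K') →ₐ[𝒪] (Coord 𝒪 ⧸ K') := Ideal.Quotient.factorₐ 𝒪 inf_le_right
  let fA : (Coord 𝒪 ⧸ K) →ₐ[𝒪] (Coord 𝒪 ⧸ K ⊔ K') := Ideal.Quotient.factorₐ 𝒪 le_sup_left
  let fB : (Coord 𝒪 ⧸ K') →ₐ[𝒪] (Coord 𝒪 ⧸ K ⊔ K') := Ideal.Quotient.factorₐ 𝒪 le_sup_right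
  have hpA : IsLocalHom (pA : (Coord 𝒪 ⧸ K ⊓ K') →+* (Coord 𝒪 ⧸ K)) :=
    IsLocalHom.of_surjective _ (Ideal.Quotient.factor_surjective inf_le_left)
  have hpB : IsLocalHom (pB : (Coord 𝒪 ⧸ K ⊓ K') →+* (Coord 𝒪 ⧸ K')) :=
    IsLocalHom.of_surjective _ (Ideal.Quotient.factor_surjective inf_le_right)
  have hinj : Function.Injective fun x => (pA x, pB x) := by
    intro x y hxy
    obtain ⟨x, rfl⟩ := Ideal.Quotient.mk_surjective x
    obtain ⟨y, rfl⟩ := Ideal.Quotient.mk_surjective y
    simp only [Prod.mk.injEq] at hxy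
    exact Ideal.Quotient.eq.mpr ⟨Ideal.Quotient.eq.mp hxy.1, Ideal.Quotient.eq.mp hxy.2⟩
  -- the two representations glue
  let g : Γℚ →* M2 (Coord 𝒪 ⧸ K ⊓ K') :=
    { toFun := fun σ => Matrix.of fun i j => Ideal.Quotient.mk _ (MvPolynomial.X (σ, i, j))
      map_one' := by
        ext i j
        apply hinj
        simp only [Prod.mk.injEq]
        constructor
        · refine (hX 1 i j).symm.trans ?_
          rw [map_one, Matrix.one_apply, Matrix.one_apply]; split_ifs <;> simp
        · refine (hX' 1 i j).symm.trans ?_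
          rw [map_one, Matrix.one_apply, Matrix.one_apply]; split_ifs <;> simp
      map_mul' := fun σ τ => by
        ext i j
        apply hinj
        simp only [Prod.mk.injEq]
        constructor
        · refine (hX (σ * τ) i j).symm.trans ?_
          rw [map_mul, Matrix.mul_apply, Matrix.mul_apply, map_sum]
          exact Finset.sum_congr rfl fun l _ => by rw [map_mul, hX, hX]; rfl
        · refine (hX' (σ * τ) i j).symm.trans ?_
          rw [map_mul, Matrix.mul_apply, Matrix.mul_apply, map_sum]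
          exact Finset.sum_congr rfl fun l _ => by rw [map_mul, hX', hX']; rfl }
  have hgA : mapHom (pA : (Coord 𝒪 ⧸ K ⊓ K') →+* _) g = r :=
    MonoidHom.ext fun σ => Matrix.ext fun i j => (hX σ i j).symm
  have hgB : mapHom (pB : (Coord 𝒪 ⧸ K ⊓ K') →+* _) g = r' :=
    MonoidHom.ext fun σ => Matrix.ext fun i j => (hX' σ i j).symm
  have hcg : MatCont g := by
    have := h.good.finite
    have := h'.good.finite
    exact matCont_of_jointly_injective_finite (pA : (Coord 𝒪 ⧸ K ⊓ K') →+* (Coord 𝒪 ⧸ K))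
      (pB : (Coord 𝒪 ⧸ K ⊓ K') →+* (Coord 𝒪 ⧸ K')) hinj g (by rw [hgA]; exact hc)
      (by rw [hgB]; exact hc')
  -- normality holds componentwise, the condition by the fibre product axiom
  refine ⟨hg, g, hcg, fun σ i j => rfl, ⟨?_, ?_, ?_, ?_⟩, ?_⟩
  · intro σ i j
    change Ideal.Quotient.mk _ (MvPolynomial.X (σ, i, j)) -
      Ideal.Quotient.mk _ (algebraMap 𝒪 (Coord 𝒪) (D.N.bar σ i j)) ∈ _
    rw [← map_sub, hg.mem_maximalIdeal_iff, D.mem_M₀, map_sub, AlgHom.commutes, evalBar, evalOf_X,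
      ← D.bar_eq]
    exact sub_self _
  · apply hinj
    simp only [map_zero, ← D.N.elt_mapHom, hgA, hgB, hn.elt_01, hn'.elt_01]
  · apply hinj
    simp only [map_zero, ← D.N.elt_mapHom, hgA, hgB, hn.elt_10, hn'.elt_10]
  · apply hinj
    simp only [Prod.mk.injEq, map_one]
    exact ⟨((hX _ _ _).symm.trans hn.g₀_10), ((hX' _ _ _).symm.trans hn'.g₀_10)⟩
  · refine h𝒟.of_fibreProduct (A := Coord 𝒪 ⧸ K) (B := Coord 𝒪 ⧸ K') (C := Coord 𝒪 ⧸ K ⊔ K')
      h.good.test h'.good.test hgs.test hg.test fA fB pA pB hpA hpB ?_ hinj ?_ ?_ ?_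
    · exact AlgHom.ext fun x => by
        obtain ⟨x, rfl⟩ := Ideal.Quotient.mk_surjective x
        rfl
    · intro a c hac
      obtain ⟨x, rfl⟩ := Ideal.Quotient.mk_surjective a
      obtain ⟨y, rfl⟩ := Ideal.Quotient.mk_surjective c
      obtain ⟨u, hu, v, hv, huv⟩ := Submodule.mem_sup.mp (Ideal.Quotient.eq.mp hac)
      refine ⟨Ideal.Quotient.mk _ (x - u), ?_, ?_⟩
      · exact Ideal.Quotient.eq.mpr (by simpa using hu)
      · exact Ideal.Quotient.eq.mpr
          (by rw [show x - u - y = v by linear_combination -huv]; exact hv)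
    · obtain ⟨e⟩ := isEquiv_baseChange hcg (pA : (Coord 𝒪 ⧸ K ⊓ K') →+* (Coord 𝒪 ⧸ K)) hpA
      obtain ⟨e'⟩ := isEquiv_of_eq hc
        (matCont_mapHom hcg (pA : (Coord 𝒪 ⧸ K ⊓ K') →+* (Coord 𝒪 ⧸ K)) hpA) hgA.symm
      exact h𝒟.of_isEquiv h.good.test ⟨e'.trans e.symm⟩ hD
    · obtain ⟨e⟩ := isEquiv_baseChange hcg (pB : (Coord 𝒪 ⧸ K ⊓ K') →+* (Coord 𝒪 ⧸ K')) hpB
      obtain ⟨e'⟩ := isEquiv_of_eq hc'
        (matCont_mapHom hcg (pB : (Coord 𝒪 ⧸ K ⊓ K') →+* (Coord 𝒪 ⧸ K')) hpB) hgB.symm
      exact h𝒟.of_isEquiv h'.good.test ⟨e'.trans e.symm⟩ hD'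

/-- When the residual representation satisfies the condition, `M₀` is a deformation ideal. -/
theorem isDefIdeal_M₀ (hbar : 𝒟 (GaloisRepAdic.ofResidualGaloisRep ρbar)) :
    IsDefIdeal D 𝒟 D.M₀ := by
  have : IsArtinianRing (ResidueField 𝒪) := inferInstance
  have hloc : IsLocalHom (algebraMap 𝒪 (ResidueField 𝒪)) :=
    IsLocalHom.of_surjective _ residue_surjective
  have htest : IsArtinianTestAlgebra 𝒪 (ResidueField 𝒪) :=
    ⟨inferInstance, fun z => by
      obtain ⟨x, rfl⟩ := residue_surjective z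
      obtain ⟨o, rfl⟩ := residue_surjective x
      exact ⟨o, rfl⟩, inferInstance⟩
  have hc := matCont_resMat ρbar D.b
  have hbot : maximalIdeal (ResidueField 𝒪) = ⊥ := by
    rw [← IsLocalRing.isField_iff_maximalIdeal_eq]
    exact Field.toIsField _
  have hn : D.N.IsNormal (resMat ρbar D.b) := by
    refine ⟨fun σ i j => ?_, ?_, ?_, ?_⟩
    · rw [hbot, Submodule.mem_bot, sub_eq_zero]; exact (D.bar_eq σ i j).symm
    · have := D.N.elt_red (A := ResidueField 𝒪) (r := resMat ρbar D.b)
        (fun σ i j => by rw [hbot, Submodule.mem_bot, sub_eq_zero]; exact (D.bar_eq σ i j).symm) 0 1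
      simpa [hbot] using this
    · have := D.N.elt_red (A := ResidueField 𝒪) (r := resMat ρbar D.b)
        (fun σ i j => by rw [hbot, Submodule.mem_bot, sub_eq_zero]; exact (D.bar_eq σ i j).symm) 1 0
      simpa [hbot] using this
    · rw [← D.bar_eq, ← sub_eq_zero, ← map_one (residue 𝒪), ← map_sub, residue_eq_zero_iff]
      exact D.N.g₀_cond
  exact isDefIdeal_ker h𝒟 htest hn (h𝒟.of_isEquiv htest (isEquiv_ofResidual ρbar D.b hc) hbar)

end DefSetup

end Fermat.GR
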