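import Mathlib
import Fermat.Agent.GR.Deform.DefIdeals

/-!
# The tangent space bound and generators of the universal deformation ring
-/

set_option autoImplicit false

noncomputable section

namespace Fermat.GR

open IsLocalRing GaloisRep

namespace DefSetup

variable {𝒪 : Type} [CommRing 𝒪] [IsLocalRing 𝒪] [Finite (ResidueField 𝒪)]
  {ρbar : ResidualGaloisRep (ResidueField 𝒪)} {D : DefSetup 𝒪 ρbar}
  {𝒟 : ∀ ⦃A : Type⦄ [CommRing A] [IsLocalRing A] [Algebra 𝒪 A], GaloisRepAdic A → Prop}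

/-- The ideal cutting out first order deformations in characteristic `p`. -/
def J₁ (D : DefSetup 𝒪 ρbar) : Ideal (Coord 𝒪) :=
  D.M₀ ^ 2 ⊔ (maximalIdeal 𝒪).map (algebraMap 𝒪 (Coord 𝒪))

omit [Finite (ResidueField 𝒪)] in
/-- `J₁` lies in `M₀`. -/
theorem J₁_le (D : DefSetup 𝒪 ρbar) : D.J₁ ≤ D.M₀ := by
  refine sup_le (Ideal.pow_le_self two_ne_zero) (Ideal.map_le_iff_le_comap.mpr fun o ho => ?_)
  rw [Ideal.mem_comap, D.mem_M₀, AlgHom.commutes]
  exact (residue_eq_zero_iff o).mpr ho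

omit [Finite (ResidueField 𝒪)] in
/-- Homomorphisms to the dual numbers separate points of a first order quotient. -/
theorem exists_hom_dualNumber_ne_zero {J : Ideal (Coord 𝒪)} (hJ : D.Good J) (h1 : D.J₁ ≤ J)
    {z : Coord 𝒪 ⧸ J} (hz : z ≠ 0) :
    haveI := hJ.isLocalRing
    letI : Algebra 𝒪 (DualNumber (ResidueField 𝒪)) :=
      ((algebraMap (ResidueField 𝒪) (DualNumber (ResidueField 𝒪))).comp
        (algebraMap 𝒪 (ResidueField 𝒪))).toAlgebra
    ∃ f : (Coord 𝒪 ⧸ J) →ₐ[𝒪] DualNumber (ResidueField 𝒪), f z ≠ 0 := by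
  have := hJ.isLocalRing
  let : Algebra 𝒪 (DualNumber (ResidueField 𝒪)) :=
    ((algebraMap (ResidueField 𝒪) (DualNumber (ResidueField 𝒪))).comp
      (algebraMap 𝒪 (ResidueField 𝒪))).toAlgebra
  have hϖ : ∀ o ∈ maximalIdeal 𝒪, algebraMap 𝒪 (Coord 𝒪 ⧸ J) o = 0 := fun o ho =>
    Ideal.Quotient.eq_zero_iff_mem.mpr (h1 (Submodule.mem_sup_right (Ideal.mem_map_of_mem _ ho)))
  let ι : ResidueField 𝒪 →+* (Coord 𝒪 ⧸ J) :=
    Ideal.Quotient.lift (maximalIdeal 𝒪) (algebraMap 𝒪 (Coord 𝒪 ⧸ J)) hϖ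
  have hι : ∀ o, ι (residue 𝒪 o) = algebraMap 𝒪 (Coord 𝒪 ⧸ J) o := fun o => rfl
  let : Algebra (ResidueField 𝒪) (Coord 𝒪 ⧸ J) := ι.toAlgebra
  let res : (Coord 𝒪 ⧸ J) →+* ResidueField 𝒪 :=
    Ideal.Quotient.lift J (D.evalBar : Coord 𝒪 →+* ResidueField 𝒪) fun p hp => hJ.le hp
  have hres : ∀ a, res (ι a) = a := fun a => by
    obtain ⟨o, rfl⟩ := residue_surjective a
    change D.evalBar (algebraMap 𝒪 (Coord 𝒪) o) = _
    rw [AlgHom.commutes]; rfl
  have hsq : ∀ x y : Coord 𝒪 ⧸ J, (x - ι (res x)) * (y - ι (res y)) = 0 := by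
    intro x y
    obtain ⟨p, rfl⟩ := Ideal.Quotient.mk_surjective x
    obtain ⟨q, rfl⟩ := Ideal.Quotient.mk_surjective y
    obtain ⟨a, ha⟩ := residue_surjective (D.evalBar p)
    obtain ⟨c, hc⟩ := residue_surjective (D.evalBar q)
    have hx : res (Ideal.Quotient.mk J p) = residue 𝒪 a := ha.symm
    have hy : res (Ideal.Quotient.mk J q) = residue 𝒪 c := hc.symm
    rw [hx, hy, hι, hι]
    change (Ideal.Quotient.mk J p - Ideal.Quotient.mk J (algebraMap 𝒪 _ a)) *
      (Ideal.Quotient.mk J q - Ideal.Quotient.mk J (algebraMap 𝒪 _ c)) = 0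
    rw [← map_sub, ← map_sub, ← map_mul, Ideal.Quotient.eq_zero_iff_mem]
    refine h1 (Submodule.mem_sup_left ?_)
    rw [pow_two]
    refine Ideal.mul_mem_mul ?_ ?_
    · rw [D.mem_M₀, map_sub, AlgHom.commutes, ← ha]; exact sub_self _
    · rw [D.mem_M₀, map_sub, AlgHom.commutes, ← hc]; exact sub_self _
  -- a functional gives the map `x ↦ res x + l (x - res x) ε`
  have mk : ∀ l : (Coord 𝒪 ⧸ J) →ₗ[ResidueField 𝒪] ResidueField 𝒪,
      ∃ f : (Coord 𝒪 ⧸ J) →ₐ[𝒪] DualNumber (ResidueField 𝒪),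
        ∀ x, f x = TrivSqZeroExt.inl (res x) + TrivSqZeroExt.inr (l (x - ι (res x))) := by
    intro l
    have hl : ∀ a x, l (ι a * x) = a * l x := fun a x => l.map_smul a x
    refine ⟨AlgHom.mk
      { toFun := fun x => TrivSqZeroExt.inl (res x) + TrivSqZeroExt.inr (l (x - ι (res x)))
        map_one' := by simp [TrivSqZeroExt.inl_one]
        map_mul' := fun x y => ?_
        map_zero' := by simp
        map_add' := fun x y => ?_ } (fun o => ?_), fun x => rfl⟩
    · have hdec : x * y - ι (res (x * y)) =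
          ι (res x) * (y - ι (res y)) + ι (res y) * (x - ι (res x)) := by
        rw [map_mul, map_mul]
        linear_combination hsq x y
      refine TrivSqZeroExt.ext ?_ ?_
      · simp
      · rw [TrivSqZeroExt.snd_mul, hdec, map_add, hl, hl]
        simp [mul_comm]
    · refine TrivSqZeroExt.ext ?_ ?_
      · simp
      · simp only [TrivSqZeroExt.snd_add, TrivSqZeroExt.snd_inl, TrivSqZeroExt.snd_inr, zero_add]
        rw [← map_add l, map_add res, map_add ι]
        congr 1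
        ring
    · change TrivSqZeroExt.inl (res (algebraMap 𝒪 (Coord 𝒪 ⧸ J) o)) +
        TrivSqZeroExt.inr (l (algebraMap 𝒪 (Coord 𝒪 ⧸ J) o -
          ι (res (algebraMap 𝒪 (Coord 𝒪 ⧸ J) o)))) = _
      rw [← hι o, hres, sub_self, map_zero, TrivSqZeroExt.inr_zero, add_zero]
      rfl
  -- choose the functional by the residue of `z`
  by_cases hr : res z = 0
  · have hl : ∃ l : (Coord 𝒪 ⧸ J) →ₗ[ResidueField 𝒪] ResidueField 𝒪, l z ≠ 0 := by
      by_contra h
      push Not at h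
      exact hz ((Module.forall_dual_apply_eq_zero_iff (ResidueField 𝒪) z).mp h)
    obtain ⟨l, hl⟩ := hl
    obtain ⟨f, hf⟩ := mk l
    refine ⟨f, fun h => hl ?_⟩
    have := congrArg TrivSqZeroExt.snd ((hf z).symm.trans h)
    simpa [hr] using this
  · obtain ⟨f, hf⟩ := mk 0
    refine ⟨f, fun h => hr ?_⟩
    have := congrArg TrivSqZeroExt.fst ((hf z).symm.trans h)
    simpa using this

/-- The dual numbers of the residue field are an Artinian test algebra. -/
theorem dualNumber_test :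
    letI : Algebra 𝒪 (DualNumber (ResidueField 𝒪)) :=
      ((algebraMap (ResidueField 𝒪) (DualNumber (ResidueField 𝒪))).comp
        (algebraMap 𝒪 (ResidueField 𝒪))).toAlgebra
    IsArtinianTestAlgebra 𝒪 (DualNumber (ResidueField 𝒪)) := by
  let : Algebra 𝒪 (DualNumber (ResidueField 𝒪)) :=
    ((algebraMap (ResidueField 𝒪) (DualNumber (ResidueField 𝒪))).comp
      (algebraMap 𝒪 (ResidueField 𝒪))).toAlgebra
  have : Finite (DualNumber (ResidueField 𝒪)) :=
    inferInstanceAs (Finite (ResidueField 𝒪 × ResidueField 𝒪))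
  refine ⟨⟨fun o ho => ?_⟩, fun z => ?_, inferInstance⟩
  · have h1 := ho.map (TrivSqZeroExt.fstHom (ResidueField 𝒪) (ResidueField 𝒪) (ResidueField 𝒪))
    by_contra hu
    exact h1.ne_zero ((residue_eq_zero_iff o).mpr hu)
  · obtain ⟨x, rfl⟩ := residue_surjective z
    obtain ⟨o, ho⟩ := residue_surjective (R := 𝒪) (TrivSqZeroExt.fst x)
    refine ⟨o, ?_⟩
    change residue _ (algebraMap 𝒪 (DualNumber (ResidueField 𝒪)) o) = residue _ x
    rw [← sub_eq_zero, ← map_sub, residue_eq_zero_iff, IsLocalRing.mem_maximalIdeal,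
      mem_nonunits_iff, TrivSqZeroExt.isUnit_iff_isUnit_fst, TrivSqZeroExt.fst_sub,
      isUnit_iff_ne_zero,
      not_not]
    change residue 𝒪 o - _ = 0
    rw [ho, sub_self]

variable (h𝒟 : IsDeformationCondition 𝒪 𝒟) (hfin : TangentFinite 𝒪 ρbar 𝒟)
include h𝒟 hfin

/-- The first order deformation ideals have uniformly bounded index. -/
theorem exists_card_bound : ∃ B : ℕ, ∀ J, IsDefIdeal D 𝒟 J → D.J₁ ≤ J →
    Nat.card (Coord 𝒪 ⧸ J) ≤ B := by
  let : Algebra 𝒪 (DualNumber (ResidueField 𝒪)) :=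
    ((algebraMap (ResidueField 𝒪) (DualNumber (ResidueField 𝒪))).comp
      (algebraMap 𝒪 (ResidueField 𝒪))).toAlgebra
  let : Algebra (ResidueField 𝒪) (ResidueField (DualNumber (ResidueField 𝒪))) :=
    ((residue (DualNumber (ResidueField 𝒪))).comp
      (algebraMap (ResidueField 𝒪) (DualNumber (ResidueField 𝒪)))).toAlgebra
  have htest : IsArtinianTestAlgebra 𝒪 (DualNumber (ResidueField 𝒪)) := dualNumber_test
  have := htest.isLocalHom
  have : Finite (DualNumber (ResidueField 𝒪)) := finite_of_isArtinianTestAlgebra htest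
  let S := {ρ : GaloisRepAdic (DualNumber (ResidueField 𝒪)) //
    𝒟 ρ ∧ ρ.residual.IsEquiv (ρbar.baseChange (ResidueField (DualNumber (ResidueField 𝒪))))}
  let st : Setoid S := ⟨fun ρ ρ' => ρ.1.IsEquiv ρ'.1, ⟨fun ρ => ⟨GaloisRepAdic.Equiv.refl ρ.1⟩,
    fun ⟨e⟩ => ⟨e.symm⟩, fun ⟨e⟩ ⟨e'⟩ => ⟨e.trans e'⟩⟩⟩
  have : Finite (Quotient st) := hfin
  refine ⟨Nat.card (DualNumber (ResidueField 𝒪)) ^ Nat.card (Quotient st), fun J hJ hJ1 => ?_⟩
  have := hJ.good.isLocalRing
  have := hJ.good.finite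
  have := hJ.good.test.isLocalHom
  obtain ⟨r, hc, hX, hn, hD⟩ := hJ.exists_rep
  let H := (Coord 𝒪 ⧸ J) →ₐ[𝒪] DualNumber (ResidueField 𝒪)
  -- each map to the dual numbers gives a first order deformation
  have hloc : ∀ f : H, IsLocalHom (f : (Coord 𝒪 ⧸ J) →+* DualNumber (ResidueField 𝒪)) := by
    intro f
    refine ⟨fun z hz => ?_⟩
    by_contra hu
    obtain ⟨n, hn⟩ := (isArtinianRing_iff_isNilpotent_maximalIdeal (Coord 𝒪 ⧸ J)).mp inferInstance
    have h0 : z ^ n = 0 := by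
      have := Ideal.pow_mem_pow (show z ∈ maximalIdeal (Coord 𝒪 ⧸ J) from hu) n
      rw [hn] at this
      exact this
    have := hz.pow n
    rw [← map_pow, h0, map_zero] at this
    exact not_isUnit_zero this
  have hψ : ResidueField.map (algebraMap 𝒪 (DualNumber (ResidueField 𝒪))) =
      (residue (DualNumber (ResidueField 𝒪))).comp
        (algebraMap (ResidueField 𝒪) (DualNumber (ResidueField 𝒪))) := by
    refine RingHom.ext fun x => ?_
    obtain ⟨o, rfl⟩ := residue_surjective x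
    rw [ResidueField.map_residue]; rfl
  have hmemD : ∀ f : H, 𝒟 (repOf (mapHom (f : (Coord 𝒪 ⧸ J) →+* DualNumber (ResidueField 𝒪)) r)
      (matCont_mapHom hc _ (hloc f))) := fun f => by
    have h1 := h𝒟.baseChangeAlong hJ.good.test htest f (hloc f) hD
    exact h𝒟.of_isEquiv htest
      (isEquiv_baseChange hc (f : (Coord 𝒪 ⧸ J) →+* DualNumber (ResidueField 𝒪)) (hloc f)) h1
  have hmemR : ∀ f : H,
      (repOf (mapHom (f : (Coord 𝒪 ⧸ J) →+* DualNumber (ResidueField 𝒪)) r)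
        (matCont_mapHom hc _ (hloc f))).residual.IsEquiv
      (ρbar.baseChangeAlong ((residue (DualNumber (ResidueField 𝒪))).comp
        (algebraMap (ResidueField 𝒪) (DualNumber (ResidueField 𝒪))))) := fun f => by
    have h := D.residual_isEquiv_of_isRed
      (matCont_mapHom hc (f : (Coord 𝒪 ⧸ J) →+* DualNumber (ResidueField 𝒪)) (hloc f))
      (hn.map D.N f (hloc f)).red
    rw [hψ] at h
    exact h
  let toS : H → S := fun f =>
    Subtype.mk (repOf (mapHom (f : (Coord 𝒪 ⧸ J) →+* DualNumber (ResidueField 𝒪)) r)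
      (matCont_mapHom hc _ (hloc f))) (And.intro (hmemD f) (hmemR f))
  let cls : H → Quotient st := fun f => Quotient.mk st (toS f)
  -- normalised representatives are rigid, and the maps separate points
  have hcls : Function.Injective cls := by
    intro f f' hff
    have he : (repOf _ (matCont_mapHom hc _ (hloc f))).IsEquiv
        (repOf _ (matCont_mapHom hc (f' : (Coord 𝒪 ⧸ J) →+* _) (hloc f'))) := Quotient.exact hff
    have heq := NormData.IsNormal.eq_of_isEquiv D.N (hn.map D.N f (hloc f))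
      (hn.map D.N f' (hloc f')) he
    refine Ideal.Quotient.algHom_ext 𝒪 (MvPolynomial.algHom_ext fun ⟨σ, i, j⟩ => ?_)
    change f (Ideal.Quotient.mk J (MvPolynomial.X (σ, i, j))) =
      f' (Ideal.Quotient.mk J (MvPolynomial.X (σ, i, j)))
    rw [← hX]
    exact congrFun (congrFun (DFunLike.congr_fun heq σ) i) j
  have : Finite H := Finite.of_injective cls hcls
  have hsep : Function.Injective fun (z : Coord 𝒪 ⧸ J) (f : H) => f z := by
    intro x y hxy
    by_contra hne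
    obtain ⟨f, hf⟩ := exists_hom_dualNumber_ne_zero hJ.good hJ1 (sub_ne_zero.mpr hne)
    exact hf (by rw [map_sub, sub_eq_zero]; exact congrFun hxy f)
  refine (Nat.card_le_card_of_injective _ hsep).trans ?_
  rw [Nat.card_fun]
  exact Nat.pow_le_pow_right Nat.card_pos (Nat.card_le_card_of_injective cls hcls)

/-- Finitely many elements of the residual maximal ideal generate every cotangent space. -/
theorem exists_generators (hbar : 𝒟 (GaloisRepAdic.ofResidualGaloisRep ρbar)) :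
    ∃ (d : ℕ) (t : Fin d → Coord 𝒪), (∀ j, t j ∈ D.M₀) ∧
      ∀ K, IsDefIdeal D 𝒟 K → D.M₀ ≤ Ideal.span (Set.range t) ⊔ (K ⊔ D.J₁) := by
  classical
  obtain ⟨B, hB⟩ := exists_card_bound (D := D) h𝒟 hfin
  have hne : ({n | ∃ J, IsDefIdeal D 𝒟 J ∧ D.J₁ ≤ J ∧ Nat.card (Coord 𝒪 ⧸ J) = n} :
      Set ℕ).Nonempty :=
    ⟨_, D.M₀, isDefIdeal_M₀ h𝒟 hbar, D.J₁_le, rfl⟩
  have hbdd : BddAbove ({n | ∃ J, IsDefIdeal D 𝒟 J ∧ D.J₁ ≤ J ∧
      Nat.card (Coord 𝒪 ⧸ J) = n} : Set ℕ) :=
    ⟨B, by rintro n ⟨J, hJ, h1, rfl⟩; exact hB J hJ h1⟩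
  -- a first order ideal of largest index lies in all the others
  obtain ⟨J₀, hJ₀, hJ₀1, hJ₀c⟩ := Nat.sSup_mem hne hbdd
  have := hJ₀.good.finite
  have hmin : ∀ J, IsDefIdeal D 𝒟 J → D.J₁ ≤ J → J₀ ≤ J := by
    intro J hJ h1
    have hI := hJ₀.inf h𝒟 hJ
    have := hI.good.finite
    have hle : Nat.card (Coord 𝒪 ⧸ J₀ ⊓ J) ≤ Nat.card (Coord 𝒪 ⧸ J₀) := by
      rw [hJ₀c]
      exact le_csSup hbdd ⟨_, hI, le_inf hJ₀1 h1, rfl⟩
    have hinj : Function.Injective (Ideal.Quotient.factor (inf_le_left : J₀ ⊓ J ≤ J₀)) :=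
      (Function.Surjective.bijective_of_nat_card_le (Ideal.Quotient.factor_surjective inf_le_left)
        hle).1
    intro p hp
    have : Ideal.Quotient.mk (J₀ ⊓ J) p = 0 := hinj (by
      rw [Ideal.Quotient.factor_mk, map_zero, Ideal.Quotient.eq_zero_iff_mem]; exact hp)
    exact (Ideal.Quotient.eq_zero_iff_mem.mp this).2
  -- lifts of the classes in the residual ideal generate
  let T := {z : Coord 𝒪 ⧸ J₀ // Quotient.out z ∈ D.M₀}
  have : Finite T := inferInstance
  have := Fintype.ofFinite T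
  refine ⟨Fintype.card T, fun j => Quotient.out ((Fintype.equivFin T).symm j).1,
    fun j => ((Fintype.equivFin T).symm j).2, fun K hK => ?_⟩
  have hKJ : J₀ ≤ K ⊔ D.J₁ :=
    hmin _ (hK.mono h𝒟 le_sup_left (sup_le hK.good.le D.J₁_le)) le_sup_right
  intro p hp
  have hd : Quotient.out (Ideal.Quotient.mk J₀ p) - p ∈ J₀ := by
    rw [← Ideal.Quotient.eq, Ideal.Quotient.mk_out]
  have hout : Quotient.out (Ideal.Quotient.mk J₀ p) ∈ D.M₀ := by
    have := add_mem (hJ₀.good.le hd) hp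
    rwa [sub_add_cancel] at this
  have h1 : Quotient.out (Ideal.Quotient.mk J₀ p) ∈ Ideal.span (Set.range fun j =>
      Quotient.out ((Fintype.equivFin T).symm j).1) :=
    Ideal.subset_span ⟨Fintype.equivFin T ⟨_, hout⟩, by simp⟩
  rw [show p = Quotient.out (Ideal.Quotient.mk J₀ p) - (Quotient.out
    (Ideal.Quotient.mk J₀ p) - p) by ring]
  exact sub_mem (Submodule.mem_sup_left h1) (Submodule.mem_sup_right (hKJ hd))

end DefSetup

end Fermat.GR
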