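import Fermat.Prelude.Def_CuspForm_HeckeGaloisRepDatum
import Fermat.Prelude.Def_GaloisRep_DeformationRingData
import Fermat.Agent.CFT.Density.Places
import Fermat.Agent.GR.RepBasics

/-!
# A map from a deformation ring onto a Hecke ring

If the pushforward of the universal representation is that of a Hecke datum, the traces of
Frobenius, which generate the Hecke ring, lie in the image.
-/

set_option autoImplicit false

namespace Fermat.GR

/-- A map `R → T` carrying the universal representation to the Hecke one is surjective, once the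
excluded primes contain those dividing the level. -/
theorem surjective_of_isEquiv_heckeDatum {𝒪 : Type} [CommRing 𝒪] [IsDomain 𝒪]
    [IsDiscreteValuationRing 𝒪] [IsAdicComplete (IsLocalRing.maximalIdeal 𝒪) 𝒪]
    {R : Type} [CommRing R] [IsLocalRing R] [Algebra 𝒪 R] {ρ : GaloisRepAdic R}
    {N : ℕ} [NeZero N] {S : Set ℕ}
    {θ : CuspForm.heckeAlgebra N 2 S →+* IsLocalRing.ResidueField 𝒪} {T : Type} [CommRing T]
    [IsLocalRing T] [IsNoetherianRing T] [IsAdicComplete (IsLocalRing.maximalIdeal T) T]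
    [Algebra 𝒪 T] [IsLocalHom (algebraMap 𝒪 T)] [Module.Finite 𝒪 T] [Module.Free 𝒪 T]
    (H : CuspForm.HeckeGaloisRepDatum N S 𝒪 θ T) (hS : ∀ q : ℕ, q.Prime → q ∣ N → q ∈ S)
    (φ : R →ₐ[𝒪] T) (hφ : IsLocalHom (φ : R →+* T))
    (e : (ρ.baseChangeAlong (φ : R →+* T) hφ).Equiv H.ρ) : Function.Surjective φ := by
  rw [← AlgHom.range_eq_top, eq_top_iff, ← H.adjoin_range_π, Algebra.adjoin_le_iff]
  rintro _ ⟨t, rfl⟩
  suffices h : ∀ x (hx : x ∈ CuspForm.heckeAlgebra N 2 S), H.π ⟨x, hx⟩ ∈ φ.range from h t.1 t.2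
  intro x hx
  -- it suffices to hit the Hecke generators
  refine Algebra.adjoin_induction (R := ℤ)
    (p := fun y hy => H.π (⟨y, hy⟩ : CuspForm.heckeAlgebra N 2 S) ∈ φ.range)
    ?_ ?_ ?_ ?_ hx
  · intro y hy
    rcases hy with ⟨ℓ, hℓ, hℓN, hℓS, rfl⟩ | ⟨q, hqN, hq, hqS, rfl⟩
    -- `T ℓ` is minus a coefficient of a Frobenius characteristic polynomial
    · obtain ⟨A, hA⟩ := Fermat.CFT.exists_place hℓ
      obtain ⟨σ, hσ⟩ := Fermat.CFT.exists_isFrobeniusAt hℓ hA
      have h1 := H.charpoly_frob ℓ hℓ hℓN hℓS A hA σ hσ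
      rw [charpoly_eq_of_equiv e σ, charpoly_baseChangeAlong] at h1
      have h2 := congrArg (fun p => Polynomial.coeff p 1) h1
      simp only [Polynomial.coeff_map] at h2
      refine ⟨-(LinearMap.charpoly (ρ.ρ σ)).coeff 1, ?_⟩
      change φ (-(LinearMap.charpoly (ρ.ρ σ)).coeff 1) = H.π (CuspForm.heckeAlgebra.T hℓ hℓN hℓS)
      rw [map_neg, show φ ((LinearMap.charpoly (ρ.ρ σ)).coeff 1) = _ from h2]
      simp [Polynomial.coeff_C, Polynomial.coeff_X_pow]
    · exact absurd (hS q hq hqN) hqS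
  · intro n
    rw [show (⟨algebraMap ℤ _ n, _⟩ : CuspForm.heckeAlgebra N 2 S) =
      (n : CuspForm.heckeAlgebra N 2 S) from Subtype.ext (by simp), map_intCast]
    exact intCast_mem _ n
  · intro a b ha hb iha ihb
    rw [show (⟨a + b, _⟩ : CuspForm.heckeAlgebra N 2 S) = ⟨a, ha⟩ + ⟨b, hb⟩ from rfl, map_add]
    exact add_mem iha ihb
  · intro a b ha hb iha ihb
    rw [show (⟨a * b, _⟩ : CuspForm.heckeAlgebra N 2 S) = ⟨a, ha⟩ * ⟨b, hb⟩ from rfl, map_mul]
    exact mul_mem iha ihb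

end Fermat.GR
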