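import Mathlib
import Fermat.Prelude.Def_GaloisRep_DeformationRingData
import Fermat.Prelude.Thm_IsLocalRing_isAdicComplete_of_module_finite
import Fermat.Agent.GR.Deform.AbsIrred
import Fermat.Agent.GR.Deform.Tangent

/-!
# The universal deformation ring
-/

set_option autoImplicit false
set_option linter.unusedSectionVars false

noncomputable section

namespace Fermat.GR

local notation "Γℚ" => (AlgebraicClosure ℚ ≃ₐ[ℚ] AlgebraicClosure ℚ)
local notation "M2" R => Matrix (Fin 2) (Fin 2) R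

open IsLocalRing GaloisRep

/-- An algebra map out of a power series ring sending variables into the maximal ideal is
local. -/
theorem isLocalHom_of_X {d : ℕ} {𝒪 A : Type} [CommRing 𝒪] [IsLocalRing 𝒪] [CommRing A]
    [IsLocalRing A] [Algebra 𝒪 A] [IsLocalHom (algebraMap 𝒪 A)]
    (φ : MvPowerSeries (Fin d) 𝒪 →ₐ[𝒪] A) (h : ∀ j, φ (MvPowerSeries.X j) ∈ maximalIdeal A) :
    IsLocalHom (φ : MvPowerSeries (Fin d) 𝒪 →+* A) :=
  ⟨fun f hf => by
    by_contra hu
    exact map_mem_maximalIdeal φ h (f := f)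
      (fun hc => hu (MvPowerSeries.isUnit_iff_constantCoeff.mpr hc)) hf⟩

/-- A local homomorphism maps powers of the maximal ideal into powers of the maximal ideal. -/
theorem apply_mem_maximalIdeal_pow {R S : Type} [CommRing R] [IsLocalRing R] [CommRing S]
    [IsLocalRing S] (f : R →+* S) [IsLocalHom f] {n : ℕ} {x : R} (hx : x ∈ maximalIdeal R ^ n) :
    f x ∈ maximalIdeal S ^ n :=
  Ideal.pow_right_mono (map_maximalIdeal_le f) n
    (Ideal.map_pow f (maximalIdeal R) n ▸ Ideal.mem_map_of_mem f hx)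

/-- Quotients of complete noetherian local rings are complete. -/
theorem isAdicComplete_quotient_maximalIdeal {R : Type} [CommRing R] [IsLocalRing R]
    [IsNoetherianRing R] [IsAdicComplete (maximalIdeal R) R] (I : Ideal R) [IsLocalRing (R ⧸ I)] :
    IsAdicComplete (maximalIdeal (R ⧸ I)) (R ⧸ I) := by
  have : IsLocalHom (algebraMap R (R ⧸ I)) :=
    IsLocalHom.of_surjective _ Ideal.Quotient.mk_surjective
  exact IsLocalRing.isAdicComplete_of_module_finite (𝒪 := R)

section Algebras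

variable {𝒪 A B : Type} [CommRing 𝒪] [CommRing A] [Algebra 𝒪 A] [CommRing B] [Algebra 𝒪 B]

/-- Locality of a structure map passes along local algebra maps. -/
theorem isLocalHom_algebraMap_of_comp [IsLocalHom (algebraMap 𝒪 A)] (φ : A →ₐ[𝒪] B)
    (hφ : IsLocalHom (φ : A →+* B)) : IsLocalHom (algebraMap 𝒪 B) :=
  ⟨fun o ho => (isUnit_map_iff (algebraMap 𝒪 A) o).mp
    (hφ.map_nonunit _ (show IsUnit (φ (algebraMap 𝒪 A o)) by rwa [φ.commutes]))⟩

/-- Having residue field that of the base passes along surjective algebra maps. -/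
theorem residue_surjective_of_algHom [IsLocalRing A] [IsLocalRing B] (φ : A →ₐ[𝒪] B)
    (hφ : Function.Surjective φ)
    (hA : Function.Surjective (residue A ∘ algebraMap 𝒪 A)) :
    Function.Surjective (residue B ∘ algebraMap 𝒪 B) := by
  intro z
  obtain ⟨b, rfl⟩ := residue_surjective z
  obtain ⟨a, rfl⟩ := hφ b
  obtain ⟨o, ho⟩ := hA (residue A a)
  have : IsLocalHom (φ : A →+* B) := IsLocalHom.of_surjective _ hφ
  refine ⟨o, ?_⟩
  change residue B (algebraMap 𝒪 B o) = residue B ((φ : A →+* B) a)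
  rw [← φ.commutes o, ← RingHom.coe_coe φ, ← ResidueField.map_residue (φ : A →+* B),
    ← ResidueField.map_residue (φ : A →+* B)]
  exact congrArg _ ho

/-- A quotient by a power of the maximal ideal is an artinian test algebra. -/
theorem isArtinianTestAlgebra_quotient_pow [IsLocalRing 𝒪] [Finite (ResidueField 𝒪)]
    [IsLocalRing A] [IsNoetherianRing A] [IsLocalHom (algebraMap 𝒪 A)]
    (hA : Function.Surjective (residue A ∘ algebraMap 𝒪 A)) (n : ℕ)
    [IsLocalRing (A ⧸ maximalIdeal A ^ n)] :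
    IsArtinianTestAlgebra 𝒪 (A ⧸ maximalIdeal A ^ n) :=
  have := finite_residueField_of_residue_surjective hA
  have := finite_quotient_maximalIdeal_pow A n
  ⟨isLocalHom_algebraMap_of_comp (Ideal.Quotient.mkₐ 𝒪 _)
      (IsLocalHom.of_surjective _ Ideal.Quotient.mk_surjective),
    residue_surjective_of_algHom (Ideal.Quotient.mkₐ 𝒪 _) Ideal.Quotient.mk_surjective hA,
    inferInstance⟩

/-- Evaluation of matrix coordinates commutes with algebra maps. -/
theorem evalOf_mapHom (φ : A →ₐ[𝒪] B) (r : Γℚ →* M2 A) (p : Coord 𝒪) :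
    evalOf (mapHom (φ : A →+* B) r) p = φ (evalOf r p) := by
  have : evalOf (𝒪 := 𝒪) (mapHom (φ : A →+* B) r) = φ.comp (evalOf r) :=
    MvPolynomial.algHom_ext fun ⟨σ, i, j⟩ => by
      rw [evalOf_X, AlgHom.comp_apply, evalOf_X]; rfl
  exact DFunLike.congr_fun this p

/-- A deformation condition is invariant under equivalence over complete noetherian algebras. -/
theorem defCond_of_isEquiv [IsLocalRing A] [IsNoetherianRing A]
    [IsAdicComplete (maximalIdeal A) A] [IsLocalHom (algebraMap 𝒪 A)]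
    {𝒟 : ∀ ⦃A : Type⦄ [CommRing A] [IsLocalRing A] [Algebra 𝒪 A], GaloisRepAdic A → Prop}
    (h𝒟 : IsDeformationCondition 𝒪 𝒟)
    (hA : Function.Surjective (residue A ∘ algebraMap 𝒪 A))
    {ρ ρ' : GaloisRepAdic A} (h : ρ.IsEquiv ρ') (hρ : 𝒟 ρ) : 𝒟 ρ' := by
  obtain ⟨e⟩ := h
  refine (h𝒟.iff_forall_surjective inferInstance hA ρ').mpr fun B _ _ _ hB q hq hqs => ?_
  exact h𝒟.of_isEquiv hB ⟨GaloisRepAdic.Equiv.baseChangeAlong _ hq e⟩
    ((h𝒟.iff_forall_surjective inferInstance hA ρ).mp hρ hB q hq hqs)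

end Algebras

namespace DefSetup

variable {𝒪 : Type} [CommRing 𝒪] [IsLocalRing 𝒪] [Finite (ResidueField 𝒪)] [IsNoetherianRing 𝒪]
  [IsAdicComplete (maximalIdeal 𝒪) 𝒪]
  {ρbar : ResidualGaloisRep (ResidueField 𝒪)} {D : DefSetup 𝒪 ρbar}
  {𝒟 : ∀ ⦃A : Type⦄ [CommRing A] [IsLocalRing A] [Algebra 𝒪 A], GaloisRepAdic A → Prop}

/-- A map to an artinian local ring is surjective when it is onto the residue field and, up to
`m ^ 2`, onto the maximal ideal. -/
theorem surjective_of_first_order {A B : Type} [CommRing A] [Algebra 𝒪 A] [CommRing B]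
    [IsLocalRing B] [IsArtinianRing B] [Algebra 𝒪 B] (ev : A →ₐ[𝒪] B)
    (hconst : ∀ z : B, ∃ o : 𝒪, z - algebraMap 𝒪 B o ∈ maximalIdeal B)
    (h1 : ∀ z ∈ maximalIdeal B, ∃ f, ev f ∈ maximalIdeal B ∧ z - ev f ∈ maximalIdeal B ^ 2) :
    Function.Surjective ev := by
  set m := maximalIdeal B
  -- all orders
  have h2 : ∀ n, ∀ z ∈ m ^ n, ∃ f, z - ev f ∈ m ^ (n + 1) := by
    have h2' : ∀ n, ∀ z ∈ m ^ (n + 1), ∃ f, ev f ∈ m ^ (n + 1) ∧ z - ev f ∈ m ^ (n + 2) := by
      intro n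
      induction n with
      | zero => intro z hz; rw [zero_add, pow_one] at hz ⊢; exact h1 z hz
      | succ n ih =>
        intro z hz
        rw [pow_succ] at hz
        refine Submodule.mul_induction_on hz ?_ ?_
        · intro x hx y hy
          obtain ⟨f, hf1, hf2⟩ := ih x hx
          obtain ⟨g, hg1, hg2⟩ := h1 y hy
          refine ⟨f * g, by rw [map_mul, pow_succ m (n + 1)]; exact Ideal.mul_mem_mul hf1 hg1, ?_⟩
          rw [map_mul, show x * y - ev f * ev g = (x - ev f) * y + ev f * (y - ev g) by ring]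
          refine add_mem ?_ ?_
          · rw [pow_succ m (n + 2)]; exact Ideal.mul_mem_mul hf2 hy
          · rw [show n + 1 + 2 = (n + 1) + 2 from rfl, pow_add]; exact Ideal.mul_mem_mul hf1 hg2
        · rintro x y ⟨f, hf1, hf2⟩ ⟨g, hg1, hg2⟩
          exact ⟨f + g, by rw [map_add]; exact add_mem hf1 hg1, by
            have := add_mem hf2 hg2
            rwa [show x - ev f + (y - ev g) = x + y - ev (f + g) by rw [map_add]; ring] at this⟩
    intro n
    cases n with
    | zero =>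
      intro z _
      obtain ⟨o, ho⟩ := hconst z
      exact ⟨algebraMap 𝒪 _ o, by rw [AlgHom.commutes, zero_add, pow_one]; exact ho⟩
    | succ n => intro z hz; exact (h2' n z hz).imp fun f hf => hf.2
  have h3 : ∀ n, ∀ z : B, ∃ f, z - ev f ∈ m ^ n := by
    intro n
    induction n with
    | zero => intro z; exact ⟨0, by simp⟩
    | succ n ih =>
      intro z
      obtain ⟨f, hf⟩ := ih z
      obtain ⟨g, hg⟩ := h2 n _ hf
      exact ⟨f + g, by rw [map_add, ← sub_sub]; exact hg⟩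
  intro z
  obtain ⟨N, hN⟩ := (isArtinianRing_iff_isNilpotent_maximalIdeal B).mp inferInstance
  obtain ⟨f, hf⟩ := h3 N z
  exact ⟨f, (sub_eq_zero.mp (by rw [show m ^ N = ⊥ from hN] at hf; exact hf)).symm⟩

/-- Generators of the cotangent space give surjective evaluations on finite quotients. -/
theorem surjective_of_generators {d : ℕ} {t : Fin d → Coord 𝒪} {K : Ideal (Coord 𝒪)}
    (hK : D.Good K) (hgen : D.M₀ ≤ Ideal.span (Set.range t) ⊔ (K ⊔ D.J₁)) (ht : ∀ j, t j ∈ D.M₀)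
    (ev : MvPowerSeries (Fin d) 𝒪 →ₐ[𝒪] (Coord 𝒪 ⧸ K))
    (hev : ∀ j, ev (MvPowerSeries.X j) = Ideal.Quotient.mk K (t j)) : Function.Surjective ev := by
  have := hK.isLocalRing
  have := hK.finite
  have := hK.test.isLocalHom
  set m := maximalIdeal (Coord 𝒪 ⧸ K)
  have hconst : ∀ z : Coord 𝒪 ⧸ K, ∃ o : 𝒪, z - algebraMap 𝒪 _ o ∈ m := fun z => by
    obtain ⟨o, ho⟩ := hK.test.residue_surjective (residue _ z)
    exact ⟨o, by rw [← residue_eq_zero_iff, map_sub, sub_eq_zero]; exact ho.symm⟩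
  -- first order
  have h1 : ∀ z ∈ m, ∃ f, ev f ∈ m ∧ z - ev f ∈ m ^ 2 := by
    intro z hz
    obtain ⟨p, rfl⟩ := Ideal.Quotient.mk_surjective z
    obtain ⟨a, ha, b, hb, rfl⟩ := Submodule.mem_sup.mp (hgen ((hK.mem_maximalIdeal_iff p).mp hz))
    obtain ⟨k, hk, j, hj, rfl⟩ := Submodule.mem_sup.mp hb
    obtain ⟨u, hu, v, hv, rfl⟩ := Submodule.mem_sup.mp hj
    have hk0 : Ideal.Quotient.mk K k = 0 := Ideal.Quotient.eq_zero_iff_mem.mpr hk
    have hmap : D.M₀.map (Ideal.Quotient.mk K) ≤ m :=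
      Ideal.map_le_iff_le_comap.mpr fun q hq => (hK.mem_maximalIdeal_iff q).mpr hq
    have hu2 : Ideal.Quotient.mk K u ∈ m ^ 2 :=
      Ideal.pow_right_mono hmap 2
        (Ideal.map_pow (Ideal.Quotient.mk K) D.M₀ 2 ▸ Ideal.mem_map_of_mem _ hu)
    -- the part coming from `span t` and from the maximal ideal of `𝒪`
    have haux : ∀ q : Coord 𝒪, q ∈ Ideal.span (Set.range t) ⊔
        (maximalIdeal 𝒪).map (algebraMap 𝒪 (Coord 𝒪)) →
        ∃ f, ev f ∈ m ∧ Ideal.Quotient.mk K q - ev f ∈ m ^ 2 := by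
      intro q hq
      rw [Ideal.map, ← Ideal.span_union] at hq
      induction hq using Submodule.span_induction with
      | mem x hx =>
        rcases hx with ⟨j, rfl⟩ | ⟨o, ho, rfl⟩
        · refine ⟨MvPowerSeries.X j, ?_, by simp [hev]⟩
          rw [hev]; exact (hK.mem_maximalIdeal_iff _).mpr (ht j)
        · refine ⟨algebraMap 𝒪 _ o, ?_, ?_⟩
          · rw [AlgHom.commutes]; exact map_nonunit (algebraMap 𝒪 (Coord 𝒪 ⧸ K)) _ ho
          · rw [AlgHom.commutes, IsScalarTower.algebraMap_apply 𝒪 (Coord 𝒪) (Coord 𝒪 ⧸ K),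
              Ideal.Quotient.algebraMap_eq, sub_self]
            exact zero_mem _
      | zero => exact ⟨0, by simp, by simp⟩
      | add x y _ _ hx hy =>
        obtain ⟨f, hf1, hf2⟩ := hx
        obtain ⟨g, hg1, hg2⟩ := hy
        exact ⟨f + g, by rw [map_add]; exact add_mem hf1 hg1, by
          have := add_mem hf2 hg2
          rwa [show Ideal.Quotient.mk K x - ev f + (Ideal.Quotient.mk K y - ev g) =
            Ideal.Quotient.mk K (x + y) - ev (f + g) by rw [map_add, map_add]; ring] at this⟩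
      | smul c x _ hx =>
        obtain ⟨f, hf1, hf2⟩ := hx
        obtain ⟨o, ho⟩ := hconst (Ideal.Quotient.mk K c)
        refine ⟨algebraMap 𝒪 _ o * f, by rw [map_mul]; exact Ideal.mul_mem_left _ _ hf1, ?_⟩
        rw [smul_eq_mul, map_mul, map_mul, AlgHom.commutes]
        have e1 := Ideal.mul_mem_left (m ^ 2) (Ideal.Quotient.mk K c) hf2
        have e2 : (Ideal.Quotient.mk K c - algebraMap 𝒪 _ o) * ev f ∈ m ^ 2 := by
          rw [pow_two]; exact Ideal.mul_mem_mul ho hf1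
        have := add_mem e1 e2
        rwa [show Ideal.Quotient.mk K c * (Ideal.Quotient.mk K x - ev f) +
          (Ideal.Quotient.mk K c - algebraMap 𝒪 _ o) * ev f =
          Ideal.Quotient.mk K c * Ideal.Quotient.mk K x - algebraMap 𝒪 _ o * ev f by ring] at this
    obtain ⟨f, hf1, hf2⟩ :=
      haux (a + v) (add_mem (Submodule.mem_sup_left ha) (Submodule.mem_sup_right hv))
    refine ⟨f, hf1, ?_⟩
    have := add_mem hf2 hu2
    rwa [show Ideal.Quotient.mk K (a + v) - ev f + Ideal.Quotient.mk K u =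
      Ideal.Quotient.mk K (a + (k + (u + v))) - ev f by simp only [map_add, hk0]; ring] at this
  exact surjective_of_first_order ev hconst h1

/-- The deformation ideals of the coordinate ring. -/
abbrev DefIdeal (D : DefSetup 𝒪 ρbar)
    (𝒟 : ∀ ⦃A : Type⦄ [CommRing A] [IsLocalRing A] [Algebra 𝒪 A], GaloisRepAdic A → Prop) :
    Type := {K : Ideal (Coord 𝒪) // IsDefIdeal D 𝒟 K}

/-- The quotient by a deformation ideal is local. -/
instance isLocalRing_defIdeal (K : D.DefIdeal 𝒟) : IsLocalRing (Coord 𝒪 ⧸ K.1) :=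
  K.2.good.isLocalRing

/-- The quotient by a deformation ideal is finite. -/
instance finite_defIdeal (K : D.DefIdeal 𝒟) : Finite (Coord 𝒪 ⧸ K.1) := K.2.good.finite

/-- The quotient by a deformation ideal is noetherian. -/
instance isNoetherianRing_defIdeal (K : D.DefIdeal 𝒟) : IsNoetherianRing (Coord 𝒪 ⧸ K.1) :=
  inferInstance

/-- The quotient by a deformation ideal is artinian. -/
instance isArtinianRing_defIdeal (K : D.DefIdeal 𝒟) : IsArtinianRing (Coord 𝒪 ⧸ K.1) :=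
  inferInstance

/-- The quotient by a deformation ideal is complete. -/
instance isAdicComplete_defIdeal (K : D.DefIdeal 𝒟) :
    IsAdicComplete (maximalIdeal (Coord 𝒪 ⧸ K.1)) (Coord 𝒪 ⧸ K.1) :=
  inferInstance

/-- Elements of `M₀` generating the cotangent space of every deformation ideal. -/
structure Gens (D : DefSetup 𝒪 ρbar)
    (𝒟 : ∀ ⦃A : Type⦄ [CommRing A] [IsLocalRing A] [Algebra 𝒪 A], GaloisRepAdic A → Prop)
    (d : ℕ) : Type where
  /-- The `d` generators. -/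
  t : Fin d → Coord 𝒪
  /-- The generators vanish at the residual point. -/
  mem : ∀ j, t j ∈ D.M₀
  /-- With `J₁` they generate `M₀` modulo every deformation ideal. -/
  le_span : ∀ K, IsDefIdeal D 𝒟 K → D.M₀ ≤ Ideal.span (Set.range t) ⊔ (K ⊔ D.J₁)

namespace Gens

variable {d : ℕ} (G : D.Gens 𝒟 d)

local notation "Λ" => MvPowerSeries (Fin d) 𝒪

/-- The generators lie in the maximal ideal modulo each deformation ideal. -/
theorem mk_mem (K : D.DefIdeal 𝒟) (j : Fin d) :
    Ideal.Quotient.mk K.1 (G.t j) ∈ maximalIdeal (Coord 𝒪 ⧸ K.1) :=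
  (K.2.good.mem_maximalIdeal_iff _).mpr (G.mem j)

/-- Evaluation of power series at the generators, modulo a deformation ideal. -/
def ev (K : D.DefIdeal 𝒟) : Λ →ₐ[𝒪] Coord 𝒪 ⧸ K.1 :=
  (exists_evalHom _ (G.mk_mem K)).choose

/-- The variables evaluate to the generators. -/
theorem ev_X (K : D.DefIdeal 𝒟) (j : Fin d) :
    G.ev K (MvPowerSeries.X j) = Ideal.Quotient.mk K.1 (G.t j) :=
  (exists_evalHom _ (G.mk_mem K)).choose_spec j

/-- Evaluation modulo a deformation ideal is surjective. -/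
theorem ev_surjective (K : D.DefIdeal 𝒟) : Function.Surjective (G.ev K) :=
  surjective_of_generators K.2.good (G.le_span K.1 K.2) G.mem (G.ev K) (G.ev_X K)

/-- Evaluation modulo a deformation ideal is local. -/
theorem isLocalHom_ev (K : D.DefIdeal 𝒟) : IsLocalHom (G.ev K : Λ →+* Coord 𝒪 ⧸ K.1) :=
  have := K.2.good.test.isLocalHom
  isLocalHom_of_X _ fun j => by rw [G.ev_X]; exact G.mk_mem K j

/-- The evaluations are compatible. -/
theorem factor_ev {K' K : D.DefIdeal 𝒟} (hle : K'.1 ≤ K.1) (f : Λ) :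
    Ideal.Quotient.factor hle (G.ev K' f) = G.ev K f := by
  have : (Ideal.Quotient.factorₐ 𝒪 hle).comp (G.ev K') = G.ev K := by
    refine algHom_ext_X (fun j => ?_) (fun j => ?_)
    · change Ideal.Quotient.factor hle (G.ev K' (MvPowerSeries.X j)) = _
      rw [ev_X, ev_X, Ideal.Quotient.factor_mk]
    · change Ideal.Quotient.factor hle (G.ev K' (MvPowerSeries.X j)) ∈ _
      rw [ev_X, Ideal.Quotient.factor_mk]
      exact G.mk_mem K j
  exact DFunLike.congr_fun this f

/-- The kernels of the evaluations are monotone. -/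
theorem ker_ev_mono {K' K : D.DefIdeal 𝒟} (hle : K'.1 ≤ K.1) :
    RingHom.ker (G.ev K') ≤ RingHom.ker (G.ev K) := fun f hf => by
  change G.ev K f = 0
  rw [← G.factor_ev hle f, RingHom.mem_ker.mp hf, map_zero]

/-- The kernels of the evaluations are open. -/
theorem exists_pow_le_ker_ev (K : D.DefIdeal 𝒟) :
    ∃ n, maximalIdeal Λ ^ n ≤ RingHom.ker (G.ev K) := by
  obtain ⟨n, hn⟩ :=
    (isArtinianRing_iff_isNilpotent_maximalIdeal (Coord 𝒪 ⧸ K.1)).mp inferInstance
  have := G.isLocalHom_ev K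
  refine ⟨n, fun f hf => ?_⟩
  have h := apply_mem_maximalIdeal_pow (G.ev K : Λ →+* Coord 𝒪 ⧸ K.1) hf
  rw [hn] at h
  exact h

/-- The kernels of the evaluations form a downward directed family. -/
theorem directed_ker_ev (h𝒟 : IsDeformationCondition 𝒪 𝒟) :
    ∀ I ∈ Set.range (fun K => RingHom.ker (G.ev K)),
      ∀ J ∈ Set.range (fun K => RingHom.ker (G.ev K)),
      ∃ L ∈ Set.range (fun K => RingHom.ker (G.ev K)), L ≤ I ∧ L ≤ J := by
  rintro _ ⟨K, rfl⟩ _ ⟨K', rfl⟩
  exact ⟨_, ⟨⟨_, K.2.inf h𝒟 K'.2⟩, rfl⟩, G.ker_ev_mono inf_le_left, G.ker_ev_mono inf_le_right⟩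

/-- The ideal cutting the universal deformation ring out of the power series ring. -/
def univIdeal : Ideal Λ := ⨅ K : D.DefIdeal 𝒟, RingHom.ker (G.ev K)

/-- The defining ideal is contained in every kernel. -/
theorem univIdeal_le (K : D.DefIdeal 𝒟) : G.univIdeal ≤ RingHom.ker (G.ev K) := iInf_le _ K

/-- Some kernel is contained in the defining ideal up to a given power of the maximal ideal. -/
theorem exists_ker_ev_le [Finite (ResidueField Λ)] (h𝒟 : IsDeformationCondition 𝒪 𝒟)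
    [Nonempty (D.DefIdeal 𝒟)] (n : ℕ) :
    ∃ K, RingHom.ker (G.ev K) ≤ G.univIdeal ⊔ maximalIdeal Λ ^ n := by
  obtain ⟨_, ⟨K, rfl⟩, hx⟩ := exists_compatible_lift _ (Set.range_nonempty _) (G.directed_ker_ev h𝒟)
    (by rintro _ ⟨K, rfl⟩; exact G.exists_pow_le_ker_ev K) (fun _ => 0)
    (fun J _ J' _ _ => by simp) n
  refine ⟨K, fun f hf => ?_⟩
  obtain ⟨x, hx1, hx2⟩ := hx f (by simpa using hf)
  rw [show f = x - (x - f) by ring]
  refine sub_mem (Submodule.mem_sup_left ?_) (Submodule.mem_sup_right hx1)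
  rw [univIdeal, Submodule.mem_iInf]
  exact fun K' => by simpa using hx2 _ ⟨K', rfl⟩

/-- Preimages of a coordinate under all evaluations can be chosen simultaneously. -/
theorem exists_ev_eq [Finite (ResidueField Λ)] (h𝒟 : IsDeformationCondition 𝒪 𝒟)
    [Nonempty (D.DefIdeal 𝒟)] (p : Coord 𝒪) :
    ∃ u, ∀ K, G.ev K u = Ideal.Quotient.mk K.1 p := by
  choose pre hpre using fun K => G.ev_surjective K (Ideal.Quotient.mk K.1 p)
  have hcompat : ∀ K K', RingHom.ker (G.ev K') ≤ RingHom.ker (G.ev K) →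
      pre K' - pre K ∈ RingHom.ker (G.ev K) := by
    intro K K' hle
    let L : D.DefIdeal 𝒟 := ⟨_, K'.2.inf h𝒟 K.2⟩
    have h1 : pre K' - pre L ∈ RingHom.ker (G.ev K') := by
      rw [RingHom.mem_ker, map_sub, ← G.factor_ev (K' := L) (K := K') inf_le_left (pre L), hpre,
        hpre, Ideal.Quotient.factor_mk, sub_self]
    have h2 : pre L - pre K ∈ RingHom.ker (G.ev K) := by
      rw [RingHom.mem_ker, map_sub, ← G.factor_ev (K' := L) (K := K) inf_le_right (pre L), hpre,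
        hpre, Ideal.Quotient.factor_mk, sub_self]
    simpa using add_mem (hle h1) h2
  classical
  let a : Ideal Λ → Λ := fun J => if h : ∃ K, RingHom.ker (G.ev K) = J then pre h.choose else 0
  have ha : ∀ K, a (RingHom.ker (G.ev K)) - pre K ∈ RingHom.ker (G.ev K) := by
    intro K
    have h : ∃ K', RingHom.ker (G.ev K') = RingHom.ker (G.ev K) := ⟨K, rfl⟩
    simp only [a, dif_pos h]
    exact hcompat K _ h.choose_spec.le
  obtain ⟨_, ⟨K₁, rfl⟩, hx⟩ := exists_compatible_lift _ (Set.range_nonempty _)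
    (G.directed_ker_ev h𝒟) (by rintro _ ⟨K, rfl⟩; exact G.exists_pow_le_ker_ev K) a (by
      rintro _ ⟨K, rfl⟩ _ ⟨K', rfl⟩ hle
      have := sub_mem (add_mem (hle (ha K')) (hcompat K K' hle)) (ha K)
      rwa [sub_add_sub_cancel, sub_sub_sub_cancel_right] at this) 0
  obtain ⟨u, -, hu⟩ := hx (a _) (by rw [sub_self]; exact zero_mem _)
  refine ⟨u, fun K => ?_⟩
  have h : G.ev K (u - pre K) = 0 := by
    have := add_mem (hu _ ⟨K, rfl⟩) (ha K)
    rw [sub_add_sub_cancel] at this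
    exact this
  rwa [map_sub, sub_eq_zero, hpre] at h

/-- The projection from the universal deformation ring to a deformation ideal's quotient. -/
def proj (K : D.DefIdeal 𝒟) : (Λ ⧸ G.univIdeal) →ₐ[𝒪] Coord 𝒪 ⧸ K.1 :=
  Ideal.Quotient.liftₐ G.univIdeal (G.ev K) fun _ hf => G.univIdeal_le K hf

/-- The projection of a class is the evaluation of a representative. -/
theorem proj_mk (K : D.DefIdeal 𝒟) (f : Λ) :
    G.proj K (Ideal.Quotient.mk G.univIdeal f) = G.ev K f := rfl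

/-- The projections separate points. -/
theorem proj_ext {x y : Λ ⧸ G.univIdeal} (h : ∀ K, G.proj K x = G.proj K y) : x = y := by
  obtain ⟨f, rfl⟩ := Ideal.Quotient.mk_surjective x
  obtain ⟨g, rfl⟩ := Ideal.Quotient.mk_surjective y
  rw [Ideal.Quotient.eq, univIdeal, Submodule.mem_iInf]
  intro K
  rw [RingHom.mem_ker, map_sub, sub_eq_zero]
  exact h K

/-- A universal representation: it projects to the generic one modulo every deformation ideal. -/
def IsUniv (r : Γℚ →* M2 (Λ ⧸ G.univIdeal)) : Prop :=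
  ∀ K σ i j, G.proj K (r σ i j) = Ideal.Quotient.mk K.1 (MvPolynomial.X (σ, i, j))

/-- A universal representation exists. -/
theorem exists_isUniv [Finite (ResidueField Λ)] (h𝒟 : IsDeformationCondition 𝒪 𝒟)
    [Nonempty (D.DefIdeal 𝒟)] : ∃ r, G.IsUniv r := by
  choose u hu using G.exists_ev_eq h𝒟
  choose rK _ hXK _ _ using fun K : D.DefIdeal 𝒟 => K.2.exists_rep
  refine ⟨{
    toFun := fun σ => Matrix.of fun i j =>
      Ideal.Quotient.mk G.univIdeal (u (MvPolynomial.X (σ, i, j)))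
    map_one' := ?_
    map_mul' := fun σ τ => ?_ }, fun K σ i j => hu _ K⟩
  · ext i j
    refine G.proj_ext fun K => ?_
    change G.ev K (u (MvPolynomial.X ((1 : Γℚ), i, j))) = _
    rw [hu, ← hXK K, map_one, Matrix.one_apply, Matrix.one_apply]
    split_ifs <;> simp
  · ext i j
    refine G.proj_ext fun K => ?_
    change G.ev K (u (MvPolynomial.X (σ * τ, i, j))) = _
    rw [hu, ← hXK K, map_mul, Matrix.mul_apply, Matrix.mul_apply, map_sum]
    refine Finset.sum_congr rfl fun l _ => ?_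
    rw [map_mul, hXK, hXK, ← hu, ← hu]
    rfl

variable {G} {r : Γℚ →* M2 (MvPowerSeries (Fin d) 𝒪 ⧸ G.univIdeal)}

/-- A universal representation projects to the representation attached to each ideal. -/
theorem IsUniv.mapHom_proj (hr : G.IsUniv r) (K : D.DefIdeal 𝒟) {rK : Γℚ →* M2 (Coord 𝒪 ⧸ K.1)}
    (hX : ∀ σ i j, rK σ i j = Ideal.Quotient.mk K.1 (MvPolynomial.X (σ, i, j))) :
    mapHom (G.proj K : (Λ ⧸ G.univIdeal) →+* Coord 𝒪 ⧸ K.1) r = rK :=
  MonoidHom.ext fun σ => Matrix.ext fun i j => (hr K σ i j).trans (hX σ i j).symm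

/-- The variables are coordinates of a universal representation. -/
theorem IsUniv.mk_X (hr : G.IsUniv r) (j : Fin d) :
    Ideal.Quotient.mk G.univIdeal (MvPowerSeries.X j) = evalOf (𝒪 := 𝒪) r (G.t j) := by
  refine G.proj_ext fun K => ?_
  have : (G.proj K).comp (evalOf (𝒪 := 𝒪) r) = Ideal.Quotient.mkₐ 𝒪 K.1 :=
    MvPolynomial.algHom_ext fun ⟨σ, i, j⟩ => by
      rw [AlgHom.comp_apply, evalOf_X]
      exact hr K σ i j
  rw [proj_mk, ev_X]
  exact (DFunLike.congr_fun this (G.t j)).symm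

section Quotient

variable [IsLocalRing (MvPowerSeries (Fin d) 𝒪 ⧸ G.univIdeal)]

/-- A universal representation is normalised. -/
theorem IsUniv.isNormal (hr : G.IsUniv r) [hne : Nonempty (D.DefIdeal 𝒟)] : D.N.IsNormal r := by
  refine ⟨fun σ i j => ?_, ?_, ?_, ?_⟩
  · obtain ⟨K⟩ := hne
    obtain ⟨rK, -, hX, hn, -⟩ := K.2.exists_rep
    intro hun
    have h1 := hun.map (G.proj K : (Λ ⧸ G.univIdeal) →+* Coord 𝒪 ⧸ K.1)
    refine hn.red σ i j ?_
    rw [map_sub] at h1
    rw [← hr.mapHom_proj K hX, mapHom_apply]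
    simpa using h1
  all_goals refine G.proj_ext fun K => ?_
  all_goals obtain ⟨rK, -, hX, hn, -⟩ := K.2.exists_rep
  · rw [map_zero, ← D.N.elt_mapHom, hr.mapHom_proj K hX, hn.elt_01]
  · rw [map_zero, ← D.N.elt_mapHom, hr.mapHom_proj K hX, hn.elt_10]
  · rw [map_one, ← hn.g₀_10, ← hr.mapHom_proj K hX]
    rfl

/-- A universal representation is continuous. -/
theorem IsUniv.matCont (hr : G.IsUniv r) [Finite (ResidueField Λ)]
    (h𝒟 : IsDeformationCondition 𝒪 𝒟) [Nonempty (D.DefIdeal 𝒟)] : MatCont r := by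
  intro n
  obtain ⟨K, hK⟩ := G.exists_ker_ev_le h𝒟 n
  obtain ⟨rK, hcK, hX, -, -⟩ := K.2.exists_rep
  obtain ⟨N, hN⟩ :=
    (isArtinianRing_iff_isNilpotent_maximalIdeal (Coord 𝒪 ⧸ K.1)).mp inferInstance
  obtain ⟨L, hL, hl⟩ := hcK N
  refine ⟨L, hL, fun σ hσ i j => ?_⟩
  have h := hl σ hσ i j
  rw [hN] at h
  obtain ⟨f, hf⟩ := Ideal.Quotient.mk_surjective ((r σ - 1) i j)
  rw [← hf]
  have hfK : f ∈ RingHom.ker (G.ev K) := by
    rw [RingHom.mem_ker, ← G.proj_mk K f, hf, ← (Submodule.mem_bot _).mp h, ← hr.mapHom_proj K hX,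
      Matrix.sub_apply, Matrix.sub_apply, map_sub, mapHom_apply, Matrix.one_apply,
      Matrix.one_apply]
    split_ifs <;> simp
  obtain ⟨x, hx, y, hy, hxy⟩ := Submodule.mem_sup.mp (hK hfK)
  rw [← hxy, map_add, Ideal.Quotient.eq_zero_iff_mem.mpr hx, zero_add]
  have : IsLocalHom (Ideal.Quotient.mk G.univIdeal) :=
    IsLocalHom.of_surjective _ Ideal.Quotient.mk_surjective
  exact apply_mem_maximalIdeal_pow _ hy

variable [IsNoetherianRing (MvPowerSeries (Fin d) 𝒪 ⧸ G.univIdeal)]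
  [IsAdicComplete (maximalIdeal (MvPowerSeries (Fin d) 𝒪 ⧸ G.univIdeal))
    (MvPowerSeries (Fin d) 𝒪 ⧸ G.univIdeal)]

/-- A universal representation is of the given type. -/
theorem IsUniv.isOfType (hr : G.IsUniv r) [Finite (ResidueField Λ)]
    (h𝒟 : IsDeformationCondition 𝒪 𝒟) [Nonempty (D.DefIdeal 𝒟)] (hcr : MatCont r)
    (hloc : IsLocalHom (algebraMap 𝒪 (Λ ⧸ G.univIdeal)))
    (hres : Function.Surjective (residue (Λ ⧸ G.univIdeal) ∘ algebraMap 𝒪 (Λ ⧸ G.univIdeal))) :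
    𝒟 (repOf r hcr) := by
  rw [h𝒟.iff_forall_surjective hloc hres]
  intro B _ _ _ hB q hq hqs
  have := hB.isArtinian
  -- test on an Artinian quotient `B`, with `𝔪 ^ N = 0`
  obtain ⟨N, hN⟩ := (isArtinianRing_iff_isNilpotent_maximalIdeal B).mp hB.isArtinian
  obtain ⟨K, hK⟩ := G.exists_ker_ev_le h𝒟 N
  let qm : Λ →ₐ[𝒪] B := q.comp (Ideal.Quotient.mkₐ 𝒪 G.univIdeal)
  have : IsLocalHom (qm : Λ →+* B) := ⟨fun g hg =>
    (IsLocalHom.of_surjective _ Ideal.Quotient.mk_surjective).map_nonunit g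
      (hq.map_nonunit _ hg)⟩
  -- so `q` factors through some level `K` of the inverse system
  have hker : RingHom.ker (G.ev K) ≤ RingHom.ker qm := by
    intro f hf
    obtain ⟨x, hx, y, hy, hxy⟩ := Submodule.mem_sup.mp (hK hf)
    have h := apply_mem_maximalIdeal_pow (qm : Λ →+* B) hy
    rw [hN] at h
    change q (Ideal.Quotient.mk G.univIdeal f) = 0
    rw [← hxy, map_add, map_add, Ideal.Quotient.eq_zero_iff_mem.mpr hx, map_zero, zero_add]
    exact h
  let h : (Coord 𝒪 ⧸ K.1) →ₐ[𝒪] B := AlgHom.liftOfSurjective (G.ev K) (G.ev_surjective K) qm hker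
  have hcomp : ∀ x, h (G.proj K x) = q x := by
    intro x
    obtain ⟨f, rfl⟩ := Ideal.Quotient.mk_surjective x
    exact AlgHom.liftOfSurjective_apply _ _ _ _ f
  have hhloc : IsLocalHom (h : (Coord 𝒪 ⧸ K.1) →+* B) := IsLocalHom.of_surjective _ fun b => by
    obtain ⟨x, rfl⟩ := hqs b
    exact ⟨G.proj K x, hcomp x⟩
  -- compare with the representative of the deformation at level `K`
  obtain ⟨rK, hcK, hX, -, hDK⟩ := K.2.exists_rep
  have heq : mapHom (h : (Coord 𝒪 ⧸ K.1) →+* B) rK = mapHom (q : (Λ ⧸ G.univIdeal) →+* B) r := by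
    rw [← hr.mapHom_proj K hX]
    exact MonoidHom.ext fun σ => Matrix.ext fun i j => by
      rw [mapHom_apply, mapHom_apply, mapHom_apply]
      exact hcomp (r σ i j)
  obtain ⟨e1⟩ := isEquiv_baseChange hcK (h : (Coord 𝒪 ⧸ K.1) →+* B) hhloc
  obtain ⟨e2⟩ := isEquiv_of_eq (matCont_mapHom hcK (h : (Coord 𝒪 ⧸ K.1) →+* B) hhloc)
    (matCont_mapHom hcr (q : (Λ ⧸ G.univIdeal) →+* B) hq) heq
  obtain ⟨e3⟩ := isEquiv_baseChange hcr (q : (Λ ⧸ G.univIdeal) →+* B) hq
  exact h𝒟.of_isEquiv hB ⟨(e1.trans e2).trans e3.symm⟩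
    (h𝒟.baseChangeAlong K.2.good.test hB h hhloc hDK)

end Quotient

variable {A : Type} [CommRing A] [IsLocalRing A] [Algebra 𝒪 A] [IsNoetherianRing A]
  [IsAdicComplete (maximalIdeal A) A] [IsLocalHom (algebraMap 𝒪 A)]
  {rA : Γℚ →* M2 A} {hcA : MatCont rA}

variable (G) in
/-- Modulo each power of the maximal ideal, the evaluation at the coordinates of a normalised
deformation factors through a deformation ideal. -/
theorem exists_factor_pow (h𝒟 : IsDeformationCondition 𝒪 𝒟)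
    (hAres : Function.Surjective (residue A ∘ algebraMap 𝒪 A)) (hnA : D.N.IsNormal rA)
    (hD : 𝒟 (repOf rA hcA)) {φ0 : Λ →ₐ[𝒪] A}
    (hφ0 : ∀ j, φ0 (MvPowerSeries.X j) = evalOf rA (G.t j)) {n : ℕ} (hn : 0 < n) :
    ∃ (K : D.DefIdeal 𝒟) (ι : (Coord 𝒪 ⧸ K.1) →ₐ[𝒪] (A ⧸ maximalIdeal A ^ n)),
      (∀ p, ι (Ideal.Quotient.mk K.1 p) = Ideal.Quotient.mk _ (evalOf rA p)) ∧
      ∀ f, ι (G.ev K f) = Ideal.Quotient.mk _ (φ0 f) := by
  have : Nontrivial (A ⧸ maximalIdeal A ^ n) := Ideal.Quotient.nontrivial_iff.mpr fun htop =>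
    (maximalIdeal.isMaximal A).ne_top (top_le_iff.mp (htop ▸ Ideal.pow_le_self hn.ne'))
  have : IsLocalRing (A ⧸ maximalIdeal A ^ n) :=
    IsLocalRing.of_surjective' (Ideal.Quotient.mk _) Ideal.Quotient.mk_surjective
  let q := Ideal.Quotient.mkₐ 𝒪 (maximalIdeal A ^ n)
  have hq : IsLocalHom (q : A →+* (A ⧸ maximalIdeal A ^ n)) :=
    IsLocalHom.of_surjective _ Ideal.Quotient.mk_surjective
  have hB := isArtinianTestAlgebra_quotient_pow hAres n
  have hDq := h𝒟.of_isEquiv hB (isEquiv_baseChange hcA _ hq)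
    ((h𝒟.iff_forall_surjective inferInstance hAres _).mp hD hB q hq Ideal.Quotient.mk_surjective)
  let K : D.DefIdeal 𝒟 := ⟨_, isDefIdeal_ker h𝒟 hB (hnA.map D.N q hq) hDq⟩
  let ι : (Coord 𝒪 ⧸ K.1) →ₐ[𝒪] (A ⧸ maximalIdeal A ^ n) :=
    Ideal.Quotient.liftₐ K.1 (evalOf _) fun p hp => hp
  have hι : ∀ p, ι (Ideal.Quotient.mk K.1 p) = Ideal.Quotient.mk _ (evalOf rA p) :=
    fun p => evalOf_mapHom q rA p
  refine ⟨K, ι, hι, ?_⟩
  have : ι.comp (G.ev K) = q.comp φ0 := by
    have : IsArtinianRing (A ⧸ maximalIdeal A ^ n) := hB.isArtinian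
    refine algHom_ext_X (fun j => ?_) (fun j => ?_)
    · change ι (G.ev K (MvPowerSeries.X j)) = Ideal.Quotient.mk _ (φ0 (MvPowerSeries.X j))
      rw [ev_X, hι, hφ0]
    · change ι (G.ev K (MvPowerSeries.X j)) ∈ _
      rw [ev_X, hι]
      exact fun hu => D.evalOf_mem_maximalIdeal hnA.red (G.mem j) (hq.map_nonunit _ hu)
  exact fun f => DFunLike.congr_fun this f

/-- Every normalised deformation is the image of a universal representation under a local map. -/
theorem IsUniv.exists_mapHom_eq (hr : G.IsUniv r) (h𝒟 : IsDeformationCondition 𝒪 𝒟)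
    (hAres : Function.Surjective (residue A ∘ algebraMap 𝒪 A)) (hnA : D.N.IsNormal rA)
    (hD : 𝒟 (repOf rA hcA)) :
    ∃ φ : (Λ ⧸ G.univIdeal) →ₐ[𝒪] A, IsLocalHom (φ : (Λ ⧸ G.univIdeal) →+* A) ∧
      mapHom (φ : (Λ ⧸ G.univIdeal) →+* A) r = rA := by
  have htA : ∀ j, evalOf (𝒪 := 𝒪) rA (G.t j) ∈ maximalIdeal A := fun j =>
    D.evalOf_mem_maximalIdeal hnA.red (G.mem j)
  obtain ⟨φ0, hφ0⟩ := exists_evalHom (𝒪 := 𝒪) (fun j => evalOf rA (G.t j)) htA
  have hφ0loc : IsLocalHom (φ0 : Λ →+* A) :=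
    isLocalHom_of_X φ0 fun j => by rw [hφ0]; exact htA j
  have hkill : ∀ f ∈ G.univIdeal, φ0 f = 0 := by
    intro f hf
    refine IsHausdorff.haus (I := maximalIdeal A) inferInstance _ fun n => ?_
    rw [SModEq.zero, smul_eq_mul, Ideal.mul_top]
    rcases Nat.eq_zero_or_pos n with rfl | hn
    · simp
    obtain ⟨K, ι, -, h⟩ := G.exists_factor_pow h𝒟 hAres hnA hD hφ0 hn
    rw [← Ideal.Quotient.eq_zero_iff_mem, ← h, RingHom.mem_ker.mp (G.univIdeal_le K hf), map_zero]
  refine ⟨Ideal.Quotient.liftₐ G.univIdeal φ0 hkill, ⟨fun x hx => ?_⟩, ?_⟩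
  · obtain ⟨f, rfl⟩ := Ideal.Quotient.mk_surjective x
    exact (hφ0loc.map_nonunit f hx).map _
  · refine MonoidHom.ext fun σ => Matrix.ext fun i j => ?_
    obtain ⟨f, hf⟩ := Ideal.Quotient.mk_surjective (r σ i j)
    change Ideal.Quotient.liftₐ G.univIdeal φ0 hkill (r σ i j) = rA σ i j
    rw [← hf]
    change φ0 f = rA σ i j
    refine IsHausdorff.eq_iff_smodEq (I := maximalIdeal A).mpr fun n => ?_
    rw [SModEq.sub_mem, smul_eq_mul, Ideal.mul_top]
    rcases Nat.eq_zero_or_pos n with rfl | hn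
    · simp
    obtain ⟨K, ι, hι, h⟩ := G.exists_factor_pow h𝒟 hAres hnA hD hφ0 hn
    rw [← Ideal.Quotient.eq, ← h, ← G.proj_mk K f, hf, hr K σ i j, hι, evalOf_X]

/-- A map out of the universal ring is determined by the image of a universal representation. -/
theorem IsUniv.algHom_ext (hr : G.IsUniv r) (hA : D.N.IsRed rA)
    {φ ψ : (Λ ⧸ G.univIdeal) →ₐ[𝒪] A} (hφ : mapHom (φ : (Λ ⧸ G.univIdeal) →+* A) r = rA)
    (hψ : mapHom (ψ : (Λ ⧸ G.univIdeal) →+* A) r = rA) : φ = ψ := by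
  refine Ideal.Quotient.algHom_ext 𝒪 (algHom_ext_X (fun j => ?_) (fun j => ?_))
  · change φ (Ideal.Quotient.mk G.univIdeal _) = ψ (Ideal.Quotient.mk G.univIdeal _)
    rw [hr.mk_X, ← evalOf_mapHom, ← evalOf_mapHom, hφ, hψ]
  · change φ (Ideal.Quotient.mk G.univIdeal _) ∈ _
    rw [hr.mk_X, ← evalOf_mapHom, hφ]
    exact D.evalOf_mem_maximalIdeal hA (G.mem j)

end Gens

end DefSetup

/-- The universal deformation ring of an absolutely irreducible residual representation exists,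
for a deformation condition with finite tangent space. -/
theorem nonempty_deformationRingData (𝒪 : Type) [CommRing 𝒪] [IsDomain 𝒪]
    [IsDiscreteValuationRing 𝒪] [IsAdicComplete (maximalIdeal 𝒪) 𝒪] [Finite (ResidueField 𝒪)]
    (ρbar : ResidualGaloisRep (ResidueField 𝒪))
    (𝒟 : ∀ ⦃A : Type⦄ [CommRing A] [IsLocalRing A] [Algebra 𝒪 A], GaloisRepAdic A → Prop)
    (habs : ρbar.IsAbsolutelyIrreducible)
    (h𝒟 : GaloisRep.IsDeformationCondition 𝒪 𝒟)
    (hbar : 𝒟 (GaloisRepAdic.ofResidualGaloisRep ρbar))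
    (hfin : GaloisRep.TangentFinite 𝒪 ρbar 𝒟) :
    Nonempty (GaloisRep.DeformationRingData 𝒪 ρbar 𝒟) := by
  obtain ⟨D⟩ := DefSetup.nonempty (𝒪 := 𝒪)
    (fun b => span_range_toMatrix_eq_top ρbar habs b)
  -- finitely many generators, from the finite tangent space
  obtain ⟨d, t, ht, hgen⟩ := DefSetup.exists_generators (D := D) h𝒟 hfin hbar
  let G : D.Gens 𝒟 d := ⟨t, ht, hgen⟩
  let K₀ : D.DefIdeal 𝒟 := ⟨D.M₀, DefSetup.isDefIdeal_M₀ h𝒟 hbar⟩
  have : Nonempty (D.DefIdeal 𝒟) := ⟨K₀⟩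
  have : IsLocalHom (algebraMap 𝒪 (MvPowerSeries (Fin d) 𝒪)) := ⟨fun o ho => by
    simpa [MvPowerSeries.algebraMap_apply] using MvPowerSeries.isUnit_iff_constantCoeff.mp ho⟩
  -- power series modulo the universal ideal form a complete noetherian local ring
  have hres := residue_comp_algebraMap_surjective (σ := Fin d) (𝒪 := 𝒪)
  have := finite_residueField_of_residue_surjective hres
  have : Nontrivial (MvPowerSeries (Fin d) 𝒪 ⧸ G.univIdeal) :=
    Ideal.Quotient.nontrivial_iff.mpr fun htop => RingHom.ker_ne_top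
      (G.ev K₀ : MvPowerSeries (Fin d) 𝒪 →+* (Coord 𝒪 ⧸ K₀.1))
      (top_le_iff.mp (htop ▸ G.univIdeal_le K₀))
  have : IsLocalRing (MvPowerSeries (Fin d) 𝒪 ⧸ G.univIdeal) :=
    IsLocalRing.of_surjective' (Ideal.Quotient.mk _) Ideal.Quotient.mk_surjective
  have := isAdicComplete_quotient_maximalIdeal G.univIdeal
  have : IsNoetherianRing (MvPowerSeries (Fin d) 𝒪 ⧸ G.univIdeal) :=
    isNoetherianRing_of_surjective _ _ (Ideal.Quotient.mk _) Ideal.Quotient.mk_surjective
  have hRalg := isLocalHom_algebraMap_of_comp (Ideal.Quotient.mkₐ 𝒪 G.univIdeal)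
    (IsLocalHom.of_surjective _ Ideal.Quotient.mk_surjective)
  have hRres := residue_surjective_of_algHom (Ideal.Quotient.mkₐ 𝒪 G.univIdeal)
    Ideal.Quotient.mk_surjective hres
  -- carrying a universal normalised representation
  obtain ⟨r, hr⟩ := G.exists_isUniv h𝒟
  have hcR := hr.matCont h𝒟
  refine ⟨
    { R := MvPowerSeries (Fin d) 𝒪 ⧸ G.univIdeal
      residue_surjective := hRres
      absIrr := habs
      ρ := repOf r hcR
      isOfType := hr.isOfType h𝒟 hcR hRalg hRres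
      residual_isEquiv := D.residual_isEquiv_of_isRed hcR hr.isNormal.red
      universal := ?_ }⟩
  -- universality: normalise the given deformation
  intro A _ _ _ _ _ _ hAres ρA hρA hAequiv
  obtain ⟨rA, hcA, hnA, hA⟩ := D.exists_normal_of_residual ρA hAequiv
  obtain ⟨φ, hφloc, hmapφ⟩ :=
    hr.exists_mapHom_eq h𝒟 hAres hnA (defCond_of_isEquiv h𝒟 hAres hA hρA)
  obtain ⟨eA⟩ := hA
  refine ⟨φ, ⟨hφloc, ?_⟩, ?_⟩
  · obtain ⟨e1⟩ := isEquiv_baseChange hcR _ hφloc
    obtain ⟨e2⟩ := isEquiv_of_eq (matCont_mapHom hcR _ hφloc) hcA hmapφ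
    exact ⟨(e1.trans e2).trans eA.symm⟩
  · rintro ψ ⟨hψloc, ⟨e⟩⟩
    obtain ⟨e1⟩ := isEquiv_baseChange hcR _ hψloc
    exact hr.algHom_ext hnA.red
      (NormData.IsNormal.eq_of_isEquiv D.N (hr.isNormal.map D.N ψ hψloc) hnA
        ⟨(e1.symm.trans e).trans eA⟩) hmapφ

end Fermat.GR
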